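import Mathlib
import Fermat.Prelude.Def_FLTPrelim_FreyPackage
import Fermat.Prelude.Def_FLTPrelim_GaloisRep
import Fermat.Prelude.Def_FLTPrelim_Ramification
import Fermat.Prelude.Def_FLTPrelim_CofixedLine
import Fermat.Prelude.Def_EllipticCurve_FrobeniusTrace
import Fermat.Prelude.Def_GaloisRep_Residual

set_option autoImplicit false

open WeierstrassCurve WeierstrassCurve.Affine WeierstrassCurve.Affine.Point
open scoped WeierstrassCurve.Affine

namespace Fermat.Agent.S13.Assembly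

section LinAlg

variable {F V : Type*} [Field F] [AddCommGroup V] [Module F V]

lemma finrank_line (h2 : Module.finrank F V = 2) (N : Submodule F V) (hN0 : N ≠ ⊥)
    (hN1 : N ≠ ⊤) : Module.finrank F N = 1 := by
  have : Module.Finite F V := Module.finite_of_finrank_pos (by omega)
  have h1 : Module.finrank F N < 2 := by
    rw [← h2]; exact Submodule.finrank_lt hN1
  have h0 : Module.finrank F N ≠ 0 := by
    intro h
    exact hN0 (Submodule.finrank_eq_zero.mp h)
  omega

/-- A unipotent endomorphism of a plane acts trivially on every stable line and on the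
quotient by it. -/
theorem unipotent_line (h2 : Module.finrank F V = 2) (N : Submodule F V) (hN0 : N ≠ ⊥)
    (hN1 : N ≠ ⊤) (f : V →ₗ[F] V) (hf : ∀ x ∈ N, f x ∈ N)
    (hu : ∀ x, f (f x - x) = f x - x) :
    (∀ x ∈ N, f x = x) ∧ (∀ x, f x - x ∈ N) := by
  have : Module.Finite F V := Module.finite_of_finrank_pos (by omega)
  have hN : Module.finrank F N = 1 := finrank_line h2 N hN0 hN1
  have hA : ∀ x ∈ N, f x = x := by
    intro x hx
    by_cases hx0 : x = 0
    · simp [hx0]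
    · obtain ⟨c, hc⟩ : ∃ c : F, c • x = f x := by
        have hne : (⟨x, hx⟩ : N) ≠ 0 := by
          intro h; exact hx0 (congrArg Subtype.val h)
        obtain ⟨c, hc⟩ := (finrank_eq_one_iff_of_nonzero' (⟨x, hx⟩ : N) hne).mp hN ⟨f x, hf x hx⟩
        exact ⟨c, congrArg Subtype.val hc⟩
      have h := hu x
      rw [← hc, map_sub, map_smul, ← hc] at h
      have h' : ((c - 1) * (c - 1)) • x = 0 := by
        have : ((c - 1) * (c - 1)) • x = (c • c • x - c • x) - (c • x - x) := by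
          simp only [sub_smul, mul_smul, one_smul, smul_sub]
        rw [this, h, sub_self]
      rcases smul_eq_zero.mp h' with h'' | h''
      · have hc1 : c - 1 = 0 := by
          rcases mul_eq_zero.mp h'' with h3 | h3 <;> exact h3
        have : c = 1 := sub_eq_zero.mp hc1
        rw [← hc, this, one_smul]
      · exact absurd h'' hx0
  refine ⟨hA, ?_⟩
  intro x
  by_contra hy
  have hfy : f (f x - x) = f x - x := hu x
  have hlt : N < N ⊔ Submodule.span F {f x - x} := by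
    refine lt_of_le_of_ne le_sup_left ?_
    intro h
    apply hy
    rw [h]
    exact Submodule.mem_sup_right (Submodule.mem_span_singleton_self _)
  have hfr : Module.finrank F (N ⊔ Submodule.span F {f x - x} : Submodule F V) = 2 := by
    have h1 := Submodule.finrank_lt_finrank_of_lt hlt
    have h3 := Submodule.finrank_le (N ⊔ Submodule.span F {f x - x} : Submodule F V)
    omega
  have htop : N ⊔ Submodule.span F {f x - x} = ⊤ :=
    Submodule.eq_top_of_finrank_eq (hfr.trans h2.symm)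
  have hx : x ∈ N ⊔ Submodule.span F {f x - x} := by rw [htop]; trivial
  obtain ⟨n, hn, z, hz, hnz⟩ := Submodule.mem_sup.mp hx
  obtain ⟨d, hd⟩ := Submodule.mem_span_singleton.mp hz
  have hfx : f x - x = 0 := by
    have e1 : f x = f n + d • f (f x - x) := by
      conv_lhs => rw [← hnz, ← hd]
      rw [map_add, map_smul]
    rw [hA n hn, hfy] at e1
    rw [e1, hd, hnz, sub_self]
  apply hy
  rw [hfx]
  exact N.zero_mem

end LinAlg

section Galois

/-- The `p`-torsion of the Frey curve over `AlgebraicClosure ℚ`. -/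
abbrev Vp (P : FreyPackage) : Type :=
  Submodule.torsionBy ℤ (P.freyCurve⁄(AlgebraicClosure ℚ)).Point P.p

/-- The absolute Galois group of `ℚ`. -/
abbrev Gq : Type := AlgebraicClosure ℚ ≃ₐ[ℚ] AlgebraicClosure ℚ

variable (P : FreyPackage)

/-- Elements acting trivially on `N`. -/
def K1 (N : Submodule (ZMod P.p) (Vp P)) : Subgroup Gq where
  carrier := {σ | ∀ x ∈ N, σ • x = x}
  one_mem' := fun x _ => one_smul _ x
  mul_mem' := fun {σ τ} hσ hτ x hx => by rw [mul_smul, hτ x hx, hσ x hx]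
  inv_mem' := fun {σ} hσ x hx => by
    have h := hσ x hx
    calc σ⁻¹ • x = σ⁻¹ • (σ • x) := by rw [h]
      _ = x := inv_smul_smul σ x

/-- Elements acting trivially on the quotient by `N`. -/
def K2 (N : Submodule (ZMod P.p) (Vp P)) : Subgroup Gq where
  carrier := {σ | ∀ x : Vp P, σ • x - x ∈ N}
  one_mem' := fun x => by
    rw [one_smul, sub_self]; exact N.zero_mem
  mul_mem' := fun {σ τ} hσ hτ x => by
    have h : (σ * τ) • x - x = (σ • (τ • x) - τ • x) + (τ • x - x) := by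
      rw [mul_smul]; abel
    rw [h]; exact N.add_mem (hσ _) (hτ _)
  inv_mem' := fun {σ} hσ x => by
    have h : σ⁻¹ • x - x = -(σ • (σ⁻¹ • x) - σ⁻¹ • x) := by
      rw [smul_inv_smul]; abel
    rw [h]; exact N.neg_mem (hσ _)

lemma mem_K1 (N : Submodule (ZMod P.p) (Vp P)) (σ : Gq) :
    σ ∈ K1 P N ↔ ∀ x ∈ N, σ • x = x := Iff.rfl

lemma mem_K2 (N : Submodule (ZMod P.p) (Vp P)) (σ : Gq) :
    σ ∈ K2 P N ↔ ∀ x : Vp P, σ • x - x ∈ N := Iff.rfl

lemma K1_normal (N : Submodule (ZMod P.p) (Vp P)) (hN : IsGaloisStable ℚ N) :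
    (K1 P N).Normal := by
  refine ⟨fun σ hσ τ x hx => ?_⟩
  have h1 : τ⁻¹ • x ∈ N := hN τ⁻¹ x hx
  rw [mul_smul, mul_smul, hσ _ h1, smul_inv_smul]

lemma K2_normal (N : Submodule (ZMod P.p) (Vp P)) (hN : IsGaloisStable ℚ N) :
    (K2 P N).Normal := by
  refine ⟨fun σ hσ τ x => ?_⟩
  have h1 : (τ * σ * τ⁻¹) • x - x = τ • (σ • (τ⁻¹ • x) - τ⁻¹ • x) := by
    rw [mul_smul, mul_smul, smul_sub, smul_inv_smul]
  rw [h1]
  exact hN τ _ (hσ _)

/-- **Assembly of S13** from the local and global engines. -/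
theorem result_of_parts
    (hfr : Module.finrank (ZMod P.p) (Vp P) = 2)
    (hfin : GaloisFactorsThroughFiniteLevel
      (galoisRepModuleEnd (K := AlgebraicClosure ℚ) ℚ P.freyCurve P.p))
    (hex : ∀ q : ℕ, q.Prime →
      ∃ A : ValuationSubring (AlgebraicClosure ℚ), A.LiesOverPrime q)
    (hbridge : ∀ H : Subgroup Gq, H.Normal →
      (∃ L : IntermediateField ℚ (AlgebraicClosure ℚ), FiniteDimensional ℚ L ∧
        ∀ σ : Gq, (∀ x ∈ L, σ x = x) → σ ∈ H) →
      (∀ q : ℕ, q.Prime → ∃ A : ValuationSubring (AlgebraicClosure ℚ),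
        A.LiesOverPrime q ∧ A.inertiaSubgroupIn ℚ ≤ H) → H = ⊤)
    (hodd : ∀ q : ℕ, q.Prime → q ≠ 2 → q ≠ P.p → P.GaloisRepUnramifiedAt q)
    (hloc2 : ∀ A : ValuationSubring (AlgebraicClosure ℚ),
      (2 : AlgebraicClosure ℚ) ∈ A.nonunits →
      ∀ σ : Gq, σ ∈ A.inertiaSubgroupIn ℚ →
      ∀ Pt : (P.freyCurve⁄(AlgebraicClosure ℚ)).Point, (P.p : ℤ) • Pt = 0 →
        σ • (σ • Pt - Pt) = σ • Pt - Pt)
    (hlocp : ∀ N : Submodule (ZMod P.p) (Vp P), IsGaloisStable ℚ N → N ≠ ⊥ → N ≠ ⊤ →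
      ∀ A : ValuationSubring (AlgebraicClosure ℚ), A.LiesOverPrime P.p →
        (∀ σ : Gq, σ ∈ A.inertiaSubgroupIn ℚ → ∀ x ∈ N, σ • x = x) ∨
        (∀ σ : Gq, σ ∈ A.inertiaSubgroupIn ℚ → ∀ x : Vp P, σ • x - x ∈ N))
    (hrat : ∀ Q : (P.freyCurve⁄(AlgebraicClosure ℚ)).Point, Q ≠ 0 → P.p • Q = 0 →
      (∀ σ : Gq, σ • Q = Q) → False)
    (hred : ¬ GaloisRepIsIrreducible (K := AlgebraicClosure ℚ) ℚ P.freyCurve P.p) :
    HasGaloisStableCofixedLine (K := AlgebraicClosure ℚ) ℚ P.freyCurve P.p := by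
  have hpf : Fact P.p.Prime := ⟨P.pp⟩
  have hnt : Nontrivial (Vp P) :=
    Module.nontrivial_of_finrank_pos (R := ZMod P.p) (by omega)
  obtain ⟨N, hNs, hN0, hN1⟩ : ∃ N : Submodule (ZMod P.p) (Vp P),
      IsGaloisStable ℚ N ∧ N ≠ ⊥ ∧ N ≠ ⊤ := by
    by_contra hcon
    apply hred
    refine ⟨hnt, fun N hN => ?_⟩
    by_contra h
    push Not at h
    exact hcon ⟨N, hN, h.1, h.2⟩
  obtain ⟨L, hLfin, hL⟩ := hfin
  have hLtriv : ∀ σ : Gq, (∀ x ∈ L, σ x = x) → ∀ x : Vp P, σ • x = x := by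
    intro σ hσ x
    have h := hL σ hσ
    have h2 := congrArg (fun f => f x) h
    simpa using h2
  have hunip : ∀ q : ℕ, q.Prime → q ≠ P.p →
      ∀ A : ValuationSubring (AlgebraicClosure ℚ), A.LiesOverPrime q →
      ∀ σ : Gq, σ ∈ A.inertiaSubgroupIn ℚ →
        (∀ x ∈ N, σ • x = x) ∧ (∀ x : Vp P, σ • x - x ∈ N) := by
    intro q hq hqp A hA σ hσ
    by_cases hq2 : q = 2
    · subst hq2
      have hA2 : (2 : AlgebraicClosure ℚ) ∈ A.nonunits := by
        have h : ((2 : ℕ) : AlgebraicClosure ℚ) ∈ A.nonunits := hA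
        simpa using h
      have key := unipotent_line hfr N hN0 hN1
        (galoisRepModuleEnd (K := AlgebraicClosure ℚ) ℚ P.freyCurve P.p σ)
        (fun x hx => hNs σ x hx) (by
          intro x
          apply Subtype.ext
          have hx : (P.p : ℤ) • (x : (P.freyCurve⁄(AlgebraicClosure ℚ)).Point) = 0 :=
            (Submodule.mem_torsionBy_iff _ _).mp x.2
          exact hloc2 A hA2 σ hσ x hx)
      exact key
    · have h : ∀ x : Vp P, σ • x = x := fun x => hodd q hq hq2 hqp A hA σ hσ x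
      exact ⟨fun x _ => h x, fun x => by rw [h x, sub_self]; exact N.zero_mem⟩
  obtain ⟨Ap, hAp⟩ := hex P.p P.pp
  rcases hlocp N hNs hN0 hN1 Ap hAp with h1 | h2
  · exfalso
    have hK1 : K1 P N = ⊤ := by
      refine hbridge (K1 P N) (K1_normal P N hNs)
        ⟨L, hLfin, fun σ hσ x _ => hLtriv σ hσ x⟩ (fun q hq => ?_)
      by_cases hqp : q = P.p
      · subst hqp
        exact ⟨Ap, hAp, fun σ hσ => h1 σ hσ⟩
      · obtain ⟨A, hA⟩ := hex q hq
        exact ⟨A, hA, fun σ hσ => (hunip q hq hqp A hA σ hσ).1⟩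
    obtain ⟨x, hxN, hx0⟩ := Submodule.exists_mem_ne_zero_of_ne_bot hN0
    refine hrat (x : (P.freyCurve⁄(AlgebraicClosure ℚ)).Point) ?_ ?_ ?_
    · intro h
      exact hx0 (Subtype.ext h)
    · have hx : (P.p : ℤ) • (x : (P.freyCurve⁄(AlgebraicClosure ℚ)).Point) = 0 :=
        (Submodule.mem_torsionBy_iff _ _).mp x.2
      rw [natCast_zsmul] at hx
      exact hx
    · intro σ
      have hσ : σ ∈ K1 P N := by rw [hK1]; exact Subgroup.mem_top σ
      exact congrArg Subtype.val (hσ x hxN)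
  · have hK2 : K2 P N = ⊤ := by
      refine hbridge (K2 P N) (K2_normal P N hNs)
        ⟨L, hLfin, fun σ hσ x => ?_⟩ (fun q hq => ?_)
      · rw [hLtriv σ hσ x, sub_self]; exact N.zero_mem
      · by_cases hqp : q = P.p
        · subst hqp
          exact ⟨Ap, hAp, fun σ hσ => h2 σ hσ⟩
        · obtain ⟨A, hA⟩ := hex q hq
          exact ⟨A, hA, fun σ hσ => (hunip q hq hqp A hA σ hσ).2⟩
    refine ⟨N, hNs, hN0, hN1, fun σ x => ?_⟩
    have hσ : σ ∈ K2 P N := by rw [hK2]; exact Subgroup.mem_top σ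
    exact hσ x

end Galois

end Fermat.Agent.S13.Assembly
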