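import Mathlib
import Fermat.Prelude.Def_FLTPrelim_FreyPackage
import Fermat.Prelude.Def_FLTPrelim_GaloisRep
import Fermat.Prelude.Def_FLTPrelim_Ramification

set_option autoImplicit false

/-!
# Integrality of the Frey model over `Q̄`

The coefficients of `P.freyCurve⁄Q̄` are (casts of) integers, hence lie in every valuation subring;
natural numbers `0 < k < p` are units in every valuation subring lying over `p`.
-/

namespace Fermat.Agent.S13.FreyInt

open WeierstrassCurve WeierstrassCurve.Affine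

local notation "Kbar" => AlgebraicClosure ℚ

/-- `4 ∣ b^p - 1 - a^p` for a Frey package. -/
theorem four_dvd (P : FreyPackage) : (4 : ℤ) ∣ P.b ^ P.p - 1 - P.a ^ P.p := by
  have hp5 := P.hp5
  have hodd := P.hp_odd
  have hb : (2 : ℤ) ∣ P.b := (ZMod.intCast_zmod_eq_zero_iff_dvd P.b 2).1 P.hb2
  have hb4 : (4 : ℤ) ∣ P.b ^ P.p := by
    obtain ⟨k, hk⟩ := hb
    have : P.p = 2 + (P.p - 2) := by omega
    rw [hk, this, pow_add, mul_pow]
    exact ⟨k ^ 2 * (2 * k) ^ (P.p - 2), by ring⟩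
  have ha : ((P.a ^ P.p : ℤ) : ZMod 4) = 3 := by
    obtain ⟨j, hj⟩ := hodd
    rw [Int.cast_pow, P.ha4, hj, pow_succ, pow_mul]
    have h9 : ((3 : ZMod 4)) ^ 2 = 1 := by decide
    rw [h9, one_pow, one_mul]
  have hb' : ((P.b ^ P.p : ℤ) : ZMod 4) = 0 :=
    (ZMod.intCast_zmod_eq_zero_iff_dvd _ 4).2 hb4
  apply (ZMod.intCast_zmod_eq_zero_iff_dvd _ 4).1
  rw [Int.cast_sub, Int.cast_sub, ha, hb', Int.cast_one]
  decide

/-- `16 ∣ -(a^p) * b^p` for a Frey package. -/
theorem sixteen_dvd (P : FreyPackage) : (16 : ℤ) ∣ -(P.a ^ P.p) * (P.b ^ P.p) := by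
  have hp5 := P.hp5
  have hb : (2 : ℤ) ∣ P.b := (ZMod.intCast_zmod_eq_zero_iff_dvd P.b 2).1 P.hb2
  obtain ⟨k, hk⟩ := hb
  have : P.p = 4 + (P.p - 4) := by omega
  rw [hk, this, pow_add (2 * k), mul_pow]
  exact ⟨-(P.a ^ (4 + (P.p - 4))) * (k ^ 4 * (2 * k) ^ (P.p - 4)), by ring⟩

theorem a₁_eq (P : FreyPackage) : (P.freyCurve⁄Kbar).a₁ = 1 := by
  simp [FreyPackage.freyCurve, WeierstrassCurve.baseChange]

theorem a₃_eq (P : FreyPackage) : (P.freyCurve⁄Kbar).a₃ = 0 := by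
  simp [FreyPackage.freyCurve, WeierstrassCurve.baseChange]

theorem a₆_eq (P : FreyPackage) : (P.freyCurve⁄Kbar).a₆ = 0 := by
  simp [FreyPackage.freyCurve, WeierstrassCurve.baseChange]

theorem a₂_eq (P : FreyPackage) :
    (P.freyCurve⁄Kbar).a₂ = ((P.b : Kbar) ^ P.p - 1 - (P.a : Kbar) ^ P.p) / 4 := by
  simp [FreyPackage.freyCurve, WeierstrassCurve.baseChange]

theorem a₄_eq (P : FreyPackage) :
    (P.freyCurve⁄Kbar).a₄ = -((P.a : Kbar) ^ P.p) * ((P.b : Kbar) ^ P.p) / 16 := by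
  simp [FreyPackage.freyCurve, WeierstrassCurve.baseChange]

/-- `a₂` of the Frey model is an integer. -/
theorem a₂_int (P : FreyPackage) : ∃ k : ℤ, (P.freyCurve⁄Kbar).a₂ = (k : Kbar) := by
  obtain ⟨k, hk⟩ := four_dvd P
  refine ⟨k, ?_⟩
  have h : ((P.b : Kbar) ^ P.p - 1 - (P.a : Kbar) ^ P.p) = 4 * (k : Kbar) := by
    exact_mod_cast congrArg (Int.cast : ℤ → Kbar) hk
  rw [a₂_eq, h]
  field_simp

/-- `a₄` of the Frey model is an integer. -/
theorem a₄_int (P : FreyPackage) : ∃ k : ℤ, (P.freyCurve⁄Kbar).a₄ = (k : Kbar) := by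
  obtain ⟨k, hk⟩ := sixteen_dvd P
  refine ⟨k, ?_⟩
  have h : -((P.a : Kbar) ^ P.p) * ((P.b : Kbar) ^ P.p) = 16 * (k : Kbar) := by
    exact_mod_cast congrArg (Int.cast : ℤ → Kbar) hk
  rw [a₄_eq, h]
  field_simp

/-- Integers are integral. -/
theorem val_intCast_le_one (A : ValuationSubring Kbar) (k : ℤ) : A.valuation (k : Kbar) ≤ 1 :=
  (A.valuation_le_one_iff _).mpr (intCast_mem A k)

/-- All Weierstrass coefficients of the Frey model are integral at every valuation subring. -/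
theorem val_coeff_le_one (P : FreyPackage) (A : ValuationSubring Kbar) :
    A.valuation (P.freyCurve⁄Kbar).a₁ ≤ 1 ∧ A.valuation (P.freyCurve⁄Kbar).a₂ ≤ 1 ∧
    A.valuation (P.freyCurve⁄Kbar).a₃ ≤ 1 ∧ A.valuation (P.freyCurve⁄Kbar).a₄ ≤ 1 ∧
    A.valuation (P.freyCurve⁄Kbar).a₆ ≤ 1 := by
  obtain ⟨k₂, h₂⟩ := a₂_int P
  obtain ⟨k₄, h₄⟩ := a₄_int P
  refine ⟨?_, ?_, ?_, ?_, ?_⟩
  · rw [a₁_eq, map_one]
  · rw [h₂]; exact val_intCast_le_one A k₂
  · rw [a₃_eq, map_zero]; exact zero_le_one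
  · rw [h₄]; exact val_intCast_le_one A k₄
  · rw [a₆_eq, map_zero]; exact zero_le_one

/-- In a valuation subring in which the prime `ℓ` is a non-unit, integers prime to `ℓ` are
units. -/
theorem val_intCast_eq_one (A : ValuationSubring Kbar) (ℓ : ℕ)
    (hℓ : ℓ.Prime) (hA : A.LiesOverPrime ℓ) (c : ℤ) (hc : ¬ (ℓ : ℤ) ∣ c) :
    A.valuation (c : Kbar) = 1 := by
  refine le_antisymm (val_intCast_le_one A c) (not_lt.mp fun hlt => ?_)
  have hcop : IsCoprime c (ℓ : ℤ) :=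
    ((Nat.prime_iff_prime_int.mp hℓ).coprime_iff_not_dvd.mpr hc).symm
  obtain ⟨u, w, huw⟩ := hcop
  have h1 : A.valuation ((u : Kbar) * c + (w : Kbar) * ℓ) < 1 := by
    refine A.valuation.map_add_lt ?_ ?_
    · rw [map_mul]
      calc A.valuation (u : Kbar) * A.valuation (c : Kbar) ≤ 1 * A.valuation (c : Kbar) := by
            gcongr; exact val_intCast_le_one A u
        _ < 1 := by rw [one_mul]; exact hlt
    · rw [map_mul]
      calc A.valuation (w : Kbar) * A.valuation (ℓ : Kbar) ≤ 1 * A.valuation (ℓ : Kbar) := by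
            gcongr; exact val_intCast_le_one A w
        _ < 1 := by rw [one_mul]; exact A.mem_nonunits_iff.mp hA
  have h2 : ((u : Kbar) * c + (w : Kbar) * ℓ) = 1 := by
    exact_mod_cast congrArg (Int.cast : ℤ → Kbar) huw
  rw [h2, map_one] at h1
  exact lt_irrefl _ h1

/-- Natural numbers `0 < k < p` are units at a valuation subring over `p`. -/
theorem val_natCast_eq_one (A : ValuationSubring Kbar) (p : ℕ) (hp : p.Prime)
    (hA : A.LiesOverPrime p) (k : ℕ) (hk0 : 0 < k) (hkp : k < p) :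
    A.valuation (k : Kbar) = 1 := by
  have h := val_intCast_eq_one A p hp hA (k : ℤ) (by
    intro hdvd
    have := Nat.le_of_dvd hk0 (Int.natCast_dvd_natCast.mp hdvd)
    omega)
  simpa using h

/-- Rational numbers of valuation `> 1` at a valuation subring over `p` have valuation at least
`1 / |p|`. -/
theorem rat_val_ge (A : ValuationSubring Kbar) (p : ℕ) (hp : p.Prime) (hA : A.LiesOverPrime p)
    (r : ℚ) (h : 1 < A.valuation (r : Kbar)) :
    1 ≤ A.valuation (r : Kbar) * A.valuation (p : Kbar) := by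
  have hden0 : ((r.den : ℤ) : Kbar) ≠ 0 := by exact_mod_cast r.den_ne_zero
  have hr : (r : Kbar) = (r.num : Kbar) / ((r.den : ℤ) : Kbar) := by
    conv_lhs => rw [← Rat.num_div_den r]
    push_cast
    rfl
  -- `p ∣ den`
  have hpd : (p : ℤ) ∣ (r.den : ℤ) := by
    by_contra hnd
    have h1 := val_intCast_eq_one A p hp hA _ hnd
    rw [hr, map_div₀, h1, div_one] at h
    exact absurd (val_intCast_le_one A r.num) (not_le.mpr h)
  obtain ⟨m, hm⟩ := hpd
  -- `p ∤ num`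
  have hpn : ¬ (p : ℤ) ∣ r.num := by
    intro hdvd
    have hcop := r.reduced
    have h1 : (p : ℤ) ∣ Int.gcd r.num r.den := by
      rw [Int.dvd_coe_gcd_iff]  
      exact ⟨hdvd, ⟨m, hm⟩⟩
    rw [show Int.gcd r.num (r.den : ℤ) = 1 from hcop] at h1
    have := Int.le_of_dvd one_pos h1
    have := hp.two_le
    omega
  have hn1 := val_intCast_eq_one A p hp hA _ hpn
  have hm0 : (m : Kbar) ≠ 0 := by
    rintro h0
    apply hden0
    rw [hm]
    push_cast
    rw [h0, mul_zero]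
  have hp0 : (p : Kbar) ≠ 0 := by exact_mod_cast hp.ne_zero
  have hvm0 : A.valuation (m : Kbar) ≠ 0 := (A.valuation.ne_zero_iff).mpr hm0
  have hvp0 : A.valuation (p : Kbar) ≠ 0 := (A.valuation.ne_zero_iff).mpr hp0
  have e : A.valuation (r : Kbar) * A.valuation (p : Kbar) = (A.valuation (m : Kbar))⁻¹ := by
    rw [hr, map_div₀, hn1, hm]
    push_cast
    rw [map_mul, one_div, mul_inv, mul_comm (A.valuation (p : Kbar))⁻¹, mul_assoc,
      inv_mul_cancel₀ hvp0, mul_one]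
  rw [e]
  exact (one_le_inv₀ (zero_lt_iff.mpr hvm0)).mpr (val_intCast_le_one A m)

end Fermat.Agent.S13.FreyInt
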