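import Fermat.Agent.Lib.TorsionCard.Basic

set_option autoImplicit false

/-!
# Kernel of reduction along multiples (general Weierstrass model, any residue characteristic)

`K` a field, `v` a valuation on `K`, `W` a Weierstrass curve over `K` whose `b`-invariants are
`v`-integral.  A point `P ≠ O` with `1 < v x(P)` lies in the kernel of reduction.  With
`t(Q) = 1 / x(Q)` we prove, by the `x`-coordinate recursion (sum and product of `x(Q ± P)` and the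
duplication formula, all taken from `Fermat.Agent.Lib.TorsionCard.Basic`), that for every `n`
either `n • P = O` and `v n < 1`, or `n • P ≠ O` and `t(n • P) ≡ n² t(P)` modulo higher order.

No hypothesis on `v 2` is needed, so the results hold in residue characteristic `2` as well.
-/

namespace Fermat.Agent.S13.KerRedGen

open WeierstrassCurve Fermat.Agent.Lib.TorsionCard

variable {K : Type*} [Field K] {Γ₀ : Type*} [LinearOrderedCommGroupWithZero Γ₀]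
  (v : Valuation K Γ₀)

section val

lemma val_natCast_le_one (n : ℕ) : v (n : K) ≤ 1 := by
  induction n with
  | zero => simp
  | succ n ih =>
    rw [Nat.cast_succ]
    exact v.map_add_le ih (le_of_eq v.map_one)

lemma val_two_le_one : v (2 : K) ≤ 1 := by
  have h := val_natCast_le_one v 2
  simpa using h

lemma val_four_le_one : v (4 : K) ≤ 1 := by
  have h := val_natCast_le_one v 4
  simpa using h

lemma val_intCast_le_one (a : ℤ) : v (a : K) ≤ 1 := by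
  cases a with
  | ofNat n => simpa using val_natCast_le_one v n
  | negSucc n =>
    rw [Int.cast_negSucc, v.map_neg]
    exact val_natCast_le_one v (n + 1)

variable {v}

lemma int_add {a b : K} (ha : v a ≤ 1) (hb : v b ≤ 1) : v (a + b) ≤ 1 := v.map_add_le ha hb

lemma int_mul {a b : K} (ha : v a ≤ 1) (hb : v b ≤ 1) : v (a * b) ≤ 1 := by
  rw [v.map_mul]
  exact mul_le_one' ha hb

lemma ne_zero_of_one_lt {x : K} (hx : 1 < v x) : x ≠ 0 := by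
  rintro rfl
  rw [v.map_zero] at hx
  exact not_lt_zero hx

lemma val_inv_lt_one {x : K} (hx : 1 < v x) : v x⁻¹ < 1 := by
  rw [map_inv₀]
  exact inv_lt_one_of_one_lt₀ hx

lemma ne_zero_of_val_eq_one {x : K} (hx : v x = 1) : x ≠ 0 := by
  rintro rfl
  rw [v.map_zero] at hx
  exact zero_ne_one hx

lemma mul_lt_of_lt_one {a b : Γ₀} (ha : a ≤ 1) (hb : b < 1) : a * b < 1 :=
  lt_of_le_of_lt (mul_le_of_le_one_left' ha) hb

lemma mul_self_lt {a b : Γ₀} (ha : a ≠ 0) (hb : b < 1) : a * b < a := by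
  have : a * b < a * 1 := by
    have ha' : 0 < a := zero_lt_iff.2 ha
    gcongr
  rwa [mul_one] at this

/-- If `v (c * t) < v t` then `v c < 1`. -/
lemma lt_one_of_mul_lt {c t : K} (h : v (c * t) < v t) : v c < 1 := by
  rw [v.map_mul] at h
  by_contra hcon
  push Not at hcon
  exact absurd h (not_lt.2 (le_mul_of_one_le_left' hcon))

/-- From `v (1/q - c/x) < v (1/x)` with `c` integral and `1 < v x`: `q` is again non-integral
and `v (1/q) ≤ v (1/x)`. -/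
lemma val_of_est {x q c : K} (hc : v c ≤ 1) (hq0 : q ≠ 0)
    (h : v (q⁻¹ - c * x⁻¹) < v x⁻¹) (hx : 1 < v x) : v q⁻¹ ≤ v x⁻¹ ∧ 1 < v q := by
  have ht : v x⁻¹ < 1 := val_inv_lt_one hx
  have h1 : v q⁻¹ ≤ v x⁻¹ := by
    have e : q⁻¹ = (q⁻¹ - c * x⁻¹) + c * x⁻¹ := by ring
    rw [e]
    apply v.map_add_le (le_of_lt h)
    rw [v.map_mul]
    exact mul_le_of_le_one_left' hc
  refine ⟨h1, ?_⟩
  have h2 : v q⁻¹ < 1 := lt_of_le_of_lt h1 ht
  rw [map_inv₀] at h2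
  have hne : v q ≠ 0 := v.ne_zero_iff.2 hq0
  by_contra hle
  push Not at hle
  have : 1 ≤ (v q)⁻¹ := (one_le_inv₀ (zero_lt_iff.2 hne)).2 hle
  exact absurd h2 (not_lt.2 this)

/-- If moreover `c` is a unit, then `v q = v x`. -/
lemma val_eq_of_est {x q c : K} (hc : v c = 1)
    (h : v (q⁻¹ - c * x⁻¹) < v x⁻¹) : v q = v x := by
  have e : q⁻¹ = (q⁻¹ - c * x⁻¹) + c * x⁻¹ := by ring
  have h' : v (q⁻¹ - c * x⁻¹) < v (c * x⁻¹) := by rwa [v.map_mul, hc, one_mul]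
  have h2 : v q⁻¹ = v (c * x⁻¹) := by
    conv_lhs => rw [e]
    exact v.map_add_eq_of_lt_right h'
  rw [v.map_mul, hc, one_mul, map_inv₀, map_inv₀] at h2
  exact inv_inj.1 h2

/-- In residue characteristic `p`, every natural number prime to `p` is a unit. -/
lemma val_natCast_eq_one_of_coprime {p k : ℕ} (hp : v (p : K) < 1) (hk : Nat.Coprime k p) :
    v (k : K) = 1 := by
  refine le_antisymm (val_natCast_le_one v k) ?_
  by_contra hcon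
  push Not at hcon
  obtain ⟨a, b, hab⟩ := Nat.isCoprime_iff_coprime.2 hk
  have h1 : ((a : ℤ) : K) * (k : K) + ((b : ℤ) : K) * (p : K) = 1 := by
    exact_mod_cast congrArg (Int.cast : ℤ → K) hab
  have h2 : v (1 : K) < 1 := by
    rw [← h1]
    apply v.map_add_lt
    · rw [v.map_mul]
      exact mul_lt_of_lt_one (val_intCast_le_one v a) hcon
    · rw [v.map_mul]
      exact mul_lt_of_lt_one (val_intCast_le_one v b) hp
  rw [v.map_one] at h2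
  exact lt_irrefl _ h2

end val

section core

variable {v}

/-- Duplication, algebraic core: the numerator of `x(2P)` is `x⁴` times a unit. -/
lemma dup_num {b₄ b₆ b₈ x : K} (h₄ : v b₄ ≤ 1) (h₆ : v b₆ ≤ 1) (h₈ : v b₈ ≤ 1)
    (hx : 1 < v x) :
    v (1 - x⁻¹ ^ 2 * (b₄ + 2 * b₆ * x⁻¹ + b₈ * x⁻¹ ^ 2)) = 1 ∧
      x ^ 4 - b₄ * x ^ 2 - 2 * b₆ * x - b₈ =
        x ^ 4 * (1 - x⁻¹ ^ 2 * (b₄ + 2 * b₆ * x⁻¹ + b₈ * x⁻¹ ^ 2)) := by
  have hx0 : x ≠ 0 := ne_zero_of_one_lt hx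
  have ht : v x⁻¹ < 1 := val_inv_lt_one hx
  have ht' : v x⁻¹ ≤ 1 := le_of_lt ht
  constructor
  · apply v.map_one_sub_of_lt
    have hw : v (b₄ + 2 * b₆ * x⁻¹ + b₈ * x⁻¹ ^ 2) ≤ 1 :=
      int_add (int_add h₄ (int_mul (int_mul (val_two_le_one v) h₆) ht'))
        (int_mul h₈ (by rw [sq]; exact int_mul ht' ht'))
    rw [v.map_mul, v.map_pow, mul_comm]
    refine mul_lt_of_lt_one hw ?_
    rw [sq]
    exact mul_lt_of_lt_one ht' ht
  · field_simp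
    ring

/-- Duplication: if the denominator of `x(2P)` vanishes for a point of the kernel of reduction,
then `v 2 < 1`. -/
lemma dup_den_zero {b₂ b₄ b₆ x : K} (h₂ : v b₂ ≤ 1) (h₄ : v b₄ ≤ 1) (h₆ : v b₆ ≤ 1)
    (hx : 1 < v x) (hD : 4 * x ^ 3 + b₂ * x ^ 2 + 2 * b₄ * x + b₆ = 0) : v (2 : K) < 1 := by
  have hx0 : x ≠ 0 := ne_zero_of_one_lt hx
  have ht : v x⁻¹ < 1 := val_inv_lt_one hx
  have ht' : v x⁻¹ ≤ 1 := le_of_lt ht
  have e : (4 : K) = -(x⁻¹ * (b₂ + 2 * b₄ * x⁻¹ + b₆ * x⁻¹ ^ 2)) := by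
    field_simp
    linear_combination hD
  have h4 : v (4 : K) < 1 := by
    rw [e, v.map_neg, v.map_mul, mul_comm]
    refine mul_lt_of_lt_one ?_ ht
    exact int_add (int_add h₂ (int_mul (int_mul (val_two_le_one v) h₄) ht'))
      (int_mul h₆ (by rw [sq]; exact int_mul ht' ht'))
  by_contra hcon
  push Not at hcon
  have h2 : v (2 : K) = 1 := le_antisymm (val_two_le_one v) hcon
  have : v (4 : K) = 1 := by
    have e4 : (4 : K) = 2 * 2 := by norm_num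
    rw [e4, v.map_mul, h2, one_mul]
  rw [this] at h4
  exact lt_irrefl _ h4

/-- Duplication estimate, algebraic core: `1/x(2P) ≡ 4/x(P)` to first order. -/
lemma dup_core {b₂ b₄ b₆ b₈ x x' : K} (h₂ : v b₂ ≤ 1) (h₄ : v b₄ ≤ 1) (h₆ : v b₆ ≤ 1)
    (h₈ : v b₈ ≤ 1) (hx : 1 < v x)
    (hx' : x' * (4 * x ^ 3 + b₂ * x ^ 2 + 2 * b₄ * x + b₆) =
      x ^ 4 - b₄ * x ^ 2 - 2 * b₆ * x - b₈) :
    x' ≠ 0 ∧ v (x'⁻¹ - 4 * x⁻¹) < v x⁻¹ := by
  have hx0 : x ≠ 0 := ne_zero_of_one_lt hx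
  have ht : v x⁻¹ < 1 := val_inv_lt_one hx
  have ht' : v x⁻¹ ≤ 1 := le_of_lt ht
  have ht0 : v x⁻¹ ≠ 0 := v.ne_zero_iff.2 (inv_ne_zero hx0)
  obtain ⟨hU, hN⟩ := dup_num h₄ h₆ h₈ hx
  have hU0 := ne_zero_of_val_eq_one hU
  rw [hN] at hx'
  have hx'0 : x' ≠ 0 := by
    intro h
    rw [h, zero_mul] at hx'
    exact (mul_ne_zero (pow_ne_zero 4 hx0) hU0) hx'.symm
  refine ⟨hx'0, ?_⟩
  have hD' : 4 * x ^ 3 + b₂ * x ^ 2 + 2 * b₄ * x + b₆ =
      x ^ 4 * (x⁻¹ * (4 + b₂ * x⁻¹ + 2 * b₄ * x⁻¹ ^ 2 + b₆ * x⁻¹ ^ 3)) := by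
    field_simp
  have e1 : x'⁻¹ = x⁻¹ * (4 + b₂ * x⁻¹ + 2 * b₄ * x⁻¹ ^ 2 + b₆ * x⁻¹ ^ 3) /
      (1 - x⁻¹ ^ 2 * (b₄ + 2 * b₆ * x⁻¹ + b₈ * x⁻¹ ^ 2)) := by
    rw [eq_div_iff hU0]
    have h4 : x ^ 4 ≠ 0 := pow_ne_zero 4 hx0
    rw [hD'] at hx'
    have hU' : 1 - x⁻¹ ^ 2 * (b₄ + 2 * b₆ * x⁻¹ + b₈ * x⁻¹ ^ 2) =
        x' * (x⁻¹ * (4 + b₂ * x⁻¹ + 2 * b₄ * x⁻¹ ^ 2 + b₆ * x⁻¹ ^ 3)) := by
      apply mul_left_cancel₀ h4
      rw [← hx']
      ring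
    rw [hU', ← mul_assoc, inv_mul_cancel₀ hx'0, one_mul]
  have key : x'⁻¹ - 4 * x⁻¹ =
      x⁻¹ ^ 2 * (b₂ + 2 * b₄ * x⁻¹ + b₆ * x⁻¹ ^ 2
        + 4 * x⁻¹ * (b₄ + 2 * b₆ * x⁻¹ + b₈ * x⁻¹ ^ 2)) /
      (1 - x⁻¹ ^ 2 * (b₄ + 2 * b₆ * x⁻¹ + b₈ * x⁻¹ ^ 2)) := by
    rw [e1, eq_div_iff hU0, sub_mul, div_mul_cancel₀ _ hU0]
    ring
  rw [key, map_div₀, hU, div_one, v.map_mul, v.map_pow]
  have hw : v (b₂ + 2 * b₄ * x⁻¹ + b₆ * x⁻¹ ^ 2
      + 4 * x⁻¹ * (b₄ + 2 * b₆ * x⁻¹ + b₈ * x⁻¹ ^ 2)) ≤ 1 := by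
    have hsq : v (x⁻¹ ^ 2) ≤ 1 := by rw [sq]; exact int_mul ht' ht'
    exact int_add (int_add (int_add h₂ (int_mul (int_mul (val_two_le_one v) h₄) ht'))
      (int_mul h₆ hsq))
      (int_mul (int_mul (val_four_le_one v) ht')
        (int_add (int_add h₄ (int_mul (int_mul (val_two_le_one v) h₆) ht')) (int_mul h₈ hsq)))
  calc v x⁻¹ ^ 2 * v (b₂ + 2 * b₄ * x⁻¹ + b₆ * x⁻¹ ^ 2
        + 4 * x⁻¹ * (b₄ + 2 * b₆ * x⁻¹ + b₈ * x⁻¹ ^ 2))
      ≤ v x⁻¹ ^ 2 * 1 := by gcongr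
    _ = v x⁻¹ * v x⁻¹ := by rw [mul_one, sq]
    _ < v x⁻¹ := mul_self_lt ht0 ht

/-- Sum estimate, algebraic core: `1/x(Q+P) + 1/x(Q-P) ≡ 2 (1/x(Q) + 1/x(P))` to second order. -/
lemma sum_core {b₂ b₄ b₆ b₈ x₁ x₂ r₁ r₂ : K} (h₂ : v b₂ ≤ 1) (h₄ : v b₄ ≤ 1) (h₆ : v b₆ ≤ 1)
    (h₈ : v b₈ ≤ 1) (hx₁ : 1 < v x₁) (hx₂ : 1 < v x₂) (hne : x₁ ≠ x₂)
    (hs : (r₁ + r₂) * (x₁ - x₂) ^ 2 =
      2 * x₁ * x₂ * (x₁ + x₂) + b₂ * x₁ * x₂ + b₄ * (x₁ + x₂) + b₆)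
    (hp : r₁ * r₂ * (x₁ - x₂) ^ 2 =
      x₁ ^ 2 * x₂ ^ 2 - b₄ * x₁ * x₂ - b₆ * (x₁ + x₂) - b₈) :
    r₁ ≠ 0 ∧ r₂ ≠ 0 ∧
      v (r₁⁻¹ + r₂⁻¹ - 2 * (x₁⁻¹ + x₂⁻¹)) ≤ v x₁⁻¹ * v x₂⁻¹ := by
  have hx10 : x₁ ≠ 0 := ne_zero_of_one_lt hx₁
  have hx20 : x₂ ≠ 0 := ne_zero_of_one_lt hx₂
  have ht1 : v x₁⁻¹ < 1 := val_inv_lt_one hx₁
  have ht2 : v x₂⁻¹ < 1 := val_inv_lt_one hx₂
  have ht1' : v x₁⁻¹ ≤ 1 := le_of_lt ht1
  have ht2' : v x₂⁻¹ ≤ 1 := le_of_lt ht2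
  have hd : x₁ - x₂ ≠ 0 := sub_ne_zero.2 hne
  have hsum' : v (x₁⁻¹ + x₂⁻¹) ≤ 1 := int_add ht1' ht2'
  have h12' : v (x₁⁻¹ * x₂⁻¹) ≤ 1 := int_mul ht1' ht2'
  -- the unit
  have hw : v (b₄ + b₆ * (x₁⁻¹ + x₂⁻¹) + b₈ * (x₁⁻¹ * x₂⁻¹)) ≤ 1 :=
    int_add (int_add h₄ (int_mul h₆ hsum')) (int_mul h₈ h12')
  have hU : v (1 - x₁⁻¹ * x₂⁻¹ * (b₄ + b₆ * (x₁⁻¹ + x₂⁻¹) + b₈ * (x₁⁻¹ * x₂⁻¹))) = 1 := by
    apply v.map_one_sub_of_lt
    rw [v.map_mul, mul_comm]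
    refine mul_lt_of_lt_one hw ?_
    rw [v.map_mul]
    exact mul_lt_of_lt_one ht1' ht2
  have hU0 := ne_zero_of_val_eq_one hU
  have hP : x₁ ^ 2 * x₂ ^ 2 - b₄ * x₁ * x₂ - b₆ * (x₁ + x₂) - b₈ =
      x₁ ^ 2 * x₂ ^ 2 *
        (1 - x₁⁻¹ * x₂⁻¹ * (b₄ + b₆ * (x₁⁻¹ + x₂⁻¹) + b₈ * (x₁⁻¹ * x₂⁻¹))) := by
    field_simp
    ring
  have hS : 2 * x₁ * x₂ * (x₁ + x₂) + b₂ * x₁ * x₂ + b₄ * (x₁ + x₂) + b₆ =
      x₁ ^ 2 * x₂ ^ 2 * (2 * (x₁⁻¹ + x₂⁻¹) + x₁⁻¹ * x₂⁻¹ *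
        (b₂ + b₄ * (x₁⁻¹ + x₂⁻¹) + b₆ * (x₁⁻¹ * x₂⁻¹))) := by
    field_simp
    ring
  rw [hP] at hp
  rw [hS] at hs
  have h12 : r₁ * r₂ ≠ 0 := by
    intro h
    rw [h, zero_mul] at hp
    exact (mul_ne_zero (mul_ne_zero (pow_ne_zero 2 hx10) (pow_ne_zero 2 hx20)) hU0) hp.symm
  have hr1 : r₁ ≠ 0 := left_ne_zero_of_mul h12
  have hr2 : r₂ ≠ 0 := right_ne_zero_of_mul h12
  refine ⟨hr1, hr2, ?_⟩
  have key : r₁⁻¹ + r₂⁻¹ - 2 * (x₁⁻¹ + x₂⁻¹) =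
      x₁⁻¹ * x₂⁻¹ * (b₂ + b₄ * (x₁⁻¹ + x₂⁻¹) + b₆ * (x₁⁻¹ * x₂⁻¹)
        + 2 * (x₁⁻¹ + x₂⁻¹) * (b₄ + b₆ * (x₁⁻¹ + x₂⁻¹) + b₈ * (x₁⁻¹ * x₂⁻¹))) /
      (1 - x₁⁻¹ * x₂⁻¹ * (b₄ + b₆ * (x₁⁻¹ + x₂⁻¹) + b₈ * (x₁⁻¹ * x₂⁻¹))) := by
    have e1 : r₁⁻¹ + r₂⁻¹ = (r₁ + r₂) * (x₁ - x₂) ^ 2 / (r₁ * r₂ * (x₁ - x₂) ^ 2) := by
      field_simp
      ring
    have hx12 : x₁ ^ 2 * x₂ ^ 2 ≠ 0 := mul_ne_zero (pow_ne_zero 2 hx10) (pow_ne_zero 2 hx20)
    rw [e1, hs, hp, mul_div_mul_left _ _ hx12, eq_div_iff hU0, sub_mul, div_mul_cancel₀ _ hU0]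
    ring
  rw [key, map_div₀, hU, div_one, v.map_mul, v.map_mul]
  have hw2 : v (b₂ + b₄ * (x₁⁻¹ + x₂⁻¹) + b₆ * (x₁⁻¹ * x₂⁻¹)
      + 2 * (x₁⁻¹ + x₂⁻¹) * (b₄ + b₆ * (x₁⁻¹ + x₂⁻¹) + b₈ * (x₁⁻¹ * x₂⁻¹))) ≤ 1 :=
    int_add (int_add (int_add h₂ (int_mul h₄ hsum')) (int_mul h₆ h12'))
      (int_mul (int_mul (val_two_le_one v) hsum') hw)
  calc v x₁⁻¹ * v x₂⁻¹ * v (b₂ + b₄ * (x₁⁻¹ + x₂⁻¹) + b₆ * (x₁⁻¹ * x₂⁻¹)
        + 2 * (x₁⁻¹ + x₂⁻¹) * (b₄ + b₆ * (x₁⁻¹ + x₂⁻¹) + b₈ * (x₁⁻¹ * x₂⁻¹)))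
      ≤ v x₁⁻¹ * v x₂⁻¹ * 1 := by gcongr
    _ = v x₁⁻¹ * v x₂⁻¹ := mul_one _

end core

section points

variable {v}

variable [DecidableEq K] {W : WeierstrassCurve.Affine K}

/-- The `b`-invariants of `W` are `v`-integral. -/
structure IntB (v : Valuation K Γ₀) (W : WeierstrassCurve.Affine K) : Prop where
  b₂ : v W.b₂ ≤ 1
  b₄ : v W.b₄ ≤ 1
  b₆ : v W.b₆ ≤ 1
  b₈ : v W.b₈ ≤ 1

omit [DecidableEq K] in
/-- Integral Weierstrass coefficients give integral `b`-invariants. -/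
lemma intB_of_coeffs (h₁ : v W.a₁ ≤ 1) (h₂ : v W.a₂ ≤ 1) (h₃ : v W.a₃ ≤ 1) (h₄ : v W.a₄ ≤ 1)
    (h₆ : v W.a₆ ≤ 1) : IntB v W := by
  have i2 := val_two_le_one v
  have i4 := val_four_le_one v
  refine ⟨?_, ?_, ?_, ?_⟩
  · rw [WeierstrassCurve.b₂]
    exact int_add (by rw [sq]; exact int_mul h₁ h₁) (int_mul i4 h₂)
  · rw [WeierstrassCurve.b₄]
    exact int_add (int_mul i2 h₄) (int_mul h₁ h₃)
  · rw [WeierstrassCurve.b₆]
    exact int_add (by rw [sq]; exact int_mul h₃ h₃) (int_mul i4 h₆)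
  · rw [WeierstrassCurve.b₈]
    have hs1 : v (W.a₁ ^ 2) ≤ 1 := by rw [sq]; exact int_mul h₁ h₁
    have hs3 : v (W.a₃ ^ 2) ≤ 1 := by rw [sq]; exact int_mul h₃ h₃
    have hs4 : v (W.a₄ ^ 2) ≤ 1 := by rw [sq]; exact int_mul h₄ h₄
    refine v.map_sub_le (int_add (v.map_sub_le (int_add (int_mul hs1 h₆)
      (int_mul (int_mul i4 h₂) h₆)) (int_mul (int_mul h₁ h₃) h₄)) (int_mul h₂ hs3)) hs4

/-- If the denominator of the duplication formula vanishes, the point is `2`-torsion. -/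
lemma two_nsmul_eq_zero_of_den {P : W.Point} {x : K} (hP : HasXc W P x)
    (hD : 4 * x ^ 3 + W.b₂ * x ^ 2 + 2 * W.b₄ * x + W.b₆ = 0) : 2 • P = 0 := by
  obtain ⟨y, hy, rfl⟩ := hP
  have heq := (W.equation_iff x y).mp hy.1
  have hB : 4 * x ^ 3 + W.b₂ * x ^ 2 + 2 * W.b₄ * x + W.b₆ = (y - W.negY x y) ^ 2 := by
    simp only [WeierstrassCurve.b₂, WeierstrassCurve.b₄, WeierstrassCurve.b₆, Affine.negY]
    linear_combination (-4 : K) * heq
  rw [hD] at hB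
  have hy' : y = W.negY x y := by
    have := pow_eq_zero_iff (two_ne_zero) |>.1 hB.symm
    exact sub_eq_zero.1 this
  rw [two_nsmul, Affine.Point.add_self_of_Y_eq hy']

/-- Duplication estimate in the kernel of reduction. -/
lemma dup_est (hB : IntB v W) {P : W.Point} {x : K} (hP : HasXc W P x) (hx : 1 < v x) :
    (2 • P = 0 ∧ v (2 : K) < 1) ∨
      ∃ x₂, HasXc W (2 • P) x₂ ∧ x₂ ≠ 0 ∧ v (x₂⁻¹ - 4 * x⁻¹) < v x⁻¹ := by
  by_cases hD : 4 * x ^ 3 + W.b₂ * x ^ 2 + 2 * W.b₄ * x + W.b₆ = 0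
  · exact Or.inl ⟨two_nsmul_eq_zero_of_den hP hD, dup_den_zero hB.b₂ hB.b₄ hB.b₆ hx hD⟩
  · obtain ⟨x', hX', hrel⟩ := hasXc_two_nsmul hP hD
    obtain ⟨h0, hest⟩ := dup_core hB.b₂ hB.b₄ hB.b₆ hB.b₈ hx hrel
    exact Or.inr ⟨x', hX', h0, hest⟩

/-- Sum estimate in the kernel of reduction. -/
lemma sum_est (hB : IntB v W) {P Q : W.Point} {x x' : K} (hP : HasXc W P x)
    (hQ : HasXc W Q x') (hx : 1 < v x) (hx' : 1 < v x') (hne : x' ≠ x) :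
    ∃ r₁ r₂, HasXc W (Q + P) r₁ ∧ HasXc W (Q - P) r₂ ∧ r₁ ≠ 0 ∧ r₂ ≠ 0 ∧
      v (r₁⁻¹ + r₂⁻¹ - 2 * (x'⁻¹ + x⁻¹)) ≤ v x'⁻¹ * v x⁻¹ := by
  obtain ⟨r₁, r₂, hR₁, hR₂, hs, hp⟩ := hasXc_add_sub hQ hP hne
  obtain ⟨h1, h2, hest⟩ := sum_core hB.b₂ hB.b₄ hB.b₆ hB.b₈ hx' hx hne hs hp
  exact ⟨r₁, r₂, hR₁, hR₂, h1, h2, hest⟩

/-- The induction claim: either `n • P = O` and `n` is not a unit, or `n • P ≠ O` and
`1 / x(n • P) ≡ n² / x(P)` to first order. -/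
def Claim (v : Valuation K Γ₀) (P : W.Point) (x : K) (n : ℕ) : Prop :=
  (n • P = 0 ∧ v (n : K) < 1) ∨
    ∃ xn, HasXc W (n • P) xn ∧ xn ≠ 0 ∧ v (xn⁻¹ - (n : K) ^ 2 * x⁻¹) < v x⁻¹

lemma claim_step (hB : IntB v W) {P : W.Point} {x : K} (hP : HasXc W P x) (hx : 1 < v x)
    (n : ℕ) (hn : Claim v P x n) (hm : Claim v P x (n + 1)) : Claim v P x (n + 2) := by
  have hx0 : x ≠ 0 := ne_zero_of_one_lt hx
  have ht : v x⁻¹ < 1 := val_inv_lt_one hx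
  have ht0 : v x⁻¹ ≠ 0 := v.ne_zero_iff.2 (inv_ne_zero hx0)
  have hn2 : (n + 2) • P = (n + 1) • P + P := succ_nsmul P (n + 1)
  have hn0 : n • P = (n + 1) • P - P := by rw [succ_nsmul]; abel
  have hcast3 : v ((n : K) + 3) ≤ 1 := by exact_mod_cast val_natCast_le_one v (n + 3)
  have hcast4 : v ((n : K) + 4) ≤ 1 := by exact_mod_cast val_natCast_le_one v (n + 4)
  rcases hm with ⟨hQ, hvm⟩ | ⟨xm, hXm, hxm0, hmv⟩
  · -- (n+1)P = 0
    right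
    refine ⟨x, by rw [hn2, hQ, zero_add]; exact hP, hx0, ?_⟩
    have e : x⁻¹ - ((n + 2 : ℕ) : K) ^ 2 * x⁻¹ =
        -(((n + 1 : ℕ) : K) * ((n : K) + 3) * x⁻¹) := by
      push_cast; ring
    rw [e, v.map_neg, v.map_mul, v.map_mul]
    calc v ((n + 1 : ℕ) : K) * v ((n : K) + 3) * v x⁻¹
        ≤ v ((n + 1 : ℕ) : K) * 1 * v x⁻¹ := by gcongr
      _ = v x⁻¹ * v ((n + 1 : ℕ) : K) := by rw [mul_one, mul_comm]
      _ < v x⁻¹ := mul_self_lt ht0 hvm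
  · obtain ⟨hmle, hxm⟩ := val_of_est (c := ((n + 1 : ℕ) : K) ^ 2)
      (by rw [v.map_pow]; exact pow_le_one' (val_natCast_le_one v (n + 1)) 2) hxm0 hmv hx
    by_cases hXeq : xm = x
    · -- (n+1)P = ± P
      subst hXeq
      have hm1 : v (1 - ((n + 1 : ℕ) : K) ^ 2) < 1 := by
        have e : xm⁻¹ - ((n + 1 : ℕ) : K) ^ 2 * xm⁻¹ =
            (1 - ((n + 1 : ℕ) : K) ^ 2) * xm⁻¹ := by ring
        rw [e] at hmv
        exact lt_one_of_mul_lt hmv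
      rcases HasXc.eq_or_eq_neg hXm hP with hQP | hQP
      · -- (n+1)P = P
        have hnP : n • P = 0 := by rw [hn0, hQP, sub_self]
        have hvn : v (n : K) < 1 := by
          rcases hn with ⟨_, h⟩ | ⟨xn, h, _⟩
          · exact h
          · exact absurd hnP h.ne_zero
        rcases dup_est hB hP hx with ⟨h2P, hv2⟩ | ⟨x₂, hX₂, hx₂0, h2v⟩
        · left
          refine ⟨by rw [hn2, hQP, ← two_nsmul, h2P], ?_⟩
          push_cast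
          exact v.map_add_lt hvn hv2
        · right
          refine ⟨x₂, by rw [hn2, hQP, ← two_nsmul]; exact hX₂, hx₂0, ?_⟩
          have e : x₂⁻¹ - ((n + 2 : ℕ) : K) ^ 2 * xm⁻¹ =
              (x₂⁻¹ - 4 * xm⁻¹) - (n : K) * ((n : K) + 4) * xm⁻¹ := by
            push_cast; ring
          rw [e]
          apply v.map_sub_lt h2v
          rw [v.map_mul, v.map_mul]
          calc v (n : K) * v ((n : K) + 4) * v xm⁻¹
              ≤ v (n : K) * 1 * v xm⁻¹ := by gcongr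
            _ = v xm⁻¹ * v (n : K) := by rw [mul_one, mul_comm]
            _ < v xm⁻¹ := mul_self_lt ht0 hvn
      · -- (n+1)P = -P
        left
        refine ⟨by rw [hn2, hQP, neg_add_cancel], ?_⟩
        have hnP : n • P = -(2 • P) := by rw [hn0, hQP, two_nsmul]; abel
        have e1 : (1 : K) - ((n + 1 : ℕ) : K) ^ 2 = -((n : K) * ((n : K) + 2)) := by
          push_cast; ring
        rw [e1, v.map_neg, v.map_mul] at hm1
        by_contra hcon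
        have hcon' : v ((n : K) + 2) = 1 := by
          have h1 : v (((n + 2 : ℕ) : K)) ≤ 1 := val_natCast_le_one v (n + 2)
          push_cast at hcon h1
          exact le_antisymm h1 (not_lt.1 hcon)
        rw [hcon', mul_one] at hm1
        have hfin : v (2 : K) < 1 → False := by
          intro hv2
          have : v ((n : K) + 2) < 1 := v.map_add_lt hm1 hv2
          rw [hcon'] at this
          exact lt_irrefl _ this
        rcases dup_est hB hP hx with ⟨_, hv2⟩ | ⟨x₂, hX₂, hx₂0, h2v⟩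
        · exact hfin hv2
        · have hXn : HasXc W (n • P) x₂ := by rw [hnP]; exact hX₂.neg
          rcases hn with ⟨h, _⟩ | ⟨xn, hXn', hxn0, hnv⟩
          · exact absurd h hXn.ne_zero
          · have hxn : xn = x₂ := hXn'.unique hXn
            subst hxn
            have h4n : v ((4 : K) - (n : K) ^ 2) < 1 := by
              have e : ((4 : K) - (n : K) ^ 2) * xm⁻¹ =
                  (xn⁻¹ - (n : K) ^ 2 * xm⁻¹) - (xn⁻¹ - 4 * xm⁻¹) := by ring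
              have h' : v (((4 : K) - (n : K) ^ 2) * xm⁻¹) < v xm⁻¹ := by
                rw [e]; exact v.map_sub_lt hnv h2v
              exact lt_one_of_mul_lt h'
            have e2 : (4 : K) - (n : K) ^ 2 = (2 - (n : K)) * ((n : K) + 2) := by ring
            rw [e2, v.map_mul, hcon', mul_one] at h4n
            apply hfin
            have e3 : (2 : K) = (2 - (n : K)) + (n : K) := by ring
            rw [e3]
            exact v.map_add_lt h4n hm1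
    · -- generic case
      obtain ⟨r₁, r₂, hR₁, hR₂, hr₁0, _, hs⟩ := sum_est hB hP hXm hx hxm hXeq
      have hXn : HasXc W (n • P) r₂ := by rw [hn0]; exact hR₂
      rcases hn with ⟨h, _⟩ | ⟨xn, hXn', hxn0, hnv⟩
      · exact absurd h hXn.ne_zero
      · have hxn : xn = r₂ := hXn'.unique hXn
        subst hxn
        right
        refine ⟨r₁, by rw [hn2]; exact hR₁, hr₁0, ?_⟩
        have hs' : v (r₁⁻¹ + xn⁻¹ - 2 * (xm⁻¹ + x⁻¹)) < v x⁻¹ := by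
          refine lt_of_le_of_lt hs ?_
          rw [mul_comm]
          exact mul_self_lt ht0 (lt_of_le_of_lt hmle ht)
        have e : r₁⁻¹ - ((n + 2 : ℕ) : K) ^ 2 * x⁻¹ =
            (r₁⁻¹ + xn⁻¹ - 2 * (xm⁻¹ + x⁻¹))
            - (xn⁻¹ - (n : K) ^ 2 * x⁻¹)
            + 2 * (xm⁻¹ - ((n + 1 : ℕ) : K) ^ 2 * x⁻¹) := by
          push_cast; ring
        rw [e]
        apply v.map_add_lt (v.map_sub_lt hs' hnv)
        rw [v.map_mul]
        exact lt_of_le_of_lt (mul_le_of_le_one_left' (val_two_le_one v)) hmv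

/-- The claim holds for every `n`. -/
theorem claim_all (hB : IntB v W) {P : W.Point} {x : K} (hP : HasXc W P x) (hx : 1 < v x)
    (n : ℕ) : Claim v P x n := by
  have hx0 : x ≠ 0 := ne_zero_of_one_lt hx
  have key : ∀ k : ℕ, Claim v P x k ∧ Claim v P x (k + 1) := by
    intro k
    induction k with
    | zero =>
      refine ⟨Or.inl ⟨zero_nsmul P, ?_⟩, Or.inr ⟨x, ?_, hx0, ?_⟩⟩
      · simp
      · rw [zero_add, one_nsmul]; exact hP
      · have e : x⁻¹ - ((0 + 1 : ℕ) : K) ^ 2 * x⁻¹ = 0 := by push_cast; ring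
        rw [e, v.map_zero]
        exact zero_lt_iff.2 (v.ne_zero_iff.2 (inv_ne_zero hx0))
    | succ k ih =>
      exact ⟨ih.2, claim_step hB hP hx k ih.1 ih.2⟩
  exact (key n).1

/-- **Kernel of reduction is stable under multiples.** For `P ≠ O` with non-integral
`x`-coordinate, every multiple `n • P` is `O` or again has non-integral `x`-coordinate, with
`1 / x(n • P) ≡ n² / x(P)` to first order. -/
theorem nsmul_kerRed (hB : IntB v W) {P : W.Point} {x : K} (hP : HasXc W P x) (hx : 1 < v x)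
    (n : ℕ) :
    (n • P = 0 ∧ v (n : K) < 1) ∨
      ∃ xn, HasXc W (n • P) xn ∧ 1 < v xn ∧ v xn⁻¹ ≤ v x⁻¹ ∧
        v (xn⁻¹ - (n : K) ^ 2 * x⁻¹) < v x⁻¹ := by
  rcases claim_all hB hP hx n with h | ⟨xn, hXn, hxn0, hest⟩
  · exact Or.inl h
  · obtain ⟨h1, h2⟩ := val_of_est (c := (n : K) ^ 2)
      (by rw [v.map_pow]; exact pow_le_one' (val_natCast_le_one v n) 2) hxn0 hest hx
    exact Or.inr ⟨xn, hXn, h2, h1, hest⟩

/-- **Unit multiples stay in the kernel of reduction with the same `|x|`.** -/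
theorem nsmul_unit (hB : IntB v W) {P : W.Point} {x : K} (hP : HasXc W P x) (hx : 1 < v x)
    (n : ℕ) (hn : v (n : K) = 1) : ∃ xn, HasXc W (n • P) xn ∧ v xn = v x := by
  rcases claim_all hB hP hx n with ⟨_, h⟩ | ⟨xn, hXn, _, hest⟩
  · rw [hn] at h; exact absurd h (lt_irrefl _)
  · exact ⟨xn, hXn, val_eq_of_est (c := (n : K) ^ 2) (by rw [v.map_pow, hn, one_pow]) hest⟩

/-- A point of the kernel of reduction is not killed by an integer that is a unit. -/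
theorem nsmul_ne_zero (hB : IntB v W) {P : W.Point} {x : K} (hP : HasXc W P x) (hx : 1 < v x)
    (n : ℕ) (hn : v (n : K) = 1) : n • P ≠ 0 := by
  obtain ⟨xn, hXn, _⟩ := nsmul_unit hB hP hx n hn
  exact hXn.ne_zero

/-- **No unit-order torsion in the kernel of reduction (any residue characteristic).**
A point killed by a natural number `n` with `v n = 1` has integral `x`-coordinate.  This is the
`hint` hypothesis of `Fermat.Agent.S05.SameRed.map_eq_self_of_nonsingular_reduction`. -/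
theorem torsion_integral (hB : IntB v W) (n : ℕ) (hn : v (n : K) = 1) :
    ∀ Q : W.Point, n • Q = 0 → ∀ (x y : K) (h : W.Nonsingular x y),
      Q = Affine.Point.some x y h → v x ≤ 1 := by
  intro Q hQ x y h hQe
  by_contra hx
  push Not at hx
  exact nsmul_ne_zero hB (P := Q) (x := x) ⟨y, h, hQe⟩ hx n hn hQ

/-- **Residue characteristic `p`: the prime-to-`p` multiples of a point of the kernel of
reduction stay in the kernel of reduction, with the same `|x|`.** -/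
theorem nsmul_of_not_dvd (hB : IntB v W) {P : W.Point} {x : K} (hP : HasXc W P x)
    (hx : 1 < v x) {p : ℕ} (hp : p.Prime) (hvp : v (p : K) < 1) (k : ℕ) (hk : ¬ p ∣ k) :
    ∃ xk, HasXc W (k • P) xk ∧ v xk = v x :=
  nsmul_unit hB hP hx k
    (val_natCast_eq_one_of_coprime hvp ((Nat.Prime.coprime_iff_not_dvd hp).2 hk).symm)

/-- Integer multiples: `k • P` for `k : ℤ` prime to the residue characteristic `p`. -/
theorem zsmul_of_not_dvd (hB : IntB v W) {P : W.Point} {x : K} (hP : HasXc W P x)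
    (hx : 1 < v x) {p : ℕ} (hp : p.Prime) (hvp : v (p : K) < 1) (k : ℤ) (hk : ¬ (p : ℤ) ∣ k) :
    ∃ xk, HasXc W (k • P) xk ∧ v xk = v x := by
  have hk' : ¬ p ∣ k.natAbs := by
    intro h
    exact hk (Int.natCast_dvd.2 h)
  obtain ⟨xk, hXk, hv⟩ := nsmul_of_not_dvd hB hP hx hp hvp k.natAbs hk'
  rcases Int.natAbs_eq k with h | h
  · refine ⟨xk, ?_, hv⟩
    rw [h, natCast_zsmul]
    exact hXk
  · refine ⟨xk, ?_, hv⟩
    rw [h, neg_smul, natCast_zsmul]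
    exact hXk.neg

/-! ### `Point.some` forms (the shapes announced for `Lib.KerRedGen`) -/

/-- `nsmul_kernel`: for `P = (x, y)` with `1 < v x` and every `k`: if `k • P = O` then `k` is
not a unit, and if `k • P = (x', y')` then `1 / x' ≡ k² / x` to first order. -/
theorem nsmul_kernel (hB : IntB v W) {x y : K} (h : W.Nonsingular x y) (hx : 1 < v x) (k : ℕ) :
    (k • Affine.Point.some x y h = 0 → v (k : K) < 1) ∧
      (∀ (x' y' : K) (h' : W.Nonsingular x' y'),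
        k • Affine.Point.some x y h = Affine.Point.some x' y' h' →
          x' ≠ 0 ∧ v (x'⁻¹ - (k : K) ^ 2 * x⁻¹) < v x⁻¹) := by
  have hP : HasXc W (Affine.Point.some x y h) x := ⟨y, h, rfl⟩
  rcases claim_all hB hP hx k with ⟨h0, hk⟩ | ⟨xn, hXn, hxn0, hest⟩
  · refine ⟨fun _ => hk, fun x' y' h' he => ?_⟩
    rw [h0] at he
    exact absurd he.symm (Affine.Point.some_ne_zero h')
  · refine ⟨fun h0 => absurd h0 hXn.ne_zero, fun x' y' h' he => ?_⟩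
    have hx' : xn = x' := hXn.unique ⟨y', h', he⟩
    subst hx'
    exact ⟨hxn0, hest⟩

/-- (C1) the kernel of reduction is stable under multiples. -/
theorem nsmul_some_val (hB : IntB v W) {x y : K} (h : W.Nonsingular x y) (hx : 1 < v x) (k : ℕ)
    {x' y' : K} (h' : W.Nonsingular x' y')
    (he : k • Affine.Point.some x y h = Affine.Point.some x' y' h') : 1 < v x' := by
  obtain ⟨h0, hest⟩ := (nsmul_kernel hB h hx k).2 x' y' h' he
  exact (val_of_est (c := (k : K) ^ 2)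
    (by rw [v.map_pow]; exact pow_le_one' (val_natCast_le_one v k) 2) h0 hest hx).2

/-- (C2) equal valuations along unit multiples. -/
theorem nsmul_some_unit (hB : IntB v W) {x y : K} (h : W.Nonsingular x y) (hx : 1 < v x) (k : ℕ)
    (hk : v (k : K) = 1) :
    ∃ (x' y' : K) (h' : W.Nonsingular x' y'),
      k • Affine.Point.some x y h = Affine.Point.some x' y' h' ∧ v x' = v x := by
  obtain ⟨x', ⟨y', h', he⟩, hv⟩ :=
    nsmul_unit hB (P := Affine.Point.some x y h) (x := x) ⟨y, h, rfl⟩ hx k hk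
  exact ⟨x', y', h', he, hv⟩

/-- (C3) a point of the kernel of reduction is only killed by non-units. -/
theorem val_lt_one_of_nsmul_eq_zero (hB : IntB v W) {x y : K} (h : W.Nonsingular x y)
    (hx : 1 < v x) (n : ℕ) (hn : n • Affine.Point.some x y h = 0) : v (n : K) < 1 :=
  (nsmul_kernel hB h hx n).1 hn

/-- (C4) with integral Weierstrass coefficients: a point killed by a unit integer has integral
`x`-coordinate (the `hint` shape of `S05.SameRed`, valid in every residue characteristic). -/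
theorem torsion_integral' (h₁ : v W.a₁ ≤ 1) (h₂ : v W.a₂ ≤ 1) (h₃ : v W.a₃ ≤ 1)
    (h₄ : v W.a₄ ≤ 1) (h₆ : v W.a₆ ≤ 1) (n : ℕ) (hn : v (n : K) = 1) :
    ∀ Q : W.Point, n • Q = 0 → ∀ (x y : K) (h : W.Nonsingular x y),
      Q = Affine.Point.some x y h → v x ≤ 1 :=
  torsion_integral (intB_of_coeffs h₁ h₂ h₃ h₄ h₆) n hn

end points

end Fermat.Agent.S13.KerRedGen
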