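import Mathlib
import Fermat.Agent.Lib.TorsionCard.Basic

set_option autoImplicit false

/-!
# Division-free ladder polynomials and the Newton bound for `p`-torsion in the kernel of reduction

For a Weierstrass curve `W` over a field `K` we define polynomial pairs `(A_n, B_n)` by
`(A_1, B_1) = (X, 1)`, `(A_2, B_2) = (Φ₂, Ψ₂²)` and
`A_{n+1} = g1(A_n, B_n) B_{n-1} - A_{n-1} g0(A_n, B_n)`, `B_{n+1} = g0(A_n, B_n) B_{n-1}`
(no division), so that `x(nP) = A_n(x(P)) / B_n(x(P))` as long as `kP ≠ 0` for `1 ≤ k ≤ n`.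
The polynomial `F_p = A_{p-1} - X B_{p-1}` vanishes at the `x`-coordinates of all points of exact
order `p`, has coefficients in every subring containing the `b_i`, and its formal leading
coefficient is `-α p (p-2)` with `α` a product of integers `< p - 1`.
-/

namespace Fermat.Agent.S13.Ladder

open Polynomial WeierstrassCurve WeierstrassCurve.Affine
open Fermat.Agent.Lib.TorsionCard

section Defs

variable {K : Type*} [Field K] (W : WeierstrassCurve.Affine K)

/-- `lad W m = (A_{m+1}, B_{m+1})`: the division-free ladder pair for multiplication by `m + 1`. -/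
noncomputable def lad : ℕ → K[X] × K[X]
  | 0 => (X, 1)
  | 1 => (phiTwo W, psiSq W)
  | (m + 2) =>
      (g1 W (lad (m + 1)).1 (lad (m + 1)).2 * (lad m).2
          - (lad m).1 * g0 (lad (m + 1)).1 (lad (m + 1)).2,
        g0 (lad (m + 1)).1 (lad (m + 1)).2 * (lad m).2)

lemma lad_zero : lad W 0 = (X, 1) := rfl

lemma lad_one : lad W 1 = (phiTwo W, psiSq W) := rfl

lemma lad_succ_succ (m : ℕ) : lad W (m + 2) =
    (g1 W (lad W (m + 1)).1 (lad W (m + 1)).2 * (lad W m).2
        - (lad W m).1 * g0 (lad W (m + 1)).1 (lad W (m + 1)).2,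
      g0 (lad W (m + 1)).1 (lad W (m + 1)).2 * (lad W m).2) := rfl

/-- The ladder polynomial `F = A_{m+1} - X B_{m+1}`; for `m + 2 = p` it vanishes at the
`x`-coordinates of the points of exact order `p`. -/
noncomputable def ladF (m : ℕ) : K[X] := (lad W m).1 - X * (lad W m).2

end Defs

section Pointwise

variable {K : Type*} [Field K] [DecidableEq K] {W : WeierstrassCurve.Affine K}

lemma psiSq_eval_ne_zero {P : W.Point} {x : K} (hP : HasXc W P x) (h2 : 2 • P ≠ 0) :
    4 * x ^ 3 + W.b₂ * x ^ 2 + 2 * W.b₄ * x + W.b₆ ≠ 0 := by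
  obtain ⟨y, hy, rfl⟩ := hP
  have heq := (W.equation_iff x y).mp hy.1
  have hB : 4 * x ^ 3 + W.b₂ * x ^ 2 + 2 * W.b₄ * x + W.b₆ = (y - W.negY x y) ^ 2 := by
    simp only [WeierstrassCurve.b₂, WeierstrassCurve.b₄, WeierstrassCurve.b₆, negY]
    linear_combination (-4 : K) * heq
  intro h0
  rw [hB] at h0
  have hyy : y = W.negY x y := sub_eq_zero.mp (pow_eq_zero_iff (two_ne_zero) |>.mp h0)
  apply h2
  rw [two_nsmul]
  exact Point.add_of_Y_eq rfl hyy

/-- Pointwise meaning of the ladder: if `k • P ≠ 0` for `1 ≤ k ≤ m + 1`, then `B_{m+1}(x) ≠ 0`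
and `x((m+1)P) B_{m+1}(x) = A_{m+1}(x)`. -/
theorem lad_eval {P : W.Point} {x : K} (hP : HasXc W P x) :
    ∀ m : ℕ, (∀ k : ℕ, 1 ≤ k → k ≤ m + 1 → k • P ≠ 0) →
      (lad W m).2.eval x ≠ 0 ∧
        ∃ xm : K, HasXc W ((m + 1) • P) xm ∧ xm * (lad W m).2.eval x = (lad W m).1.eval x := by
  have key : ∀ m : ℕ,
      ((∀ k : ℕ, 1 ≤ k → k ≤ m + 1 → k • P ≠ 0) →
        (lad W m).2.eval x ≠ 0 ∧
          ∃ xm : K, HasXc W ((m + 1) • P) xm ∧
            xm * (lad W m).2.eval x = (lad W m).1.eval x) ∧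
      ((∀ k : ℕ, 1 ≤ k → k ≤ m + 2 → k • P ≠ 0) →
        (lad W (m + 1)).2.eval x ≠ 0 ∧
          ∃ xm : K, HasXc W ((m + 2) • P) xm ∧
            xm * (lad W (m + 1)).2.eval x = (lad W (m + 1)).1.eval x) := by
    intro m
    induction m with
    | zero =>
      refine ⟨fun _ => ?_, fun H => ?_⟩
      · refine ⟨by simp [lad_zero], x, by simpa using hP, by simp [lad_zero]⟩
      · have h2 : 2 • P ≠ 0 := H 2 (by norm_num) (by norm_num)
        have hne := psiSq_eval_ne_zero hP h2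
        obtain ⟨x', hx', e⟩ := hasXc_two_nsmul hP hne
        refine ⟨by simpa [lad_one] using hne, x', by simpa using hx', ?_⟩
        simpa [lad_one] using e
    | succ m ih =>
      refine ⟨ih.2, fun H => ?_⟩
      obtain ⟨hB', u, hu, eu⟩ := ih.2 (fun k hk hk' => H k hk (by omega))
      obtain ⟨hB, w, hw, ew⟩ := ih.1 (fun k hk hk' => H k hk (by omega))
      -- `u ≠ x`
      have hux : u ≠ x := by
        intro hux
        subst hux
        rcases hu.eq_or_eq_neg hP with h | h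
        · apply H (m + 1) (by omega) (by omega)
          have : (m + 2) • P = (m + 1) • P + P := by rw [succ_nsmul]
          rw [this] at h
          simpa using h
        · apply H (m + 3) (by omega) (by omega)
          have : (m + 3) • P = (m + 2) • P + P := by rw [succ_nsmul]
          rw [this, h]
          simp
      obtain ⟨x₃, x₄, h₃, h₄, hs, -⟩ := hasXc_add_sub hu hP hux
      have e4 : (m + 2) • P - P = (m + 1) • P := by
        rw [succ_nsmul P (m + 1)]; abel
      rw [e4] at h₄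
      have hx4 : x₄ = w := h₄.unique hw
      subst hx4
      have e3 : (m + 2) • P + P = (m + 1 + 2) • P := by
        rw [succ_nsmul P (m + 2)]
      rw [e3] at h₃
      have hd : u - x ≠ 0 := sub_ne_zero.mpr hux
      refine ⟨?_, x₃, h₃, ?_⟩
      · rw [lad_succ_succ]
        simp only [eval_mul, eval_g0]
        rw [← eu]
        have : u * eval x (lad W (m + 1)).2 - x * eval x (lad W (m + 1)).2
            = (u - x) * eval x (lad W (m + 1)).2 := by ring
        rw [this]
        exact mul_ne_zero (pow_ne_zero _ (mul_ne_zero hd hB')) hB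
      · rw [lad_succ_succ]
        simp only [eval_mul, eval_sub, eval_g0, eval_g1]
        rw [← eu, ← ew]
        linear_combination ((lad W (m + 1)).2.eval x ^ 2 * (lad W m).2.eval x) * hs
  intro m
  exact (key m).1

/-- The ladder polynomial `F_p = A_{p-1} - X B_{p-1}` vanishes at the `x`-coordinate of every
nonzero point killed by the prime `p ≥ 3`. -/
theorem ladF_eval_eq_zero {p : ℕ} (hp : p.Prime) (hp3 : 3 ≤ p) {P : W.Point} {x : K}
    (hP : HasXc W P x) (hpP : p • P = 0) : (ladF W (p - 2)).eval x = 0 := by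
  have hne : ∀ k : ℕ, 1 ≤ k → k ≤ (p - 2) + 1 → k • P ≠ 0 := by
    intro k hk hk' h0
    have hord : addOrderOf P ∣ p := addOrderOf_dvd_of_nsmul_eq_zero hpP
    have hord' : addOrderOf P ∣ k := addOrderOf_dvd_of_nsmul_eq_zero h0
    rcases (Nat.dvd_prime hp).mp hord with h1 | h1
    · exact hP.ne_zero (AddMonoid.addOrderOf_eq_one_iff.mp h1)
    · rw [h1] at hord'
      have := Nat.le_of_dvd (by omega) hord'
      omega
  obtain ⟨hB, xm, hxm, e⟩ := lad_eval hP (p - 2) hne
  have hm : (p - 2 + 1) • P = -P := by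
    have h1 : (p - 2 + 1) • P + P = 0 := by
      rw [← succ_nsmul]
      have : p - 2 + 1 + 1 = p := by omega
      rw [this, hpP]
    exact eq_neg_of_add_eq_zero_left h1
  rw [hm] at hxm
  have hx : xm = x := hxm.unique hP.neg
  subst hx
  simp only [ladF, eval_sub, eval_mul, eval_X]
  rw [← e]
  ring

end Pointwise

section IntC

variable {K : Type*} [Field K] {Γ₀ : Type*} [LinearOrderedCommGroupWithZero Γ₀]
  (v : Valuation K Γ₀)

/-- All coefficients of `f` have valuation `≤ 1`. -/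
def IntC (f : K[X]) : Prop := ∀ n, v (f.coeff n) ≤ 1

variable {v}

lemma val_natCast_le_one (n : ℕ) : v (n : K) ≤ 1 := by
  induction n with
  | zero => simp
  | succ n ih =>
    rw [Nat.cast_succ]
    exact v.map_add_le ih (by simp)

lemma val_two_le_one : v (2 : K) ≤ 1 := by
  have := val_natCast_le_one (v := v) 2
  simpa using this

lemma val_four_le_one : v (4 : K) ≤ 1 := by
  have := val_natCast_le_one (v := v) 4
  simpa using this

lemma intC_C {a : K} (ha : v a ≤ 1) : IntC v (C a) := by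
  intro n
  rw [coeff_C]
  split_ifs
  · exact ha
  · simp

lemma intC_X : IntC v (X : K[X]) := by
  intro n
  rw [coeff_X]
  split_ifs <;> simp

lemma intC_one : IntC v (1 : K[X]) := by
  intro n
  rw [coeff_one]
  split_ifs <;> simp

lemma IntC.add {f g : K[X]} (hf : IntC v f) (hg : IntC v g) : IntC v (f + g) := by
  intro n
  rw [coeff_add]
  exact v.map_add_le (hf n) (hg n)

lemma IntC.sub {f g : K[X]} (hf : IntC v f) (hg : IntC v g) : IntC v (f - g) := by
  intro n
  rw [coeff_sub]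
  exact v.map_sub_le (hf n) (hg n)

lemma IntC.mul {f g : K[X]} (hf : IntC v f) (hg : IntC v g) : IntC v (f * g) := by
  intro n
  rw [coeff_mul]
  apply v.map_sum_le
  intro i _
  rw [map_mul]
  exact mul_le_one' (hf _) (hg _)

lemma IntC.pow {f : K[X]} (hf : IntC v f) (k : ℕ) : IntC v (f ^ k) := by
  induction k with
  | zero => simpa using intC_one
  | succ k ih => rw [pow_succ]; exact ih.mul hf

variable {W : WeierstrassCurve.Affine K}

lemma intC_psiSq (h₂ : v W.b₂ ≤ 1) (h₄ : v W.b₄ ≤ 1) (h₆ : v W.b₆ ≤ 1) : IntC v (psiSq W) := by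
  unfold psiSq
  have h24 : v (2 * W.b₄) ≤ 1 := by
    rw [map_mul]; exact mul_le_one' val_two_le_one h₄
  exact ((((intC_C val_four_le_one).mul (intC_X.pow 3)).add ((intC_C h₂).mul (intC_X.pow 2))).add
    ((intC_C h24).mul intC_X)).add (intC_C h₆)

lemma intC_phiTwo (h₄ : v W.b₄ ≤ 1) (h₆ : v W.b₆ ≤ 1) (h₈ : v W.b₈ ≤ 1) :
    IntC v (phiTwo W) := by
  unfold phiTwo
  have h26 : v (2 * W.b₆) ≤ 1 := by
    rw [map_mul]; exact mul_le_one' val_two_le_one h₆
  exact (((intC_X.pow 4).sub ((intC_C h₄).mul (intC_X.pow 2))).sub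
    ((intC_C h26).mul intC_X)).sub (intC_C h₈)

lemma intC_g0 {A B : K[X]} (hA : IntC v A) (hB : IntC v B) : IntC v (g0 A B) := by
  unfold g0
  exact (hA.sub (intC_X.mul hB)).pow 2

lemma intC_g1 (h₂ : v W.b₂ ≤ 1) (h₄ : v W.b₄ ≤ 1) (h₆ : v W.b₆ ≤ 1) {A B : K[X]}
    (hA : IntC v A) (hB : IntC v B) : IntC v (g1 W A B) := by
  unfold g1
  have hAXB : IntC v (A + X * B) := hA.add (intC_X.mul hB)
  exact (((((intC_C val_two_le_one).mul intC_X).mul hA).mul hAXB).add
    ((((intC_C h₂).mul intC_X).mul hA).mul hB)).add (((intC_C h₄).mul hAXB).mul hB)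
    |>.add ((intC_C h₆).mul (hB.pow 2))

/-- The ladder polynomials have integral coefficients. -/
theorem intC_lad (h₂ : v W.b₂ ≤ 1) (h₄ : v W.b₄ ≤ 1) (h₆ : v W.b₆ ≤ 1) (h₈ : v W.b₈ ≤ 1) :
    ∀ m : ℕ, IntC v (lad W m).1 ∧ IntC v (lad W m).2 := by
  have key : ∀ m : ℕ, (IntC v (lad W m).1 ∧ IntC v (lad W m).2) ∧
      (IntC v (lad W (m + 1)).1 ∧ IntC v (lad W (m + 1)).2) := by
    intro m
    induction m with
    | zero =>
      exact ⟨⟨by rw [lad_zero]; exact intC_X, by rw [lad_zero]; exact intC_one⟩,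
        ⟨by rw [lad_one]; exact intC_phiTwo h₄ h₆ h₈, by rw [lad_one]; exact intC_psiSq h₂ h₄ h₆⟩⟩
    | succ m ih =>
      refine ⟨ih.2, ?_⟩
      rw [lad_succ_succ]
      have hg0 := intC_g0 ih.2.1 ih.2.2
      have hg1 := intC_g1 h₂ h₄ h₆ ih.2.1 ih.2.2
      exact ⟨(hg1.mul ih.1.2).sub (ih.1.1.mul hg0), hg0.mul ih.1.2⟩
  intro m
  exact (key m).1

theorem intC_ladF (h₂ : v W.b₂ ≤ 1) (h₄ : v W.b₄ ≤ 1) (h₆ : v W.b₆ ≤ 1) (h₈ : v W.b₈ ≤ 1)
    (m : ℕ) : IntC v (ladF W m) := by
  unfold ladF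
  exact (intC_lad h₂ h₄ h₆ h₈ m).1.sub (intC_X.mul (intC_lad h₂ h₄ h₆ h₈ m).2)

end IntC

section Top

variable {K : Type*} [Field K]

/-- `f` has degree at most `d` and its coefficient of degree `d` is `c`. -/
def Top (f : K[X]) (d : ℕ) (c : K) : Prop := f.natDegree ≤ d ∧ f.coeff d = c

lemma Top.mul {f g : K[X]} {d e : ℕ} {c c' : K} (hf : Top f d c) (hg : Top g e c') :
    Top (f * g) (d + e) (c * c') :=
  ⟨natDegree_mul_le_of_le hf.1 hg.1, by rw [coeff_mul_add_eq_of_natDegree_le hf.1 hg.1, hf.2, hg.2]⟩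

lemma Top.add {f g : K[X]} {d : ℕ} {c c' : K} (hf : Top f d c) (hg : Top g d c') :
    Top (f + g) d (c + c') :=
  ⟨natDegree_add_le_of_degree_le hf.1 hg.1, by rw [coeff_add, hf.2, hg.2]⟩

lemma Top.sub {f g : K[X]} {d : ℕ} {c c' : K} (hf : Top f d c) (hg : Top g d c') :
    Top (f - g) d (c - c') :=
  ⟨(natDegree_sub_le_of_le hf.1 hg.1).trans (by simp), by rw [coeff_sub, hf.2, hg.2]⟩

lemma Top.lower {f : K[X]} {d d' : ℕ} {c : K} (hf : Top f d c) (h : d < d') : Top f d' 0 :=
  ⟨hf.1.trans h.le, coeff_eq_zero_of_natDegree_lt (lt_of_le_of_lt hf.1 h)⟩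

lemma Top.congr {f : K[X]} {d d' : ℕ} {c c' : K} (hf : Top f d c) (hd : d = d') (hc : c = c') :
    Top f d' c' := by
  subst hd hc
  exact hf

lemma top_X : Top (X : K[X]) 1 1 := ⟨natDegree_X_le, coeff_X_one⟩

lemma top_C (a : K) : Top (C a) 0 a := ⟨by simp, coeff_C_zero⟩

lemma top_one : Top (1 : K[X]) 0 1 := ⟨by simp, coeff_one_zero⟩

lemma Top.sq {f : K[X]} {d : ℕ} {c : K} (hf : Top f d c) : Top (f ^ 2) (d + d) (c * c) := by
  rw [pow_two]
  exact hf.mul hf

variable (W : WeierstrassCurve.Affine K)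

lemma top_g0 {A B : K[X]} {d : ℕ} {a b : K} (hA : Top A (d + 1) a) (hB : Top B d b) :
    Top (g0 A B) (2 * d + 2) ((a - b) ^ 2) := by
  unfold g0
  have hXB : Top (X * B) (d + 1) b := (top_X.mul hB).congr (by ring) (by ring)
  exact (hA.sub hXB).sq.congr (by ring) (by ring)

lemma top_g1 {A B : K[X]} {d : ℕ} {a b : K} (hA : Top A (d + 1) a) (hB : Top B d b) :
    Top (g1 W A B) (2 * d + 3) (2 * a * (a + b)) := by
  unfold g1
  have hXB : Top (X * B) (d + 1) b := (top_X.mul hB).congr (by ring) (by ring)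
  have hAXB : Top (A + X * B) (d + 1) (a + b) := hA.add hXB
  have t1 : Top (C 2 * X * A * (A + X * B)) (2 * d + 3) (2 * a * (a + b)) :=
    ((((top_C (2 : K)).mul top_X).mul hA).mul hAXB).congr (by ring) (by ring)
  have t2 : Top (C W.b₂ * X * A * B) (2 * d + 3) 0 :=
    ((((top_C W.b₂).mul top_X).mul hA).mul hB).lower (by omega)
  have t3 : Top (C W.b₄ * (A + X * B) * B) (2 * d + 3) 0 :=
    (((top_C W.b₄).mul hAXB).mul hB).lower (by omega)
  have t4 : Top (C W.b₆ * B ^ 2) (2 * d + 3) 0 :=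
    ((top_C W.b₆).mul hB.sq).lower (by omega)
  exact (((t1.add t2).add t3).add t4).congr rfl (by ring)

/-- Degree bound of `B_{m+1}`. -/
def eB : ℕ → ℕ
  | 0 => 0
  | 1 => 3
  | (m + 2) => 2 * (eB (m + 1) + 1) + eB m

variable (K) in
/-- Formal leading coefficient of `A_{m+1}`. -/
noncomputable def alpha : ℕ → K
  | 0 => 1
  | 1 => 1
  | (m + 2) => alpha (m + 1) ^ 2 * alpha m * ((m + 1 : ℕ) : K) ^ 4

lemma eB_succ_succ (m : ℕ) : eB (m + 2) = 2 * (eB (m + 1) + 1) + eB m := rfl

lemma alpha_succ_succ (m : ℕ) :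
    alpha K (m + 2) = alpha K (m + 1) ^ 2 * alpha K m * ((m + 1 : ℕ) : K) ^ 4 := rfl

lemma top_phiTwo : Top (phiTwo W) 4 1 := by
  refine ⟨(natDegree_phiTwo W).le, ?_⟩
  have := (phiTwo_monic W).leadingCoeff
  rwa [leadingCoeff, natDegree_phiTwo] at this

lemma top_psiSq : Top (psiSq W) 3 4 := by
  unfold psiSq
  have t1 : Top (C (4 : K) * X ^ 3) 3 4 := by
    have : Top (X ^ 3 : K[X]) 3 1 := by
      have h := ((top_X (K := K)).sq.mul top_X).congr (d' := 3) (c' := 1) rfl (by ring)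
      have e : (X ^ 2 * X : K[X]) = X ^ 3 := by ring
      rwa [e] at h
    exact ((top_C (4 : K)).mul this).congr (by ring) (by ring)
  have t2 : Top (C W.b₂ * X ^ 2) 3 0 :=
    ((top_C W.b₂).mul (top_X (K := K)).sq).lower (by omega)
  have t3 : Top (C (2 * W.b₄) * X) 3 0 :=
    ((top_C (2 * W.b₄)).mul (top_X (K := K))).lower (by omega)
  have t4 : Top (C W.b₆) 3 0 := (top_C W.b₆).lower (by omega)
  exact (((t1.add t2).add t3).add t4).congr rfl (by ring)

/-- Formal degrees and leading coefficients of the ladder pairs. -/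
theorem top_lad : ∀ m : ℕ, Top (lad W m).1 (eB m + 1) (alpha K m) ∧
    Top (lad W m).2 (eB m) (((m + 1 : ℕ) : K) ^ 2 * alpha K m) := by
  have key : ∀ m : ℕ,
      (Top (lad W m).1 (eB m + 1) (alpha K m) ∧
        Top (lad W m).2 (eB m) (((m + 1 : ℕ) : K) ^ 2 * alpha K m)) ∧
      (Top (lad W (m + 1)).1 (eB (m + 1) + 1) (alpha K (m + 1)) ∧
        Top (lad W (m + 1)).2 (eB (m + 1)) (((m + 1 + 1 : ℕ) : K) ^ 2 * alpha K (m + 1))) := by
    intro m
    induction m with
    | zero =>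
      refine ⟨⟨?_, ?_⟩, ⟨?_, ?_⟩⟩
      · rw [lad_zero]; exact top_X.congr rfl rfl
      · rw [lad_zero]; exact top_one.congr rfl (by simp [alpha])
      · rw [lad_one]; exact (top_phiTwo W).congr rfl rfl
      · rw [lad_one]; exact (top_psiSq W).congr rfl (by simp [alpha]; norm_num)
    | succ m ih =>
      refine ⟨ih.2, ?_⟩
      obtain ⟨⟨hA, hB⟩, ⟨hA', hB'⟩⟩ := ih
      have hg0 := top_g0 hA' hB'
      have hg1 := top_g1 W hA' hB'
      rw [lad_succ_succ]
      refine ⟨?_, ?_⟩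
      · have h1 := (hg1.mul hB).congr (d' := eB (m + 2) + 1) (by rw [eB_succ_succ]; ring) rfl
        have h2 := (hA.mul hg0).congr (d' := eB (m + 2) + 1) (by rw [eB_succ_succ]; ring) rfl
        refine (h1.sub h2).congr rfl ?_
        rw [alpha_succ_succ]
        push_cast
        ring
      · refine (hg0.mul hB).congr (by rw [eB_succ_succ]; ring) ?_
        rw [alpha_succ_succ]
        push_cast
        ring
  intro m
  exact (key m).1

theorem top_ladF (m : ℕ) :
    Top (ladF W m) (eB m + 1) (-(alpha K m * (m : K) * ((m + 2 : ℕ) : K))) := by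
  unfold ladF
  obtain ⟨hA, hB⟩ := top_lad W m
  have hXB := (top_X.mul hB).congr (d' := eB m + 1) (by ring) rfl
  refine (hA.sub hXB).congr rfl ?_
  push_cast
  ring

lemma val_alpha {Γ₀ : Type*} [LinearOrderedCommGroupWithZero Γ₀] (v : Valuation K Γ₀) :
    ∀ m : ℕ, (∀ k : ℕ, 0 < k → k < m → v (k : K) = 1) → v (alpha K m) = 1 := by
  have key : ∀ m : ℕ,
      ((∀ k : ℕ, 0 < k → k < m → v (k : K) = 1) → v (alpha K m) = 1) ∧
      ((∀ k : ℕ, 0 < k → k < m + 1 → v (k : K) = 1) → v (alpha K (m + 1)) = 1) := by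
    intro m
    induction m with
    | zero => exact ⟨fun _ => by simp [alpha], fun _ => by simp [alpha]⟩
    | succ m ih =>
      refine ⟨ih.2, fun H => ?_⟩
      rw [alpha_succ_succ, map_mul, map_mul, map_pow, map_pow,
        ih.2 (fun k hk hk' => H k hk (by omega)), ih.1 (fun k hk hk' => H k hk (by omega)),
        H (m + 1) (by omega) (by omega)]
      simp
  intro m
  exact (key m).1

end Top

section Newton

variable {K : Type*} [Field K] {Γ₀ : Type*} [LinearOrderedCommGroupWithZero Γ₀]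
  (v : Valuation K Γ₀)

/-- Newton/Gauss bound by root peeling: if all coefficients of `f` have valuation `≤ M`,
`deg f ≤ D` and `S` is a finite set of roots of valuation `> 1`, then
`v (f.coeff D) * ∏_{r ∈ S} v r ≤ M`. -/
theorem newton_bound [DecidableEq K] (S : Finset K) :
    ∀ (f : K[X]) (M : Γ₀) (D : ℕ), (∀ n, v (f.coeff n) ≤ M) → f.natDegree ≤ D →
      (∀ r ∈ S, f.IsRoot r ∧ 1 < v r) → v (f.coeff D) * ∏ r ∈ S, v r ≤ M := by
  induction S using Finset.induction_on with
  | empty =>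
    intro f M D hf _ _
    simpa using hf D
  | insert r S hr ih =>
    intro f M D hf hD hS
    obtain ⟨hroot, hvr⟩ := hS r (Finset.mem_insert_self r S)
    have hvr0 : v r ≠ 0 := (lt_trans zero_lt_one hvr).ne'
    set g : K[X] := f /ₘ (X - C r) with hg
    have hfg : (X - C r) * g = f := mul_divByMonic_eq_iff_isRoot.mpr hroot
    -- coefficient relations
    have hc0 : f.coeff 0 = -(r * g.coeff 0) := by
      rw [← hfg, sub_mul, coeff_sub, coeff_C_mul, mul_comm X g, coeff_mul_X_zero]; ring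
    have hcs : ∀ n, f.coeff (n + 1) = g.coeff n - r * g.coeff (n + 1) := by
      intro n
      rw [← hfg, sub_mul, coeff_sub, coeff_C_mul, coeff_X_mul]
    -- Gauss norm of `g`
    have hgM : ∀ n, v (g.coeff n) * v r ≤ M := by
      intro n
      induction n with
      | zero =>
        have : r * g.coeff 0 = -f.coeff 0 := by rw [hc0]; ring
        rw [mul_comm, ← map_mul, this, Valuation.map_neg]
        exact hf 0
      | succ n ihn =>
        have : r * g.coeff (n + 1) = g.coeff n - f.coeff (n + 1) := by rw [hcs n]; ring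
        rw [mul_comm, ← map_mul, this]
        refine v.map_sub_le ?_ (hf _)
        calc v (g.coeff n) = v (g.coeff n) * 1 := (mul_one _).symm
          _ ≤ v (g.coeff n) * v r := by gcongr
          _ ≤ M := ihn
    have hgM' : ∀ n, v (g.coeff n) ≤ M / v r := by
      intro n
      rw [le_div_iff₀ (lt_trans zero_lt_one hvr)]
      exact hgM n
    have hSg : ∀ r' ∈ S, g.IsRoot r' ∧ 1 < v r' := by
      intro r' hr'
      obtain ⟨h1, h2⟩ := hS r' (Finset.mem_insert_of_mem hr')
      refine ⟨?_, h2⟩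
      have hne : r' ≠ r := fun h => hr (h ▸ hr')
      have : (r' - r) * g.eval r' = 0 := by
        have := h1
        rw [IsRoot, ← hfg, eval_mul] at this
        simpa using this
      rcases mul_eq_zero.mp this with h | h
      · exact absurd (sub_eq_zero.mp h) hne
      · exact h
    rw [Finset.prod_insert hr]
    rcases Nat.eq_zero_or_pos D with hD0 | hDpos
    · -- `f` is constant with a root, so `f = 0`
      subst hD0
      have hconst : f = C (f.coeff 0) := eq_C_of_natDegree_le_zero hD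
      have : f.coeff 0 = 0 := by
        have h := hroot
        rw [IsRoot, hconst, eval_C] at h
        exact h
      rw [this]
      simp
    · obtain ⟨D', rfl⟩ : ∃ D', D = D' + 1 := ⟨D - 1, by omega⟩
      have hgdeg : g.natDegree ≤ D' := by
        by_cases hg0 : g = 0
        · rw [hg0]; simp
        · have := natDegree_mul (X_sub_C_ne_zero r) hg0
          rw [hfg, natDegree_X_sub_C] at this
          omega
      have hcoeff : f.coeff (D' + 1) = g.coeff D' := by
        rw [hcs D', coeff_eq_zero_of_natDegree_lt (by omega : g.natDegree < D' + 1)]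
        ring
      have := ih g (M / v r) D' hgM' hgdeg hSg
      rw [hcoeff]
      calc v (g.coeff D') * (v r * ∏ r ∈ S, v r)
          = (v (g.coeff D') * ∏ r ∈ S, v r) * v r := by rw [mul_left_comm, mul_comm]
        _ ≤ (M / v r) * v r := by gcongr
        _ = M := div_mul_cancel₀ M hvr0

end Newton

section Final

variable {K : Type*} [Field K] [DecidableEq K] {Γ₀ : Type*} [LinearOrderedCommGroupWithZero Γ₀]
  (v : Valuation K Γ₀) (W : WeierstrassCurve.Affine K)

/-- **Newton bound for `p`-torsion in the kernel of reduction** (b-invariant form):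
the product of the valuations of the distinct `x`-coordinates `x` with `1 < v x` of nonzero
points killed by `p` is at most `1 / v p`. -/
theorem torsion_newton_bound_b (h₂ : v W.b₂ ≤ 1) (h₄ : v W.b₄ ≤ 1) (h₆ : v W.b₆ ≤ 1)
    (h₈ : v W.b₈ ≤ 1) (p : ℕ) (hp : p.Prime) (hp3 : 3 ≤ p)
    (hunits : ∀ k : ℕ, 0 < k → k < p → v (k : K) = 1) (S : Finset K)
    (hS : ∀ x ∈ S, 1 < v x ∧ ∃ P : W.Point, p • P = 0 ∧ HasXc W P x) :
    v (p : K) * ∏ x ∈ S, v x ≤ 1 := by
  have hint := intC_ladF (v := v) h₂ h₄ h₆ h₈ (p - 2)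
  obtain ⟨hdeg, hcoeff⟩ := top_ladF W (p - 2)
  have hroots : ∀ r ∈ S, (ladF W (p - 2)).IsRoot r ∧ 1 < v r := by
    intro r hr
    obtain ⟨h1, P, hpP, hP⟩ := hS r hr
    exact ⟨ladF_eval_eq_zero hp hp3 hP hpP, h1⟩
  have key := newton_bound v S (ladF W (p - 2)) 1 (eB (p - 2) + 1) hint hdeg hroots
  rw [hcoeff, Valuation.map_neg, map_mul, map_mul,
    val_alpha v (p - 2) (fun k hk hk' => hunits k hk (by omega)),
    hunits (p - 2) (by omega) (by omega), one_mul, one_mul] at key
  have hp2 : p - 2 + 2 = p := by omega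
  rwa [hp2] at key

/-- **Newton bound for `p`-torsion in the kernel of reduction** (`a`-invariant form). -/
theorem torsion_newton_bound (h₁ : v W.a₁ ≤ 1) (h₂ : v W.a₂ ≤ 1) (h₃ : v W.a₃ ≤ 1)
    (h₄ : v W.a₄ ≤ 1) (h₆ : v W.a₆ ≤ 1) (p : ℕ) (hp : p.Prime) (hp3 : 3 ≤ p)
    (hunits : ∀ k : ℕ, 0 < k → k < p → v (k : K) = 1) (S : Finset K)
    (hS : ∀ x ∈ S, 1 < v x ∧ ∃ P : W.Point, p • P = 0 ∧ HasXc W P x) :
    v (p : K) * ∏ x ∈ S, v x ≤ 1 := by
  have m2 : ∀ {a b : K}, v a ≤ 1 → v b ≤ 1 → v (a * b) ≤ 1 := fun ha hb => by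
    rw [map_mul]; exact mul_le_one' ha hb
  have v2 : v (2 : K) ≤ 1 := val_two_le_one
  have v4 : v (4 : K) ≤ 1 := val_four_le_one
  refine torsion_newton_bound_b v W ?_ ?_ ?_ ?_ p hp hp3 hunits S hS
  · rw [WeierstrassCurve.b₂]
    exact v.map_add_le (by rw [map_pow]; exact pow_le_one' h₁ 2) (m2 v4 h₂)
  · rw [WeierstrassCurve.b₄]
    exact v.map_add_le (m2 v2 h₄) (m2 h₁ h₃)
  · rw [WeierstrassCurve.b₆]
    exact v.map_add_le (by rw [map_pow]; exact pow_le_one' h₃ 2) (m2 v4 h₆)
  · rw [WeierstrassCurve.b₈]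
    refine v.map_sub_le (v.map_add_le (v.map_sub_le (v.map_add_le ?_ ?_) ?_) ?_) ?_
    · exact m2 (by rw [map_pow]; exact pow_le_one' h₁ 2) h₆
    · exact m2 (m2 v4 h₂) h₆
    · exact m2 (m2 h₁ h₃) h₄
    · exact m2 h₂ (by rw [map_pow]; exact pow_le_one' h₃ 2)
    · rw [map_pow]; exact pow_le_one' h₄ 2

end Final

end Fermat.Agent.S13.Ladder
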