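import Mathlib
import Fermat.Prelude.Def_FLTPrelim_Ramification
import Fermat.Agent.S05.Ident
import Fermat.Agent.S05.SameRed
import Fermat.Agent.S05.Shell
import Fermat.Agent.S05.TorsionHeight

set_option autoImplicit false

/-!
# S13, local step at odd primes (including the prime `p` itself)

For the Frey curve, a valuation subring `A` of `ℚ̄` above an odd prime `q` (no condition relating
`q` and the torsion order `p`), an element `σ` of the inertia group of `A`, and a `p`-torsion point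
`Pt` which is not in the kernel of reduction: `σ • Pt - Pt` lies in the kernel of reduction.
-/

namespace Fermat.Agent.S13.LegP

open WeierstrassCurve WeierstrassCurve.Affine
open Fermat.Agent.S05

section Map

variable {K : Type*} [Field K] [DecidableEq K] {Γ₀ : Type*} [LinearOrderedCommGroupWithZero Γ₀]
  (v : Valuation K Γ₀)

variable {R S : Type*} [CommRing R] [CommRing S] [Algebra R S] [Algebra R K] [Algebra S K]
  [IsScalarTower R S K]

/-- A point of the Legendre curve reducing to the node, whose `x`-coordinate has the valuation of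
an element fixed by `f`: either it is fixed by `f`, or `f P - P` has non-integral
`x`-coordinate. -/
theorem sub_of_val_eq (W' : Affine R) (f : K →ₐ[S] K)
    (hf : ∀ x, v x ≤ 1 → v (f x - x) < 1) {α β : K}
    (ha₁ : (W'⁄K).a₁ = 0) (ha₃ : (W'⁄K).a₃ = 0) (ha₆ : (W'⁄K).a₆ = 0)
    (ha₂ : (W'⁄K).a₂ = β - α) (ha₄ : (W'⁄K).a₄ = -(α * β))
    (h2 : v 2 = 1) (hβ : v β = 1)
    {x y : K} (h : (W'⁄K).Nonsingular x y)
    (hxα : v α < v x) (hx1 : v x < 1) (c : K) (hc : f c = c) (hxc : v x = v c) :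
    Point.map f (Point.some x y h) = Point.some x y h ∨
      ∃ (x₄ y₄ : K) (h₄ : (W'⁄K).Nonsingular x₄ y₄),
        Point.map f (Point.some x y h) - Point.some x y h = Point.some x₄ y₄ h₄ ∧ 1 < v x₄ := by
  have hvx0 : 0 < v x := lt_of_le_of_lt zero_le hxα
  have hx0 : x ≠ 0 := (v.ne_zero_iff).mp hvx0.ne'
  have hc0 : c ≠ 0 := by
    rintro rfl
    rw [map_zero] at hxc
    exact hvx0.ne' hxc
  have hfx0 : f x ≠ 0 := (map_ne_zero f).mpr hx0
  -- `x = c * w` with `w` a unit
  have hw : v (x / c) = 1 := by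
    rw [map_div₀, hxc, div_self]
    exact (v.ne_zero_iff).mpr hc0
  have hfw := hf (x / c) hw.le
  have hfx : f x - x = c * (f (x / c) - x / c) := by
    rw [map_div₀, hc]
    field_simp
  have hvfx : v (f x - x) < v x := by
    rw [hfx, map_mul, hxc]
    calc v c * v (f (x / c) - x / c) < v c * 1 :=
          (mul_lt_mul_iff_right₀ (by rw [← hxc]; exact hvx0)).mpr hfw
      _ = v c := mul_one _
  have hvfx' : v (f x) = v x := by
    have e : f x = x + (f x - x) := by ring
    rw [e, v.map_add_eq_of_lt_left hvfx]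
  -- `γ = y / x` is a unit
  have hE := (Ident.equation_iff_leg ha₁ ha₃ ha₆ x y).mp h.1
  rw [ha₂, ha₄] at hE
  have hγ2 : (y / x) ^ 2 = (1 - α / x) * (x + β) := by
    field_simp
    linear_combination hE
  have hv1 : v (1 - α / x) = 1 := by
    have ht : v (α / x) < 1 := by
      rw [map_div₀]
      exact (div_lt_one₀ hvx0).mpr hxα
    rw [v.map_sub_eq_of_lt_left (by rw [map_one]; exact ht), map_one]
  have hv2 : v (x + β) = 1 := by
    rw [v.map_add_eq_of_lt_right (by rw [hβ]; exact hx1), hβ]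
  have hγ : v (y / x) = 1 := by
    have h1 : v (y / x) ^ 2 = 1 := by
      rw [← map_pow, hγ2, map_mul, hv1, hv2, one_mul]
    exact (pow_eq_one_iff_of_nonneg zero_le (by norm_num)).mp h1
  have hfγ := hf (y / x) hγ.le
  have hfy : f y + y = (f (y / x) - y / x) * f x + y / x * (f x - x) + 2 * (y / x) * x := by
    rw [map_div₀]
    field_simp
    ring
  have hvfy : v (f y + y) = v x := by
    have t1 : v ((f (y / x) - y / x) * f x) < v x := by
      rw [map_mul, hvfx']
      calc v (f (y / x) - y / x) * v x < 1 * v x := (mul_lt_mul_iff_left₀ hvx0).mpr hfγ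
        _ = v x := one_mul _
    have t2 : v (y / x * (f x - x)) < v x := by
      rw [map_mul, hγ, one_mul]
      exact hvfx
    have t3 : v (2 * (y / x) * x) = v x := by
      rw [map_mul, map_mul, h2, hγ, one_mul, one_mul]
    have t12 : v ((f (y / x) - y / x) * f x + y / x * (f x - x)) < v x := v.map_add_lt t1 t2
    rw [hfy, v.map_add_eq_of_lt_right (by rw [t3]; exact t12), t3]
  have hfP : (W'⁄K).Nonsingular (f x) (f y) := (W'.baseChange_nonsingular f.injective ..).mpr h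
  rw [Point.map_some]
  by_cases hxx : f x = x
  · left
    have hfE := (Ident.equation_iff_leg ha₁ ha₃ ha₆ (f x) (f y)).mp hfP.1
    rw [ha₂, ha₄, hxx] at hfE
    have hsq : (f y - y) * (f y + y) = 0 := by linear_combination hfE - hE
    rcases mul_eq_zero.mp hsq with h0 | h0
    · rw [Point.some.injEq]
      exact ⟨hxx, by linear_combination h0⟩
    · rw [h0, map_zero] at hvfy
      exact absurd hvfy.symm hvx0.ne'
  · right
    obtain ⟨x₄, y₄, h₄, hsub, hx₄, -⟩ := Ident.sub_of_X_ne_leg ha₁ ha₃ hfP h hxx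
    have hd0 : f x - x ≠ 0 := sub_ne_zero.mpr hxx
    have hL : 1 < v ((f y + y) / (f x - x)) := by
      rw [map_div₀, hvfy]
      exact (one_lt_div₀ (by rw [pos_iff_ne_zero]; exact (v.ne_zero_iff).mpr hd0)).mpr hvfx
    have hva₂ : v (W'⁄K).a₂ ≤ 1 := by
      rw [ha₂]
      exact v.map_sub_le hβ.le (hxα.le.trans hx1.le)
    have hva₁ : v (W'⁄K).a₁ ≤ 1 := by rw [ha₁, map_zero]; exact zero_le_one
    have hx₄' : 1 < v x₄ := by
      have := SameRed.one_lt_val_addX v (W'⁄K) hva₁ hva₂ (hvfx'.le.trans hx1.le) hx1.le hL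
      rw [Affine.addX, ha₁, zero_mul, add_zero] at this
      rw [hx₄]
      exact this
    exact ⟨x₄, y₄, h₄, hsub, hx₄'⟩

end Map

local notation "Kbar" => AlgebraicClosure ℚ

open Fermat.Agent.S05.Shell

/-- The Legendre-model statement: no hypothesis on `v p`. -/
theorem leg_inertia_sub (A : ValuationSubring Kbar) (σ : Kbar ≃ₐ[ℚ] Kbar) (α β d : ℤ) (p : ℕ)
    (hp : p.Prime) (hp2 : p ≠ 2) (hα0 : α ≠ 0)
    (v2 : A.valuation (2 : Kbar) = 1)
    (vβ : A.valuation (β : Kbar) = 1) (vαβ : A.valuation ((α : Kbar) + β) = 1)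
    (vα : A.valuation (α : Kbar) = A.valuation (d : Kbar) ^ p)
    (hσ : ∀ x ∈ A, A.valuation (σ x - x) < 1)
    {x y : Kbar} (h : ((Leg (α : ℚ) (β : ℚ))⁄Kbar).Nonsingular x y)
    (hQ : p • Point.some x y h = 0) (hx : A.valuation x ≤ 1) :
    σ • Point.some x y h = Point.some x y h ∨
      ∃ (x₄ y₄ : Kbar) (h₄ : ((Leg (α : ℚ) (β : ℚ))⁄Kbar).Nonsingular x₄ y₄),
        σ • Point.some x y h - Point.some x y h = Point.some x₄ y₄ h₄ ∧ 1 < A.valuation x₄ := by
  have hα1 : A.valuation (α : Kbar) ≤ 1 := (A.valuation_le_one_iff _).mpr (intCast_mem A α)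
  have hf : ∀ x, A.valuation x ≤ 1 → A.valuation (σ.toAlgHom x - x) < 1 :=
    fun x hx => hσ x ((A.valuation_le_one_iff x).mp hx)
  change Point.map σ.toAlgHom (Point.some x y h) = Point.some x y h ∨
    ∃ (x₄ y₄ : Kbar) (h₄ : ((Leg (α : ℚ) (β : ℚ))⁄Kbar).Nonsingular x₄ y₄),
      Point.map σ.toAlgHom (Point.some x y h) - Point.some x y h = Point.some x₄ y₄ h₄ ∧
        1 < A.valuation x₄
  have h₁ : A.valuation ((Leg (α : ℚ) (β : ℚ))⁄Kbar).a₁ ≤ 1 := by
    rw [leg_a₁, map_zero]; exact zero_le_one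
  have h₂ : A.valuation ((Leg (α : ℚ) (β : ℚ))⁄Kbar).a₂ ≤ 1 := by
    rw [leg_a₂]; exact A.valuation.map_sub_le vβ.le hα1
  have h₃ : A.valuation ((Leg (α : ℚ) (β : ℚ))⁄Kbar).a₃ ≤ 1 := by
    rw [leg_a₃, map_zero]; exact zero_le_one
  have h₄ : A.valuation ((Leg (α : ℚ) (β : ℚ))⁄Kbar).a₄ ≤ 1 := by
    rw [leg_a₄, Valuation.map_neg, map_mul, vβ, mul_one]; exact hα1
  have h₆ : A.valuation ((Leg (α : ℚ) (β : ℚ))⁄Kbar).a₆ ≤ 1 := by
    rw [leg_a₆, map_zero]; exact zero_le_one
  have hy : A.valuation y ≤ 1 := SameRed.val_y_le_one A.valuation _ h₁ h₂ h₃ h₄ h₆ h.1 hx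
  by_cases hgood : A.valuation (α : Kbar) = 1 ∨ A.valuation x = 1
  · have hns := SameRed.legendre_nonsingular_reduction A.valuation ((Leg (α : ℚ) (β : ℚ))⁄Kbar)
      (leg_a₁ α β) (leg_a₃ α β) (leg_a₆ α β) (leg_a₂ α β) (leg_a₄ α β) v2 hα1 vβ vαβ h.1 hx hgood
    by_cases hfix : σ.toAlgHom x = x ∧ σ.toAlgHom y = y
    · left
      rw [Point.map_some, Point.some.injEq]
      exact hfix
    · right
      rw [Point.map_some]
      exact SameRed.same_red_sub A.valuation ((Leg (α : ℚ) (β : ℚ))⁄Kbar) h₁ h₂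
        (((Leg (α : ℚ) (β : ℚ)).toAffine.baseChange_nonsingular σ.toAlgHom.injective ..).mpr h) h hx
        (hf x hx) (hf y hy) hns hfix
  · push Not at hgood
    obtain ⟨hα', hx'⟩ := hgood
    have hαlt : A.valuation (α : Kbar) < 1 := lt_of_le_of_ne hα1 hα'
    have hxlt : A.valuation x < 1 := lt_of_le_of_ne hx hx'
    have hodd : Odd p := hp.odd_of_ne_two hp2
    have hα0' : (α : Kbar) ≠ 0 := by exact_mod_cast hα0
    obtain ⟨hαx, k, hk⟩ := TorsionHeight.val_of_torsion A.valuation _ (leg_a₁ α β) (leg_a₃ α β)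
      (leg_a₆ α β) (leg_a₂ α β) (leg_a₄ α β) v2 vβ hαlt hα0' hodd h hQ hxlt
    have hvx : A.valuation x = A.valuation (d : Kbar) ^ (2 * k) := by
      have e : A.valuation x ^ p = (A.valuation (d : Kbar) ^ (2 * k)) ^ p := by
        rw [hk, vα, ← zpow_natCast, ← zpow_natCast, ← zpow_mul, ← zpow_mul, mul_comm]
      exact (pow_left_inj₀ zero_le zero_le hp.ne_zero).mp e
    refine sub_of_val_eq A.valuation (Leg (α : ℚ) (β : ℚ)) σ.toAlgHom hf
      (leg_a₁ α β) (leg_a₃ α β) (leg_a₆ α β) (leg_a₂ α β) (leg_a₄ α β) v2 vβ h hαx hxlt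
      ((d : Kbar) ^ (2 * k)) ?_ ?_
    · change σ ((d : Kbar) ^ (2 * k)) = (d : Kbar) ^ (2 * k)
      rw [map_zpow₀, map_intCast]
    · rw [map_zpow₀]; exact hvx

/-- Kernel of reduction (origin included) of a curve over `ℚ̄` at the valuation subring `A`:
the origin, or an affine point with non-integral `x`-coordinate. -/
def InKer (A : ValuationSubring Kbar) {W : Affine Kbar} (Q : W.Point) : Prop :=
  Q = 0 ∨ ∃ (x y : Kbar) (h : W.Nonsingular x y), Q = Point.some x y h ∧ 1 < A.valuation x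

theorem inKer_zero (A : ValuationSubring Kbar) {W : Affine Kbar} : InKer A (0 : W.Point) :=
  Or.inl rfl

theorem inKer_some_iff (A : ValuationSubring Kbar) {W : Affine Kbar} {x y : Kbar}
    (h : W.Nonsingular x y) : InKer A (Point.some x y h) ↔ 1 < A.valuation x := by
  constructor
  · rintro (h0 | ⟨x', y', h', e, hx⟩)
    · exact absurd h0 (Point.some_ne_zero h)
    · rw [Point.some.injEq] at e
      rw [e.1]; exact hx
  · intro hx
    exact Or.inr ⟨x, y, h, rfl, hx⟩

theorem core (P : FreyPackage) {q : ℕ} (hq : q.Prime) (hq2 : q ≠ 2)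
    (A : ValuationSubring Kbar) (hA : (q : Kbar) ∈ A.nonunits)
    (σ : Kbar ≃ₐ[ℚ] Kbar) (hσ : σ ∈ A.inertiaSubgroupIn ℚ) (e α β d : ℤ)
    (h2 : β - α = P.b ^ P.p - P.a ^ P.p + 3 * e)
    (h4 : -(P.a ^ P.p * P.b ^ P.p) = -(α * β) - 2 * e * (β - α) + 3 * e ^ 2)
    (h6 : 0 = e * (α * β) + e ^ 2 * (β - α) - e ^ 3)
    (hβ : ¬ (q : ℤ) ∣ β) (hαβ : ¬ (q : ℤ) ∣ α + β) (hα : α = d ^ P.p ∨ α = -d ^ P.p)
    (hd : d ≠ 0) (Pt : (P.freyCurve⁄Kbar).Point) (hPt : (P.p : ℤ) • Pt = 0) :
    InKer A Pt ∨ InKer A (σ • Pt - Pt) := by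
  have H := rel P e α β h2 h4 h6
  have hle : ∀ c : ℤ, A.valuation (c : Kbar) ≤ 1 := fun c =>
    (A.valuation_le_one_iff _).mpr (intCast_mem A c)
  have v2 : A.valuation (2 : Kbar) = 1 := by
    have := valuation_intCast_eq_one A q hq hA 2 (by
      intro h
      have h' : q ∣ 2 := by exact_mod_cast h
      exact hq2 ((Nat.prime_dvd_prime_iff_eq hq Nat.prime_two).mp h'))
    simpa using this
  have vβ : A.valuation (β : Kbar) = 1 := valuation_intCast_eq_one A q hq hA β hβ
  have vαβ : A.valuation ((α : Kbar) + β) = 1 := by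
    have := valuation_intCast_eq_one A q hq hA (α + β) hαβ
    simpa using this
  have vα : A.valuation (α : Kbar) = A.valuation (d : Kbar) ^ P.p := by
    rcases hα with h | h
    · rw [h]; simp
    · rw [h]; simp
  have hp2 : P.p ≠ 2 := by have := P.hp5; omega
  have hα0 : α ≠ 0 := by
    rcases hα with h | h
    · rw [h]; exact pow_ne_zero _ hd
    · rw [h]; exact neg_ne_zero.mpr (pow_ne_zero _ hd)
  -- integrality transfer along `X = 4 x - e`
  have hXle : ∀ x : Kbar, A.valuation x ≤ 1 → A.valuation ((2 : Kbar) ^ 2 * x + -(e : Kbar)) ≤ 1 := by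
    intro x hx
    refine A.valuation.map_add_le ?_ ?_
    · rw [map_mul, map_pow, v2, one_pow, one_mul]; exact hx
    · rw [Valuation.map_neg]; exact hle e
  have hXlt : ∀ x : Kbar, 1 < A.valuation ((2 : Kbar) ^ 2 * x + -(e : Kbar)) → 1 < A.valuation x := by
    intro x hx
    by_contra hcon
    exact absurd (hXle x (not_lt.mp hcon)) (not_le.mpr hx)
  rcases Pt with _ | ⟨x, y, h⟩
  · exact Or.inl (Or.inl rfl)
  by_cases hx : 1 < A.valuation x
  · exact Or.inl ((inKer_some_iff A h).mpr hx)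
  right
  have hx' : A.valuation x ≤ 1 := not_lt.mp hx
  have htors : P.p • H.pointMap (Point.some x y h) = 0 := by
    have := map_zsmul H.pointHom (P.p : ℤ) (Point.some x y h)
    rw [hPt, _root_.map_zero, natCast_zsmul] at this
    exact this.symm
  rw [VarChange.Rel.pointMap_some] at htors
  have key := leg_inertia_sub A σ α β d P.p P.pp hp2 hα0 v2 vβ vαβ vα
    (Glue.valuation_sub_lt_one_of_mem_inertia ℚ A σ hσ) _ htors (hXle x hx')
  rw [← VarChange.Rel.pointMap_some H h, ← pointMap_smul H σ] at key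
  rcases key with key | ⟨x₄, y₄, h₄, key, hx₄⟩
  · have := H.pointMap_injective key
    rw [this, sub_self]
    exact Or.inl rfl
  · have hsub : H.pointMap (σ • Point.some x y h - Point.some x y h) = Point.some x₄ y₄ h₄ := by
      rw [← key]
      exact map_sub H.pointHom _ _
    generalize σ • Point.some x y h - Point.some x y h = D at hsub
    rcases D with _ | ⟨x₅, y₅, h₅⟩
    · exact absurd hsub.symm (Point.some_ne_zero h₄)
    · rw [VarChange.Rel.pointMap_some, Point.some.injEq] at hsub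
      refine (inKer_some_iff A h₅).mpr (hXlt x₅ ?_)
      rw [hsub.1]; exact hx₄

/-- **Local step of S13 at an odd prime `q`** (`q = p` allowed): for `σ` in the inertia group of a
valuation subring `A` of `ℚ̄` above `q` and a `p`-torsion point `Pt` of the Frey curve, either `Pt`
lies in the kernel of reduction at `A`, or `σ • Pt - Pt` does. -/
theorem frey_inertia_sub (P : FreyPackage) {q : ℕ} (hq : q.Prime) (hq2 : q ≠ 2)
    (A : ValuationSubring Kbar) (hA : (q : Kbar) ∈ A.nonunits)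
    (σ : Kbar ≃ₐ[ℚ] Kbar) (hσ : σ ∈ A.inertiaSubgroupIn ℚ)
    (Pt : (P.freyCurve⁄Kbar).Point) (hPt : (P.p : ℤ) • Pt = 0) :
    InKer A Pt ∨ InKer A (σ • Pt - Pt) := by
  have hqZ : Prime (q : ℤ) := Nat.prime_iff_prime_int.mp hq
  have hFLT := P.hFLT
  have hppos : P.p ≠ 0 := P.hp0
  by_cases hb : (q : ℤ) ∣ P.b
  · -- node at X = 0, with α = -b^p, β = -a^p
    have ha : ¬ (q : ℤ) ∣ P.a := by
      intro ha
      have := dvd_gcd ha hb
      rw [P.hgcdab] at this
      exact hqZ.not_dvd_one this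
    have hc : ¬ (q : ℤ) ∣ P.c := by
      intro hc
      have := dvd_gcd hb hc
      rw [P.hgcdbc] at this
      exact hqZ.not_dvd_one this
    refine core P hq hq2 A hA σ hσ 0 (-(P.b ^ P.p)) (-(P.a ^ P.p)) P.b ?_ ?_ ?_ ?_ ?_
      (Or.inr rfl) P.hb0 Pt hPt
    · ring
    · ring
    · ring
    · rw [dvd_neg]; exact fun h => ha (hqZ.dvd_of_dvd_pow h)
    · have : -(P.b ^ P.p) + -(P.a ^ P.p) = -(P.c ^ P.p) := by rw [← hFLT]; ring
      rw [this, dvd_neg]; exact fun h => hc (hqZ.dvd_of_dvd_pow h)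
  by_cases hc : (q : ℤ) ∣ P.c
  · -- node at X = a^p: translate by e = a^p, α = -c^p, β = a^p
    have ha : ¬ (q : ℤ) ∣ P.a := by
      intro ha
      have := dvd_gcd ha hc
      rw [P.hgcdac] at this
      exact hqZ.not_dvd_one this
    refine core P hq hq2 A hA σ hσ (P.a ^ P.p) (-(P.c ^ P.p)) (P.a ^ P.p) P.c ?_ ?_ ?_ ?_ ?_
      (Or.inr rfl) P.hc0 Pt hPt
    · rw [← hFLT]; ring
    · rw [← hFLT]; ring
    · rw [← hFLT]; ring
    · exact fun h => ha (hqZ.dvd_of_dvd_pow h)
    · have : -(P.c ^ P.p) + P.a ^ P.p = -(P.b ^ P.p) := by rw [← hFLT]; ring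
      rw [this, dvd_neg]; exact fun h => hb (hqZ.dvd_of_dvd_pow h)
  · -- good reduction, or node at X = 0 with α = a^p, β = b^p
    refine core P hq hq2 A hA σ hσ 0 (P.a ^ P.p) (P.b ^ P.p) P.a ?_ ?_ ?_ ?_ ?_
      (Or.inl rfl) P.ha0 Pt hPt
    · ring
    · ring
    · ring
    · exact fun h => hb (hqZ.dvd_of_dvd_pow h)
    · rw [hFLT]; exact fun h => hc (hqZ.dvd_of_dvd_pow h)

end Fermat.Agent.S13.LegP
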