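import Mathlib
import Fermat.Prelude.Def_FLTPrelim_Ramification
import Fermat.Agent.Lib.TorsionCard.Count
import Fermat.Agent.Lib.FrobProfinite
import Fermat.Agent.S05.Shell

set_option autoImplicit false

/-!
# S13, local analysis at `p`: the kernel of reduction is the stable line or meets it trivially

`kerRed_subset_line_of`: at a valuation subring `A` over `p`, if a Galois-stable cyclic subgroup
`⟨R0⟩` of `E[p]` contains a nonzero point of the kernel of reduction, then every `p`-torsion point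
in the kernel of reduction lies in `⟨R0⟩`.

`locP_of_parts`: consequently the inertia group of `A` acts trivially on the stable line `N` or on
the quotient by `N`.

Both are stated for a curve over `ℚ` base-changed to `AlgebraicClosure ℚ`, with the three local
engines (multiples in the kernel of reduction, the Newton bound for the `p`-torsion polynomial,
the inertia step) as hypotheses.
-/

namespace Fermat.Agent.S13.LocP

open WeierstrassCurve WeierstrassCurve.Affine WeierstrassCurve.Affine.Point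
open Fermat.Agent.Lib.TorsionCard

local notation "Kbar" => AlgebraicClosure ℚ
local notation "Gq" => (AlgebraicClosure ℚ ≃ₐ[ℚ] AlgebraicClosure ℚ)

section Basic

variable {K : Type*} [Field K] {Γ₀ : Type*} [LinearOrderedCommGroupWithZero Γ₀]

/-- The kernel of reduction: the origin and the affine points with non-integral `x`. -/
def InKer (v : Valuation K Γ₀) {W : Affine K} (Q : W.Point) : Prop :=
  Q = 0 ∨ ∃ (x y : K) (h : W.Nonsingular x y), Q = Point.some x y h ∧ 1 < v x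

lemma inKer_zero (v : Valuation K Γ₀) {W : Affine K} : InKer v (0 : W.Point) := Or.inl rfl

lemma InKer.exists_hasXc {v : Valuation K Γ₀} {W : Affine K} {Q : W.Point} (h : InKer v Q)
    (h0 : Q ≠ 0) : ∃ x, HasXc W Q x ∧ 1 < v x := by
  rcases h with h | ⟨x, y, hxy, rfl, hx⟩
  · exact absurd h h0
  · exact ⟨x, ⟨y, hxy, rfl⟩, hx⟩

lemma inKer_of_hasXc {v : Valuation K Γ₀} {W : Affine K} {Q : W.Point} {x : K}
    (h : HasXc W Q x) (hx : 1 < v x) : InKer v Q := by
  obtain ⟨y, hy, rfl⟩ := h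
  exact Or.inr ⟨x, y, hy, rfl, hx⟩

end Basic

/-- A rational number of valuation `> 1` at a place over `p` has valuation at least that of
`p⁻¹`. -/
theorem rat_val_ge (A : ValuationSubring Kbar) {p : ℕ} (hp : p.Prime)
    (hA : (p : Kbar) ∈ A.nonunits) (r : ℚ) (h : 1 < A.valuation (r : Kbar)) :
    1 ≤ A.valuation (r : Kbar) * A.valuation (p : Kbar) := by
  have hle : ∀ d : ℤ, A.valuation (d : Kbar) ≤ 1 := fun d =>
    (A.valuation_le_one_iff _).mpr (intCast_mem A d)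
  have hr : (r : Kbar) = ((r.num : ℤ) : Kbar) / (((r.den : ℕ) : ℤ) : Kbar) := by
    rw [Rat.cast_def]; push_cast; rfl
  have hden0 : (((r.den : ℕ) : ℤ) : Kbar) ≠ 0 := by
    exact_mod_cast r.den_ne_zero
  rw [hr, map_div₀] at h ⊢
  have hvd : A.valuation (((r.den : ℕ) : ℤ) : Kbar) < 1 := by
    by_contra hcon
    have h1 : A.valuation (((r.den : ℕ) : ℤ) : Kbar) = 1 :=
      le_antisymm (hle _) (not_lt.mp hcon)
    rw [h1, div_one] at h
    exact absurd (hle r.num) (not_le.mpr h)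
  have hpd : (p : ℤ) ∣ ((r.den : ℕ) : ℤ) := by
    by_contra hnd
    have := Fermat.Agent.S05.Shell.valuation_intCast_eq_one A p hp hA _ hnd
    rw [this] at hvd
    exact lt_irrefl _ hvd
  have hpn : ¬ (p : ℤ) ∣ r.num := by
    intro hpn
    have h1 : (p : ℤ) ∣ Int.gcd r.num (r.den : ℤ) := Int.dvd_coe_gcd hpn hpd
    have h2 : Int.gcd r.num (r.den : ℤ) = 1 := by
      have := r.reduced
      simpa [Int.gcd, Nat.Coprime] using this
    rw [h2] at h1
    have : p ∣ 1 := by exact_mod_cast h1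
    exact hp.one_lt.ne' (Nat.dvd_one.mp this)
  have hvn : A.valuation ((r.num : ℤ) : Kbar) = 1 :=
    Fermat.Agent.S05.Shell.valuation_intCast_eq_one A p hp hA r.num hpn
  obtain ⟨d', hd'⟩ := hpd
  have hvd' : A.valuation (((r.den : ℕ) : ℤ) : Kbar) ≤ A.valuation (p : Kbar) := by
    have e : (((r.den : ℕ) : ℤ) : Kbar) = (p : Kbar) * (d' : Kbar) := by
      rw [hd']; push_cast; rfl
    rw [e, map_mul]
    exact mul_le_of_le_one_right' (hle d')
  have hd0 : A.valuation (((r.den : ℕ) : ℤ) : Kbar) ≠ 0 := (A.valuation.ne_zero_iff).mpr hden0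
  rw [hvn, one_div, inv_mul_eq_div, le_div_iff₀ (zero_lt_iff.mpr hd0), one_mul]
  exact hvd'

section Line

variable (W' : Affine ℚ) (A : ValuationSubring Kbar) {p : ℕ}

lemma hasXc_smul {W' : Affine ℚ} (σ : Gq) {Q : (W'⁄Kbar).Point} {x : Kbar}
    (h : HasXc (W'⁄Kbar) Q x) : HasXc (W'⁄Kbar) (σ • Q) (σ x) := by
  obtain ⟨y, hy, rfl⟩ := h
  exact ⟨σ y, _, rfl⟩

lemma galois_smul_nsmul {W' : Affine ℚ} (σ : Gq) (k : ℕ) (Q : (W'⁄Kbar).Point) :
    σ • (k • Q) = k • (σ • Q) :=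
  map_nsmul (Point.map (W' := W') σ.toAlgHom) k Q

/-- **Dichotomy at `p`.** If the Galois-stable cyclic group `⟨R0⟩ ⊆ E[p]` meets the kernel of
reduction at `A ∣ p` nontrivially, then it contains every `p`-torsion point of the kernel of
reduction. -/
theorem kerRed_subset_line_of (hp : p.Prime) (hA : (p : Kbar) ∈ A.nonunits)
    (hR1 : ∀ (P0 : (W'⁄Kbar).Point) (x : Kbar), p • P0 = 0 → HasXc (W'⁄Kbar) P0 x →
      1 < A.valuation x → ∀ k : ℕ, ¬ p ∣ k →
        ∃ xk, HasXc (W'⁄Kbar) (k • P0) xk ∧ A.valuation xk = A.valuation x)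
    (hT2 : ∀ S : Finset Kbar,
      (∀ x ∈ S, 1 < A.valuation x ∧ ∃ P0 : (W'⁄Kbar).Point, p • P0 = 0 ∧ HasXc (W'⁄Kbar) P0 x) →
        A.valuation (p : Kbar) * ∏ x ∈ S, A.valuation x ≤ 1)
    (R0 : (W'⁄Kbar).Point) (hR0 : p • R0 = 0) (h0 : R0 ≠ 0)
    (hst : ∀ σ : Gq, ∃ k : ℕ, σ • R0 = k • R0)
    (hk : InKer A.valuation R0)
    (R : (W'⁄Kbar).Point) (hR : p • R = 0) (hRk : InKer A.valuation R) :
    ∃ k : ℕ, R = k • R0 := by
  classical
  by_contra hcon
  push Not at hcon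
  have hRne : R ≠ 0 := fun h => hcon 0 (by rw [h, zero_nsmul])
  obtain ⟨x0, hx0, hvx0⟩ := hk.exists_hasXc h0
  obtain ⟨x, hx, hvx⟩ := hRk.exists_hasXc hRne
  have hline : ∀ k : ℕ, ¬ p ∣ k → HasXc (W'⁄Kbar) (k • R0) (xOf (W'⁄Kbar) (k • R0)) ∧
      A.valuation (xOf (W'⁄Kbar) (k • R0)) = A.valuation x0 := by
    intro k hk
    obtain ⟨xk, hxk, hvk⟩ := hR1 R0 x0 hR0 hx0 hvx0 k hk
    rw [hxk.xOf_eq]
    exact ⟨hxk, hvk⟩
  have hnd : ∀ k ∈ Finset.Ico 1 p, ¬ p ∣ k := by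
    intro k hk hd
    rw [Finset.mem_Ico] at hk
    exact absurd (Nat.le_of_dvd (by omega) hd) (by omega)
  set XN : Finset Kbar := (Finset.Ico 1 p).image (fun k => xOf (W'⁄Kbar) (k • R0)) with hXN
  have hXN_mem : ∀ ξ ∈ XN, A.valuation ξ = A.valuation x0 ∧
      ∃ k, ¬ p ∣ k ∧ HasXc (W'⁄Kbar) (k • R0) ξ := by
    intro ξ hξ
    rw [hXN, Finset.mem_image] at hξ
    obtain ⟨k, hk, rfl⟩ := hξ
    exact ⟨(hline k (hnd k hk)).2, k, hnd k hk, (hline k (hnd k hk)).1⟩
  have hpk : ∀ k : ℕ, p • (k • R0) = 0 := by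
    intro k
    rw [smul_comm, hR0, nsmul_zero]
  -- `x` is not among the `x`-coordinates of the line
  have hxnot : x ∉ XN := by
    intro hxin
    obtain ⟨-, k, -, hkx⟩ := hXN_mem x hxin
    rcases hx.eq_or_eq_neg hkx with e | e
    · exact hcon k e
    · apply hcon ((p - 1) * k)
      have h1 : (p - 1) • (k • R0) + k • R0 = 0 := by
        rw [← succ_nsmul, Nat.sub_add_cancel hp.one_le, hpk]
      rw [e, mul_smul]
      exact (eq_neg_of_add_eq_zero_left h1).symm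
  -- the set of `x`-coordinates of the line is Galois stable
  have hGal : ∀ σ : Gq, XN.image σ = XN := by
    intro σ
    apply Finset.eq_of_subset_of_card_le
    · intro ξ hξ
      rw [Finset.mem_image] at hξ
      obtain ⟨ξ0, hξ0, rfl⟩ := hξ
      obtain ⟨-, k, -, hkx⟩ := hXN_mem ξ0 hξ0
      obtain ⟨j, hj⟩ := hst σ
      have h1 : HasXc (W'⁄Kbar) (σ • (k • R0)) (σ ξ0) := hasXc_smul σ hkx
      have h2 : σ • (k • R0) = ((k * j) % p) • R0 := by
        rw [galois_smul_nsmul, hj, ← mul_smul, nsmul_eq_mod_nsmul _ hR0]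
      rw [h2] at h1
      have hm0 : (k * j) % p ≠ 0 := by
        intro h0'
        rw [h0', zero_nsmul] at h1
        exact h1.ne_zero rfl
      have hmem : (k * j) % p ∈ Finset.Ico 1 p :=
        Finset.mem_Ico.mpr ⟨Nat.one_le_iff_ne_zero.mpr hm0, Nat.mod_lt _ hp.pos⟩
      rw [hXN, Finset.mem_image]
      exact ⟨_, hmem, h1.xOf_eq⟩
    · rw [Finset.card_image_of_injective _ σ.injective]
  have hfix : ∀ σ : Gq, σ (∏ ξ ∈ XN, ξ) = ∏ ξ ∈ XN, ξ := by
    intro σ
    rw [map_prod]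
    conv_rhs => rw [← hGal σ]
    rw [Finset.prod_image (fun a _ b _ h => σ.injective h)]
  have := Fermat.Agent.Lib.FrobProfinite.isGalois_Qb
  obtain ⟨r, hr⟩ :=
    (InfiniteGalois.mem_range_algebraMap_iff_fixed (k := ℚ) (K := Kbar) _).mpr hfix
  have hr' : (r : Kbar) = ∏ ξ ∈ XN, ξ := by
    rw [← hr]; exact (eq_ratCast (algebraMap ℚ Kbar) r).symm
  have hXNne : XN.Nonempty :=
    ⟨_, Finset.mem_image_of_mem _ (Finset.mem_Ico.mpr ⟨le_refl 1, hp.one_lt⟩)⟩
  have hvW : A.valuation (∏ ξ ∈ XN, ξ) = A.valuation x0 ^ XN.card := by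
    rw [map_prod, Finset.prod_congr rfl (fun ξ hξ => (hXN_mem ξ hξ).1), Finset.prod_const]
  have hW1 : 1 < A.valuation (∏ ξ ∈ XN, ξ) := by
    rw [hvW]
    exact one_lt_pow₀ hvx0 (Finset.card_ne_zero.mpr hXNne)
  have hrat := rat_val_ge A hp hA r (by rw [hr']; exact hW1)
  rw [hr'] at hrat
  have hT := hT2 (insert x XN) (by
    intro ξ hξ
    rw [Finset.mem_insert] at hξ
    rcases hξ with rfl | hξ
    · exact ⟨hvx, R, hR, hx⟩
    · obtain ⟨hvξ, k, -, hkx⟩ := hXN_mem ξ hξ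
      exact ⟨by rw [hvξ]; exact hvx0, k • R0, hpk k, hkx⟩)
  rw [Finset.prod_insert hxnot, ← map_prod] at hT
  have hfin : (1 : A.ValueGroup) < 1 :=
    calc (1 : A.ValueGroup) < A.valuation x := hvx
      _ = A.valuation x * 1 := (mul_one _).symm
      _ ≤ A.valuation x * (A.valuation (∏ ξ ∈ XN, ξ) * A.valuation (p : Kbar)) := by
          gcongr
      _ = A.valuation (p : Kbar) * (A.valuation x * A.valuation (∏ ξ ∈ XN, ξ)) := by
          rw [← mul_assoc, mul_comm]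
      _ ≤ 1 := hT
  exact lt_irrefl _ hfin

/-- **Inertia at `p`** (conditional form): the inertia group of `A ∣ p` acts trivially on the
stable line `N` or on the quotient by `N`. -/
theorem locP_of_parts (hp : p.Prime) (hA : (p : Kbar) ∈ A.nonunits)
    (hR1 : ∀ (P0 : (W'⁄Kbar).Point) (x : Kbar), p • P0 = 0 → HasXc (W'⁄Kbar) P0 x →
      1 < A.valuation x → ∀ k : ℕ, ¬ p ∣ k →
        ∃ xk, HasXc (W'⁄Kbar) (k • P0) xk ∧ A.valuation xk = A.valuation x)
    (hT2 : ∀ S : Finset Kbar,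
      (∀ x ∈ S, 1 < A.valuation x ∧ ∃ P0 : (W'⁄Kbar).Point, p • P0 = 0 ∧ HasXc (W'⁄Kbar) P0 x) →
        A.valuation (p : Kbar) * ∏ x ∈ S, A.valuation x ≤ 1)
    (hin : ∀ σ ∈ A.inertiaSubgroupIn ℚ, ∀ Pt : (W'⁄Kbar).Point, (p : ℤ) • Pt = 0 →
      InKer A.valuation Pt ∨ InKer A.valuation (σ • Pt - Pt))
    (N : Submodule (ZMod p) (Submodule.torsionBy ℤ (W'⁄Kbar).Point p))
    (hN : IsGaloisStable ℚ N)
    (hcyc : ∃ R0 ∈ N, ∀ x ∈ N, ∃ k : ℕ, x = k • R0) :
    (∀ σ ∈ A.inertiaSubgroupIn ℚ, ∀ x ∈ N, σ • x = x) ∨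
    (∀ σ ∈ A.inertiaSubgroupIn ℚ,
      ∀ x : Submodule.torsionBy ℤ (W'⁄Kbar).Point p, σ • x - x ∈ N) := by
  classical
  obtain ⟨R0, hR0N, hgen⟩ := hcyc
  have htorZ : ∀ x : Submodule.torsionBy ℤ (W'⁄Kbar).Point p,
      (p : ℤ) • (x : (W'⁄Kbar).Point) = 0 := fun x => (Submodule.mem_torsionBy_iff _ _).mp x.2
  have htor : ∀ x : Submodule.torsionBy ℤ (W'⁄Kbar).Point p,
      p • (x : (W'⁄Kbar).Point) = 0 := by
    intro x
    have := htorZ x
    rwa [natCast_zsmul] at this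
  by_cases hker : ∃ x ∈ N, x ≠ 0 ∧ InKer A.valuation (x : (W'⁄Kbar).Point)
  · right
    obtain ⟨x1, hx1N, hx10, hx1k⟩ := hker
    obtain ⟨k1, hk1⟩ := hgen x1 hx1N
    have hR00 : R0 ≠ 0 := by
      rintro rfl
      exact hx10 (by rw [hk1, nsmul_zero])
    have hR00' : (R0 : (W'⁄Kbar).Point) ≠ 0 := fun h => hR00 (Subtype.ext h)
    have hx1c : (x1 : (W'⁄Kbar).Point) = k1 • (R0 : (W'⁄Kbar).Point) := by
      rw [hk1]; rfl
    have hk1d : ¬ p ∣ k1 := by
      rintro ⟨c, rfl⟩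
      apply hx10
      apply Subtype.ext
      rw [hx1c, mul_smul, smul_comm, htor R0, nsmul_zero]
      rfl
    obtain ⟨j, -, hj⟩ := Nat.exists_mul_mod_eq_one_of_coprime
      (Nat.coprime_comm.mp ((Nat.Prime.coprime_iff_not_dvd hp).mpr hk1d)) hp.one_lt
    have hjd : ¬ p ∣ j := by
      intro hd
      have : k1 * j % p = 0 := Nat.mod_eq_zero_of_dvd (Dvd.dvd.mul_left hd k1)
      omega
    have hR0eq : (R0 : (W'⁄Kbar).Point) = j • (x1 : (W'⁄Kbar).Point) := by
      rw [hx1c, ← mul_smul, mul_comm, nsmul_eq_mod_nsmul _ (htor R0), hj, one_smul]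
    obtain ⟨ξ1, hξ1, hvξ1⟩ := hx1k.exists_hasXc (fun h => hx10 (Subtype.ext h))
    obtain ⟨ξ0, hξ0, hvξ0⟩ := hR1 _ ξ1 (htor x1) hξ1 hvξ1 j hjd
    have hR0k : InKer A.valuation (R0 : (W'⁄Kbar).Point) := by
      rw [hR0eq]
      exact inKer_of_hasXc hξ0 (by rw [hvξ0]; exact hvξ1)
    have hst : ∀ σ : Gq, ∃ k : ℕ,
        σ • (R0 : (W'⁄Kbar).Point) = k • (R0 : (W'⁄Kbar).Point) := by
      intro σ
      obtain ⟨k, hk⟩ := hgen (σ • R0) (hN σ R0 hR0N)
      exact ⟨k, congrArg Subtype.val hk⟩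
    have hsub : ∀ y : Submodule.torsionBy ℤ (W'⁄Kbar).Point p,
        InKer A.valuation (y : (W'⁄Kbar).Point) → y ∈ N := by
      intro y hy
      obtain ⟨k, hk⟩ := kerRed_subset_line_of W' A hp hA hR1 hT2 R0 (htor R0) hR00' hst hR0k
        y (htor y) hy
      have : y = k • R0 := Subtype.ext hk
      rw [this]
      exact nsmul_mem hR0N k
    intro σ hσ y
    rcases hin σ hσ (y : (W'⁄Kbar).Point) (htorZ y) with h | h
    · have hyN := hsub y h
      exact N.sub_mem (hN σ y hyN) hyN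
    · exact hsub (σ • y - y) h
  · left
    push Not at hker
    intro σ hσ y hyN
    by_contra hne
    have hy0 : y ≠ 0 := by
      rintro rfl
      exact hne (smul_zero σ)
    rcases hin σ hσ (y : (W'⁄Kbar).Point) (htorZ y) with h | h
    · exact hker y hyN hy0 h
    · exact hker (σ • y - y) (N.sub_mem (hN σ y hyN) hyN) (sub_ne_zero.mpr hne) h

end Line

end Fermat.Agent.S13.LocP
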