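import Mathlib
import Fermat.Agent.Lib.TorsionFinite

set_option autoImplicit false

/-!
Kernel of reduction in residue characteristic `2`: on a Weierstrass curve with integral
`b₂, b₄, b₆, b₈` over a valued field with `v 2 < 1`, the doubling map strictly increases the
valuation of non-integral `x`-coordinates.  Hence a point with non-integral `x`-coordinate is not
killed by any odd natural number.
-/

namespace Fermat.Agent.S13.KerRedTwo

open WeierstrassCurve WeierstrassCurve.Affine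
open Fermat.Agent.Lib.TorsionFinite

variable {K : Type*} [Field K] [DecidableEq K] {Γ₀ : Type*} [LinearOrderedCommGroupWithZero Γ₀]
  (v : Valuation K Γ₀)

/-- Doubling expansion: in residue characteristic `2`, if `1 < v x(P)` and `2P ≠ O` then
`v x(P) < v x(2P)`. -/
theorem double_expand (W : Affine K) (hb₂ : v W.b₂ ≤ 1) (hb₄ : v W.b₄ ≤ 1) (hb₆ : v W.b₆ ≤ 1)
    (hb₈ : v W.b₈ ≤ 1) (h2 : v 2 < 1) {P : W.Point} {x : K} (h : HasX W P x) (hx : 1 < v x)
    (h2P : P + P ≠ 0) : ∃ x', HasX W (P + P) x' ∧ v x < v x' := by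
  obtain ⟨hden, hX⟩ := hasX_double h h2P
  refine ⟨_, hX, ?_⟩
  have hx0 : 0 < v x := lt_trans zero_lt_one hx
  have hx1 : (1 : Γ₀) ≤ v x := hx.le
  have hx2 : v x ^ 2 < v x ^ 3 := pow_lt_pow_right₀ hx (by norm_num)
  have hx12 : v x ≤ v x ^ 2 := by
    calc v x = v x ^ 1 := (pow_one _).symm
      _ ≤ v x ^ 2 := pow_le_pow_right₀ hx1 (by norm_num)
  have h1x2 : (1 : Γ₀) ≤ v x ^ 2 := one_le_pow₀ hx1
  -- numerator
  have hnum : v (x ^ 4 - W.b₄ * x ^ 2 - 2 * W.b₆ * x - W.b₈) = v x ^ 4 := by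
    have h24 : v x ^ 2 < v x ^ 4 := pow_lt_pow_right₀ hx (by norm_num)
    have t1 : v (W.b₄ * x ^ 2) < v (x ^ 4) := by
      rw [map_mul, map_pow, map_pow]
      calc v W.b₄ * v x ^ 2 ≤ 1 * v x ^ 2 := by gcongr
        _ = v x ^ 2 := one_mul _
        _ < v x ^ 4 := h24
    have t2 : v (2 * W.b₆ * x) < v (x ^ 4) := by
      rw [map_mul, map_mul, map_pow]
      calc v 2 * v W.b₆ * v x ≤ 1 * 1 * v x := by gcongr
        _ = v x := by rw [one_mul, one_mul]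
        _ ≤ v x ^ 2 := hx12
        _ < v x ^ 4 := h24
    have t3 : v W.b₈ < v (x ^ 4) := by
      rw [map_pow]
      exact lt_of_le_of_lt hb₈ (lt_of_le_of_lt h1x2 h24)
    have e1 : v (x ^ 4 - W.b₄ * x ^ 2) = v (x ^ 4) := v.map_sub_eq_of_lt_left t1
    have e2 : v (x ^ 4 - W.b₄ * x ^ 2 - 2 * W.b₆ * x) = v (x ^ 4) := by
      rw [v.map_sub_eq_of_lt_left (by rw [e1]; exact t2), e1]
    rw [v.map_sub_eq_of_lt_left (by rw [e2]; exact t3), e2, map_pow]
  -- denominator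
  have hdenlt : v (4 * x ^ 3 + W.b₂ * x ^ 2 + 2 * W.b₄ * x + W.b₆) < v x ^ 3 := by
    have h4 : v (4 : K) < 1 := by
      have : (4 : K) = 2 * 2 := by norm_num
      rw [this, map_mul]
      calc v 2 * v 2 ≤ 1 * v 2 := by gcongr
        _ = v 2 := one_mul _
        _ < 1 := h2
    have x3pos : 0 < v x ^ 3 := pow_pos hx0 3
    have s1 : v (4 * x ^ 3) < v x ^ 3 := by
      rw [map_mul, map_pow]
      calc v 4 * v x ^ 3 < 1 * v x ^ 3 := (mul_lt_mul_iff_left₀ x3pos).mpr h4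
        _ = v x ^ 3 := one_mul _
    have s2 : v (W.b₂ * x ^ 2) < v x ^ 3 := by
      rw [map_mul, map_pow]
      calc v W.b₂ * v x ^ 2 ≤ 1 * v x ^ 2 := by gcongr
        _ = v x ^ 2 := one_mul _
        _ < v x ^ 3 := hx2
    have s3 : v (2 * W.b₄ * x) < v x ^ 3 := by
      rw [map_mul, map_mul]
      calc v 2 * v W.b₄ * v x ≤ 1 * 1 * v x := by gcongr
        _ = v x := by rw [one_mul, one_mul]
        _ ≤ v x ^ 2 := hx12
        _ < v x ^ 3 := hx2
    have s4 : v W.b₆ < v x ^ 3 := lt_of_le_of_lt hb₆ (lt_of_le_of_lt h1x2 hx2)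
    exact v.map_add_lt (v.map_add_lt (v.map_add_lt s1 s2) s3) s4
  have hdpos : 0 < v (4 * x ^ 3 + W.b₂ * x ^ 2 + 2 * W.b₄ * x + W.b₆) :=
    zero_lt_iff.mpr ((v.ne_zero_iff).mpr hden)
  rw [map_div₀, hnum, lt_div_iff₀ hdpos]
  calc v x * v (4 * x ^ 3 + W.b₂ * x ^ 2 + 2 * W.b₄ * x + W.b₆) < v x * v x ^ 3 :=
        (mul_lt_mul_iff_right₀ hx0).mpr hdenlt
    _ = v x ^ 4 := (pow_succ' (v x) 3).symm

/-- A nonzero point killed by an odd number is not killed by a power of two. -/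
lemma two_pow_smul_ne_zero {W : Affine K} {P : W.Point} (hP0 : P ≠ 0) {n : ℕ}
    (hn : Odd n) (hP : n • P = 0) (k : ℕ) : 2 ^ k • P ≠ 0 := by
  intro h
  have h1 : addOrderOf P ∣ n := addOrderOf_dvd_of_nsmul_eq_zero hP
  have h2 : addOrderOf P ∣ 2 ^ k := addOrderOf_dvd_of_nsmul_eq_zero h
  have hcop : Nat.Coprime (2 ^ k) n := Nat.Coprime.pow_left k ((Nat.coprime_two_left).mpr hn)
  have h3 : addOrderOf P = 1 := Nat.eq_one_of_dvd_coprimes hcop h2 h1
  exact hP0 (AddMonoid.addOrderOf_eq_one_iff.mp h3)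

/-- In residue characteristic `2`, a point with non-integral `x`-coordinate is not killed by an
odd natural number. -/
theorem nsmul_ne_zero (W : Affine K) (hb₂ : v W.b₂ ≤ 1) (hb₄ : v W.b₄ ≤ 1) (hb₆ : v W.b₆ ≤ 1)
    (hb₈ : v W.b₈ ≤ 1) (h2 : v 2 < 1) {P : W.Point} {x : K} (h : HasX W P x) (hx : 1 < v x)
    {n : ℕ} (hn : Odd n) : n • P ≠ 0 := by
  intro hP
  have hP0 : P ≠ 0 := h.ne_zero
  have key : ∀ k : ℕ, ∃ x', HasX W (2 ^ (k + 1) • P) x' ∧ v x < v x' := by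
    intro k
    induction k with
    | zero =>
      have e : 2 ^ (0 + 1) • P = P + P := by rw [zero_add, pow_one, two_nsmul]
      rw [e]
      refine double_expand v W hb₂ hb₄ hb₆ hb₈ h2 h hx ?_
      rw [← e]
      exact two_pow_smul_ne_zero hP0 hn hP _
    | succ k ih =>
      obtain ⟨x', hx', hlt⟩ := ih
      have e : 2 ^ (k + 1 + 1) • P = 2 ^ (k + 1) • P + 2 ^ (k + 1) • P :=
        two_pow_succ_smul (k + 1) P
      rw [e]
      obtain ⟨x'', hx'', hlt'⟩ := double_expand v W hb₂ hb₄ hb₆ hb₈ h2 hx' (lt_trans hx hlt) (by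
        rw [← e]
        exact two_pow_smul_ne_zero hP0 hn hP _)
      exact ⟨x'', hx'', lt_trans hlt hlt'⟩
  have hpos : 0 < n.totient := Nat.totient_pos.mpr hn.pos
  obtain ⟨x', hx', hlt⟩ := key (n.totient - 1)
  rw [Nat.sub_add_cancel hpos, two_pow_totient_smul hn hP] at hx'
  rw [hx'.unique h] at hlt
  exact lt_irrefl _ hlt

omit [DecidableEq K] in
/-- Integrality of the `b`-invariants of an integral model. -/
lemma val_b_le_one (W : Affine K) (h₁ : v W.a₁ ≤ 1) (h₂ : v W.a₂ ≤ 1) (h₃ : v W.a₃ ≤ 1)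
    (h₄ : v W.a₄ ≤ 1) (h₆ : v W.a₆ ≤ 1) :
    v W.b₂ ≤ 1 ∧ v W.b₄ ≤ 1 ∧ v W.b₆ ≤ 1 ∧ v W.b₈ ≤ 1 := by
  have m₁ : W.a₁ ∈ v.integer := h₁
  have m₂ : W.a₂ ∈ v.integer := h₂
  have m₃ : W.a₃ ∈ v.integer := h₃
  have m₄ : W.a₄ ∈ v.integer := h₄
  have m₆ : W.a₆ ∈ v.integer := h₆
  refine ⟨?_, ?_, ?_, ?_⟩
  · have : W.b₂ ∈ v.integer := by
      simp only [WeierstrassCurve.b₂]; aesop
    exact this
  · have : W.b₄ ∈ v.integer := by
      simp only [WeierstrassCurve.b₄]; aesop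
    exact this
  · have : W.b₆ ∈ v.integer := by
      simp only [WeierstrassCurve.b₆]; aesop
    exact this
  · have : W.b₈ ∈ v.integer := by
      simp only [WeierstrassCurve.b₈]; aesop
    exact this

/-- **(R1) in residue characteristic `2`.** On an integral Weierstrass model over a valued field
with `v 2 < 1`, a point killed by an odd natural number has integral `x`-coordinate. -/
theorem torsion_integral (W : Affine K) (h₁ : v W.a₁ ≤ 1) (h₂ : v W.a₂ ≤ 1) (h₃ : v W.a₃ ≤ 1)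
    (h₄ : v W.a₄ ≤ 1) (h₆ : v W.a₆ ≤ 1) (h2 : v 2 < 1) {n : ℕ} (hn : Odd n) :
    ∀ Q : W.Point, n • Q = 0 → ∀ (x y : K) (h : W.Nonsingular x y),
      Q = Point.some x y h → v x ≤ 1 := by
  intro Q hQ x y h hQe
  by_contra hx
  rw [not_le] at hx
  obtain ⟨hb₂, hb₄, hb₆, hb₈⟩ := val_b_le_one v W h₁ h₂ h₃ h₄ h₆
  exact nsmul_ne_zero v W hb₂ hb₄ hb₆ hb₈ h2 (P := Q) ⟨y, h, hQe⟩ hx hn hQ

end Fermat.Agent.S13.KerRedTwo
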