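import Mathlib
import Fermat.Agent.S05.SameRed
import Fermat.Agent.S13.KerRedTwo

set_option autoImplicit false

/-!
Inertia at `2` acts unipotently on the odd torsion of a "node model"
`y² + a₁ x y = x³ + a₂ x² + a₄ x` (`v 2 < 1`, `v b₂ = 1`, `0 < v a₄ < 1`):
for `f` congruent to the identity modulo the maximal ideal and every `n`-torsion point `P`
(`n` odd), the point `f P - P` is fixed by `f`.
-/

namespace Fermat.Agent.S13.LocTwo

open WeierstrassCurve WeierstrassCurve.Affine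
open Fermat.Agent.Lib.TorsionFinite

variable {K : Type*} [Field K] [DecidableEq K] {Γ₀ : Type*} [LinearOrderedCommGroupWithZero Γ₀]
  (v : Valuation K Γ₀)

/-! ### Small valuation helpers -/

section helpers

omit [DecidableEq K]

lemma val_mul_lt_left {a b : K} (ha : v a < 1) (hb : v b ≤ 1) : v (a * b) < 1 := by
  rw [map_mul]
  exact lt_of_le_of_lt (mul_le_of_le_one_right' hb) ha

lemma val_mul_lt_right {a b : K} (ha : v a ≤ 1) (hb : v b < 1) : v (a * b) < 1 := by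
  rw [map_mul]
  exact lt_of_le_of_lt (mul_le_of_le_one_left' ha) hb

lemma val_mul_le {a b : K} (ha : v a ≤ 1) (hb : v b ≤ 1) : v (a * b) ≤ 1 := by
  rw [map_mul]
  exact mul_le_one' ha hb

lemma val_four_lt (h2 : v 2 < 1) : v (4 : K) < 1 := by
  have : (4 : K) = 2 * 2 := by norm_num
  rw [this]
  exact val_mul_lt_left v h2 h2.le

lemma val_eq_one_of_sq {w : K} (h : v (w ^ 2) = 1) : v w = 1 := by
  rw [map_pow] at h
  exact (pow_eq_one_iff_of_nonneg zero_le (by norm_num)).mp h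

end helpers

/-! ### Explicit difference of two points -/

/-- Difference of two affine points with distinct `x`-coordinates. -/
theorem sub_of_X_ne (W : Affine K) {x₁ y₁ x₂ y₂ : K} (h₁ : W.Nonsingular x₁ y₁)
    (h₂ : W.Nonsingular x₂ y₂) (hx : x₁ ≠ x₂) :
    ∃ (x₃ y₃ : K) (h₃ : W.Nonsingular x₃ y₃),
      Point.some x₁ y₁ h₁ - Point.some x₂ y₂ h₂ = Point.some x₃ y₃ h₃ ∧
      x₃ = W.addX x₁ x₂ ((y₁ - W.negY x₂ y₂) / (x₁ - x₂)) := by
  rw [sub_eq_add_neg, Point.neg_some]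
  refine ⟨_, _, _, Point.add_of_X_ne hx, ?_⟩
  rw [slope_of_X_ne hx]

/-- Sum of an affine point with `x ≠ 0` and the point `(0, 0)`. -/
theorem add_origin (W : Affine K) (ha₃ : W.a₃ = 0) (ha₆ : W.a₆ = 0) {x y : K}
    (h : W.Nonsingular x y) (hT : W.Nonsingular 0 0) (hx : x ≠ 0) :
    ∃ (x₃ y₃ : K) (h₃ : W.Nonsingular x₃ y₃),
      Point.some x y h + Point.some 0 0 hT = Point.some x₃ y₃ h₃ ∧ x₃ = W.a₄ / x := by
  refine ⟨_, _, _, Point.add_of_X_ne hx, ?_⟩
  rw [slope_of_X_ne hx, addX, sub_zero, sub_zero, sub_zero]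
  have hE := (W.equation_iff x y).mp h.1
  rw [ha₃, ha₆] at hE
  field_simp
  linear_combination hE

/-- `(0, 0)` is a point of order two. -/
theorem origin_add_self (W : Affine K) (ha₃ : W.a₃ = 0) (hT : W.Nonsingular 0 0) :
    Point.some 0 0 hT + Point.some 0 0 hT = 0 := by
  apply Point.add_self_of_Y_eq
  simp [negY, ha₃]

/-! ### Nonsingular reduction of points with unit `x`-coordinate -/

omit [DecidableEq K] in
/-- On a node model in residue characteristic `2` (`v b₂ = 1`), a point with unit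
`x`-coordinate has nonsingular reduction. -/
lemma nonsingular_reduction_of_unit (W : Affine K) (ha₃ : W.a₃ = 0) (h₂ : v W.a₂ ≤ 1)
    (hb₂ : v W.b₂ = 1) (h2 : v 2 < 1) {x y : K} (hx : v x = 1) (hy : v y ≤ 1) :
    ¬ (v (2 * y + W.a₁ * x + W.a₃) < 1 ∧
      v (3 * x ^ 2 + 2 * W.a₂ * x + W.a₄ - W.a₁ * y) < 1) := by
  rintro ⟨h, -⟩
  have h2y : v (2 * y) < 1 := val_mul_lt_left v h2 hy
  have ha₁x : v (W.a₁ * x) < 1 := by
    have e : W.a₁ * x = (2 * y + W.a₁ * x + W.a₃) - 2 * y := by rw [ha₃]; ring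
    rw [e]
    exact v.map_sub_lt h h2y
  rw [map_mul, hx, mul_one] at ha₁x
  have hlt : v W.b₂ < 1 := by
    rw [WeierstrassCurve.b₂]
    apply v.map_add_lt
    · rw [map_pow]
      exact pow_lt_one₀ zero_le ha₁x two_ne_zero
    · exact val_mul_lt_left v (val_four_lt v h2) h₂
  rw [hb₂] at hlt
  exact lt_irrefl _ hlt

section Map

variable {R S : Type*} [CommRing R] [CommRing S] [Algebra R S] [Algebra R K] [Algebra S K]
  [IsScalarTower R S K]

/-- Same-reduction lemma: an integral point `Q` with nonsingular reduction is fixed by `f`, or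
`f Q - Q` is an affine point with non-integral `x`-coordinate. -/
theorem map_sub_self_of_nonsingular_reduction (W' : Affine R) (f : K →ₐ[S] K)
    (hf : ∀ x, v x ≤ 1 → v (f x - x) < 1) (h₁ : v (W'⁄K).a₁ ≤ 1) (h₂ : v (W'⁄K).a₂ ≤ 1)
    {x y : K} (h : (W'⁄K).Nonsingular x y) (hx : v x ≤ 1) (hy : v y ≤ 1)
    (hns : ¬ (v (2 * y + (W'⁄K).a₁ * x + (W'⁄K).a₃) < 1 ∧
      v (3 * x ^ 2 + 2 * (W'⁄K).a₂ * x + (W'⁄K).a₄ - (W'⁄K).a₁ * y) < 1)) :
    Point.map f (Point.some x y h) = Point.some x y h ∨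
    ∃ (x₃ y₃ : K) (h₃ : (W'⁄K).Nonsingular x₃ y₃),
      Point.map f (Point.some x y h) - Point.some x y h = Point.some x₃ y₃ h₃ ∧ 1 < v x₃ := by
  by_cases hne : f x = x ∧ f y = y
  · left
    rw [Point.map_some, Point.some.injEq]
    exact hne
  · right
    obtain ⟨x3, y3, h3, hsub, hx3⟩ := Fermat.Agent.S05.SameRed.same_red_sub v (W'⁄K) h₁ h₂
      ((W'.baseChange_nonsingular f.injective ..).mpr h) h hx (hf x hx) (hf y hy) hns hne
    exact ⟨x3, y3, h3, by rw [Point.map_some]; exact hsub, hx3⟩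

end Map

section Node

variable {R S : Type*} [CommRing R] [CommRing S] [Algebra R S] [Algebra R K] [Algebra S K]
  [IsScalarTower R S K]

/-- **(R4)** A point `P` of a node model with `v a₄ < v x(P) < 1` and `f` congruent to the
identity: `f P = P`, or `f P - P` is an affine point whose `x`-coordinate is not in the maximal
ideal. -/
theorem near_node (W' : Affine R) (f : K →ₐ[S] K)
    (hf : ∀ x, v x ≤ 1 → v (f x - x) < 1) (hfv : ∀ x, v (f x) = v x)
    (ha₃ : (W'⁄K).a₃ = 0) (ha₆ : (W'⁄K).a₆ = 0) (h₁ : v (W'⁄K).a₁ ≤ 1) (h₂ : v (W'⁄K).a₂ ≤ 1)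
    (hb₂ : v (W'⁄K).b₂ = 1) (h2 : v 2 < 1)
    {x y : K} (h : (W'⁄K).Nonsingular x y) (hxa : v (W'⁄K).a₄ < v x) (hx1 : v x < 1) :
    Point.map f (Point.some x y h) = Point.some x y h ∨
    ∃ (x₃ y₃ : K) (h₃ : (W'⁄K).Nonsingular x₃ y₃),
      Point.map f (Point.some x y h) - Point.some x y h = Point.some x₃ y₃ h₃ ∧ 1 ≤ v x₃ := by
  have hvx0 : 0 < v x := lt_of_le_of_lt zero_le hxa
  have hx0 : x ≠ 0 := (v.ne_zero_iff).mp hvx0.ne'
  have hE := ((W'⁄K).equation_iff x y).mp h.1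
  rw [ha₃, ha₆] at hE
  -- `u = y / x`
  obtain ⟨u, hu⟩ : ∃ u, u = y / x := ⟨_, rfl⟩
  have hy : y = u * x := by rw [hu]; field_simp
  have he : u ^ 2 + (W'⁄K).a₁ * u - (W'⁄K).a₂ = x + (W'⁄K).a₄ / x := by
    rw [hu]; field_simp; linear_combination hE
  have hve : v (x + (W'⁄K).a₄ / x) < 1 := by
    apply v.map_add_lt hx1
    rw [map_div₀]; exact (div_lt_one₀ hvx0).mpr hxa
  have hu1 : v u ≤ 1 := by
    by_contra hcon
    rw [not_le] at hcon
    have h1 : v (u ^ 2) = v u * v u := by rw [map_pow, sq]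
    have hlt : v u < v (u ^ 2) := by
      rw [h1]
      calc v u = v u * 1 := (mul_one _).symm
        _ < v u * v u := (mul_lt_mul_iff_right₀ (lt_trans zero_lt_one hcon)).mpr hcon
    have h3 : v ((W'⁄K).a₁ * u) < v (u ^ 2) := by
      rw [map_mul]; exact lt_of_le_of_lt (mul_le_of_le_one_left' h₁) hlt
    have h4 : v (u ^ 2 + (W'⁄K).a₁ * u) = v (u ^ 2) := v.map_add_eq_of_lt_left h3
    have h5 : v (u ^ 2 + (W'⁄K).a₁ * u - (W'⁄K).a₂) = v (u ^ 2) := by
      rw [v.map_sub_eq_of_lt_left (by rw [h4]; exact lt_of_le_of_lt h₂ (lt_trans hcon hlt)), h4]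
    rw [he] at h5
    rw [h5] at hve
    exact absurd (lt_trans hcon hlt) (not_lt.mpr hve.le)
  -- `2u + a₁` is a unit
  have hw : v (2 * u + (W'⁄K).a₁) = 1 := by
    apply val_eq_one_of_sq v
    have e : (2 * u + (W'⁄K).a₁) ^ 2 = (W'⁄K).b₂ + 4 * (x + (W'⁄K).a₄ / x) := by
      rw [← he, WeierstrassCurve.b₂]; ring
    rw [e, v.map_add_eq_of_lt_left
      (by rw [hb₂]; exact val_mul_lt_left v (val_four_lt v h2) hve.le), hb₂]
  have hfu : v (f u - u) < 1 := hf u hu1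
  have hfy : f y = f u * f x := by rw [hy, map_mul]
  have hfP : (W'⁄K).Nonsingular (f x) (f y) := (W'.baseChange_nonsingular f.injective ..).mpr h
  by_cases hxx : f x = x
  · left
    have hfE := ((W'⁄K).equation_iff (f x) (f y)).mp hfP.1
    rw [ha₃, ha₆, hxx] at hfE
    have hprod : (f y - y) * (f y + y + (W'⁄K).a₁ * x) = 0 := by linear_combination hfE - hE
    rcases mul_eq_zero.mp hprod with h0 | h0
    · rw [Point.map_some, Point.some.injEq]
      exact ⟨hxx, sub_eq_zero.mp h0⟩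
    · exfalso
      rw [hfy, hxx, hy] at h0
      have h0' : f u + u + (W'⁄K).a₁ = 0 := by
        have : x * (f u + u + (W'⁄K).a₁) = 0 := by linear_combination h0
        exact (mul_eq_zero.mp this).resolve_left hx0
      have : f u - u = -(2 * u + (W'⁄K).a₁) := by linear_combination h0'
      rw [this, v.map_neg, hw] at hfu
      exact lt_irrefl _ hfu
  · right
    obtain ⟨x₃, y₃, h₃, hsub, hx₃⟩ := sub_of_X_ne (W'⁄K) hfP h hxx
    refine ⟨x₃, y₃, h₃, by rw [Point.map_some]; exact hsub, ?_⟩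
    obtain ⟨ρ, hρ⟩ : ∃ ρ, ρ = f x / x := ⟨_, rfl⟩
    have hvρ : v ρ = 1 := by rw [hρ, map_div₀, hfv, div_self hvx0.ne']
    have hfx : f x = ρ * x := by rw [hρ]; field_simp
    have hρ1 : ρ - 1 ≠ 0 := by
      intro h0
      apply hxx
      rw [hfx, sub_eq_zero.mp h0, one_mul]
    have hvfu : v (f u) ≤ 1 := by rw [hfv]; exact hu1
    obtain ⟨N, hN⟩ : ∃ N, N = f u * ρ + u + (W'⁄K).a₁ := ⟨_, rfl⟩
    have hslope : (f y - (W'⁄K).negY x y) / (f x - x) = N / (ρ - 1) := by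
      rw [negY, ha₃, hfy, hfx, hy, hN]
      field_simp
      ring
    rw [hslope] at hx₃
    have hvρ1 : v (ρ - 1) ≤ 1 := v.map_sub_le hvρ.le (by rw [map_one])
    have hvN1 : v N ≤ 1 := by
      rw [hN]
      exact v.map_add_le (v.map_add_le (val_mul_le v hvfu hvρ.le) hu1) h₁
    by_cases hc : v (ρ - 1) < 1
    · -- the slope is not integral
      have hNe : N = (2 * u + (W'⁄K).a₁) + ((f u - u) * ρ + u * (ρ - 1)) := by rw [hN]; ring
      have hvN : v N = 1 := by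
        rw [hNe, v.map_add_eq_of_lt_left, hw]
        rw [hw]
        exact v.map_add_lt (val_mul_lt_left v hfu hvρ.le) (val_mul_lt_right v hu1 hc)
      have hL : 1 < v (N / (ρ - 1)) :=
        Fermat.Agent.S05.SameRed.one_lt_val_div v hvN.ge hc hρ1
      have := Fermat.Agent.S05.SameRed.one_lt_val_addX v (W'⁄K) h₁ h₂ (x1 := f x) (x2 := x)
        (by rw [hfv]; exact hx1.le) hx1.le hL
      rw [hx₃]
      exact this.le
    · -- the slope is integral and `x₃` is a unit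
      have hvρ1' : v (ρ - 1) = 1 := le_antisymm hvρ1 (not_lt.mp hc)
      obtain ⟨L, hL⟩ : ∃ L, L = N / (ρ - 1) := ⟨_, rfl⟩
      rw [← hL] at hx₃
      have hNL : N = L * (ρ - 1) := by rw [hL]; field_simp
      obtain ⟨M, hM⟩ : ∃ M, M = u * (ρ + 1) + (W'⁄K).a₁ := ⟨_, rfl⟩
      have hvρp : v (ρ + 1) ≤ 1 := v.map_add_le hvρ.le (by rw [map_one])
      have hvM1 : v M ≤ 1 := by
        rw [hM]
        exact v.map_add_le (val_mul_le v hu1 hvρp) h₁
      have key : (ρ - 1) ^ 2 * (L ^ 2 + (W'⁄K).a₁ * L - (W'⁄K).a₂) =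
          (W'⁄K).b₂ * ρ + ((x + (W'⁄K).a₄ / x) * (ρ + 1) ^ 2 +
            (f u - u) * (ρ * (N + M + (W'⁄K).a₁ * (ρ - 1)))) := by
        have e1 : (ρ - 1) ^ 2 * (L ^ 2 + (W'⁄K).a₁ * L - (W'⁄K).a₂) =
            N ^ 2 + (W'⁄K).a₁ * N * (ρ - 1) - (W'⁄K).a₂ * (ρ - 1) ^ 2 := by
          rw [hNL]; ring
        rw [e1, ← he, WeierstrassCurve.b₂, hN, hM]
        ring
      have hrest : v ((x + (W'⁄K).a₄ / x) * (ρ + 1) ^ 2 +
            (f u - u) * (ρ * (N + M + (W'⁄K).a₁ * (ρ - 1)))) < 1 := by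
        apply v.map_add_lt
        · apply val_mul_lt_left v hve
          rw [map_pow]
          exact pow_le_one₀ zero_le hvρp
        · apply val_mul_lt_left v hfu
          apply val_mul_le v hvρ.le
          exact v.map_add_le (v.map_add_le hvN1 hvM1) (val_mul_le v h₁ hvρ1)
      have hvkey : v ((ρ - 1) ^ 2 * (L ^ 2 + (W'⁄K).a₁ * L - (W'⁄K).a₂)) = 1 := by
        rw [key, v.map_add_eq_of_lt_left, map_mul, hb₂, hvρ, one_mul]
        rw [map_mul, hb₂, hvρ, one_mul]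
        exact hrest
      rw [map_mul, map_pow, hvρ1', one_pow, one_mul] at hvkey
      have hfx1 : v (f x) < 1 := by rw [hfv]; exact hx1
      have e3 : v (L ^ 2 + (W'⁄K).a₁ * L - (W'⁄K).a₂ - f x) = 1 := by
        rw [v.map_sub_eq_of_lt_left (by rw [hvkey]; exact hfx1), hvkey]
      rw [hx₃, addX, v.map_sub_eq_of_lt_left (by rw [e3]; exact hx1), e3]

/-- A point with `v x = v a₄` on a node model: translate by `(0, 0)` and use nonsingular
reduction. -/
theorem at_node (W' : Affine R) (f : K →ₐ[S] K)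
    (hf : ∀ x, v x ≤ 1 → v (f x - x) < 1)
    (ha₃ : (W'⁄K).a₃ = 0) (ha₆ : (W'⁄K).a₆ = 0) (h₁ : v (W'⁄K).a₁ ≤ 1) (h₂ : v (W'⁄K).a₂ ≤ 1)
    (h₄ : v (W'⁄K).a₄ ≤ 1) (h₄0 : (W'⁄K).a₄ ≠ 0) (hb₂ : v (W'⁄K).b₂ = 1) (h2 : v 2 < 1)
    {x y : K} (h : (W'⁄K).Nonsingular x y) (hxa : v x = v (W'⁄K).a₄) :
    Point.map f (Point.some x y h) = Point.some x y h ∨
    ∃ (x₃ y₃ : K) (h₃ : (W'⁄K).Nonsingular x₃ y₃),
      Point.map f (Point.some x y h) - Point.some x y h = Point.some x₃ y₃ h₃ ∧ 1 < v x₃ := by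
  have hva0 : v (W'⁄K).a₄ ≠ 0 := (v.ne_zero_iff).mpr h₄0
  have hx0 : x ≠ 0 := by
    rintro rfl
    rw [map_zero] at hxa
    exact hva0 hxa.symm
  have hT : (W'⁄K).Nonsingular 0 0 := (nonsingular_zero).mpr ⟨ha₆, Or.inr h₄0⟩
  obtain ⟨x', y', h', hadd, hx'⟩ := add_origin (W'⁄K) ha₃ ha₆ h hT hx0
  have hvx' : v x' = 1 := by rw [hx', map_div₀, hxa, div_self hva0]
  have h₃' : v (W'⁄K).a₃ ≤ 1 := by rw [ha₃, map_zero]; exact zero_le_one
  have h₆' : v (W'⁄K).a₆ ≤ 1 := by rw [ha₆, map_zero]; exact zero_le_one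
  have hvy' : v y' ≤ 1 :=
    Fermat.Agent.S05.SameRed.val_y_le_one v (W'⁄K) h₁ h₂ h₃' h₄ h₆' h'.1 hvx'.le
  have hns := nonsingular_reduction_of_unit v (W'⁄K) ha₃ h₂ hb₂ h2 hvx' hvy'
  have hfT : Point.map f (Point.some 0 0 hT) = Point.some 0 0 hT := by
    rw [Point.map_some, Point.some.injEq]
    exact ⟨map_zero f, map_zero f⟩
  have hdiff : Point.map f (Point.some x' y' h') - Point.some x' y' h' =
      Point.map f (Point.some x y h) - Point.some x y h := by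
    rw [← hadd, map_add, hfT]
    abel
  rcases map_sub_self_of_nonsingular_reduction v W' f hf h₁ h₂ h' hvx'.le hvy' hns with
    hfix | ⟨x₃, y₃, h₃, hsub, hlt⟩
  · left
    rw [← sub_eq_zero, ← hdiff, hfix, sub_self]
  · right
    exact ⟨x₃, y₃, h₃, by rw [← hdiff]; exact hsub, hlt⟩

omit [Algebra R S] [Algebra S K] [IsScalarTower R S K] in
/-- An odd torsion point of a node model in residue characteristic `2` has
`v a₄ ≤ v x`. -/
theorem not_below_node (W' : Affine R)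
    (ha₃ : (W'⁄K).a₃ = 0) (ha₆ : (W'⁄K).a₆ = 0) (h₁ : v (W'⁄K).a₁ ≤ 1) (h₂ : v (W'⁄K).a₂ ≤ 1)
    (h₄ : v (W'⁄K).a₄ ≤ 1) (h₄0 : (W'⁄K).a₄ ≠ 0) (h2 : v 2 < 1) {n : ℕ} (hn : Odd n)
    (hint : ∀ Q : (W'⁄K).Point, n • Q = 0 → ∀ (x y : K) (h : (W'⁄K).Nonsingular x y),
      Q = Point.some x y h → v x ≤ 1)
    {x y : K} (h : (W'⁄K).Nonsingular x y) (hP : n • Point.some x y h = 0) :
    v (W'⁄K).a₄ ≤ v x := by
  by_contra hcon
  rw [not_le] at hcon
  have hP0 : Point.some x y h ≠ 0 := Point.some_ne_zero h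
  have h2P : Point.some x y h + Point.some x y h ≠ 0 := by
    have := KerRedTwo.two_pow_smul_ne_zero hP0 hn hP 1
    rwa [pow_one, two_nsmul] at this
  have hT : (W'⁄K).Nonsingular 0 0 := (nonsingular_zero).mpr ⟨ha₆, Or.inr h₄0⟩
  by_cases hx0 : x = 0
  · subst hx0
    have hE := ((W'⁄K).equation_iff 0 y).mp h.1
    rw [ha₃, ha₆] at hE
    have hy0 : y = 0 := by
      have : y ^ 2 = 0 := by linear_combination hE
      exact pow_eq_zero_iff (two_ne_zero) |>.mp this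
    apply h2P
    apply Point.add_self_of_Y_eq
    rw [hy0, negY, ha₃]
    ring
  · obtain ⟨x', y', h', hadd, hx'⟩ := add_origin (W'⁄K) ha₃ ha₆ h hT hx0
    have hvx0 : 0 < v x := zero_lt_iff.mpr ((v.ne_zero_iff).mpr hx0)
    have hvx' : 1 < v x' := by
      rw [hx', map_div₀]
      exact (one_lt_div₀ hvx0).mpr hcon
    have hQQ : Point.some x' y' h' + Point.some x' y' h' =
        Point.some x y h + Point.some x y h := by
      rw [← hadd, add_add_add_comm, origin_add_self (W'⁄K) ha₃ hT, add_zero]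
    have h₃' : v (W'⁄K).a₃ ≤ 1 := by rw [ha₃, map_zero]; exact zero_le_one
    have h₆' : v (W'⁄K).a₆ ≤ 1 := by rw [ha₆, map_zero]; exact zero_le_one
    obtain ⟨hb₂, hb₄, hb₆, hb₈⟩ := KerRedTwo.val_b_le_one v (W'⁄K) h₁ h₂ h₃' h₄ h₆'
    obtain ⟨x'', hX'', hlt⟩ := KerRedTwo.double_expand v (W'⁄K) hb₂ hb₄ hb₆ hb₈ h2
      (P := Point.some x' y' h') ⟨y', h', rfl⟩ hvx' (by rw [hQQ]; exact h2P)
    rw [hQQ] at hX''
    obtain ⟨y'', h'', e⟩ := hX''
    have hn2 : n • (Point.some x y h + Point.some x y h) = 0 := by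
      rw [smul_add, hP, add_zero]
    have := hint _ hn2 x'' y'' h'' e
    exact absurd (lt_trans hvx' hlt) (not_lt.mpr this)

/-- **Unipotence of inertia at `2`.** On a node model `y² + a₁ x y = x³ + a₂ x² + a₄ x` over a
valued field with `v 2 < 1`, `v b₂ = 1`, `0 < v a₄ < 1`, let `f` be an endomorphism congruent to
the identity modulo the maximal ideal and preserving the valuation.  For every point `P` of odd
order, `f P - P` is fixed by `f`. -/
theorem map_sub_fixed (W' : Affine R) (f : K →ₐ[S] K)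
    (hf : ∀ x, v x ≤ 1 → v (f x - x) < 1) (hfv : ∀ x, v (f x) = v x)
    (ha₃ : (W'⁄K).a₃ = 0) (ha₆ : (W'⁄K).a₆ = 0) (h₁ : v (W'⁄K).a₁ ≤ 1) (h₂ : v (W'⁄K).a₂ ≤ 1)
    (h₄ : v (W'⁄K).a₄ < 1) (h₄0 : (W'⁄K).a₄ ≠ 0) (hb₂ : v (W'⁄K).b₂ = 1) (h2 : v 2 < 1)
    {n : ℕ} (hn : Odd n) (P : (W'⁄K).Point) (hP : n • P = 0) :
    Point.map f (Point.map f P - P) = Point.map f P - P := by
  have h₃' : v (W'⁄K).a₃ ≤ 1 := by rw [ha₃, map_zero]; exact zero_le_one
  have h₆' : v (W'⁄K).a₆ ≤ 1 := by rw [ha₆, map_zero]; exact zero_le_one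
  have hint := KerRedTwo.torsion_integral v (W'⁄K) h₁ h₂ h₃' h₄.le h₆' h2 hn
  have hdiff : n • (Point.map f P - P) = 0 := by
    rw [smul_sub, ← map_nsmul, hP, map_zero, sub_zero]
  -- `n`-torsion points with unit `x`-coordinate are fixed
  have hunit : ∀ (x y : K) (h : (W'⁄K).Nonsingular x y), n • Point.some x y h = 0 → v x = 1 →
      Point.map f (Point.some x y h) = Point.some x y h := by
    intro x y h hn' hx
    have hy : v y ≤ 1 :=
      Fermat.Agent.S05.SameRed.val_y_le_one v (W'⁄K) h₁ h₂ h₃' h₄.le h₆' h.1 hx.le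
    have hns := nonsingular_reduction_of_unit v (W'⁄K) ha₃ h₂ hb₂ h2 hx hy
    rcases map_sub_self_of_nonsingular_reduction v W' f hf h₁ h₂ h hx.le hy hns with
      h1 | ⟨x₃, y₃, h₃, hsub, hlt⟩
    · exact h1
    · exfalso
      have := hint _ (by rw [smul_sub, ← map_nsmul, hn', map_zero, sub_zero]) x₃ y₃ h₃ hsub
      exact absurd this (not_le.mpr hlt)
  have hmain : Point.map f P = P ∨ ∃ (x₃ y₃ : K) (h₃ : (W'⁄K).Nonsingular x₃ y₃),
      Point.map f P - P = Point.some x₃ y₃ h₃ ∧ 1 ≤ v x₃ := by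
    rcases P with _ | ⟨x, y, h⟩
    · left; rfl
    have hx : v x ≤ 1 := hint _ hP x y h rfl
    have hxa : v (W'⁄K).a₄ ≤ v x :=
      not_below_node v W' ha₃ ha₆ h₁ h₂ h₄.le h₄0 h2 hn hint h hP
    rcases eq_or_lt_of_le hx with hx1 | hx1
    · left; exact hunit x y h hP hx1
    rcases eq_or_lt_of_le hxa with hxa' | hxa'
    · rcases at_node v W' f hf ha₃ ha₆ h₁ h₂ h₄.le h₄0 hb₂ h2 h hxa'.symm with
        h1 | ⟨x₃, y₃, h₃, hsub, hlt⟩
      · left; exact h1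
      · right; exact ⟨x₃, y₃, h₃, hsub, hlt.le⟩
    · exact near_node v W' f hf hfv ha₃ ha₆ h₁ h₂ hb₂ h2 h hxa' hx1
  rcases hmain with h1 | ⟨x₃, y₃, h₃, hsub, hge⟩
  · rw [h1, sub_self]
    rfl
  · rw [hsub]
    have hle : v x₃ ≤ 1 := hint _ hdiff x₃ y₃ h₃ hsub
    exact hunit x₃ y₃ h₃ (by rw [← hsub]; exact hdiff) (le_antisymm hle hge)

end Node

end Fermat.Agent.S13.LocTwo
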