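import Mathlib

set_option autoImplicit false

/-!
An automorphism `σ` of an algebraic field extension `K / S` which preserves a valuation subring
`A` of `K` preserves the valuation of `A`:  `A.valuation (σ x) = A.valuation x`.
(Orbits of `σ` are finite, and `σ` preserves the maximal ideal.)
-/

namespace Fermat.Agent.S13.ValMap

variable {K : Type*} [Field K] {S : Type*} [Field S] [Algebra S K]

/-- Every element of an algebraic extension has a finite orbit under an automorphism. -/
theorem exists_pow_apply_eq [Algebra.IsAlgebraic S K] (σ : K ≃ₐ[S] K) (x : K) :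
    ∃ n : ℕ, 0 < n ∧ (σ ^ n) x = x := by
  obtain ⟨p, hp0, hp⟩ := Algebra.IsAlgebraic.isAlgebraic (R := S) x
  have hfin : (p.rootSet K).Finite := Polynomial.rootSet_finite p K
  have hmem : ∀ k : ℕ, (σ ^ k) x ∈ p.rootSet K := by
    intro k
    rw [Polynomial.mem_rootSet]
    refine ⟨hp0, ?_⟩
    have : Polynomial.aeval ((σ ^ k) x) p = (σ ^ k) (Polynomial.aeval x p) :=
      (Polynomial.aeval_algHom_apply ((σ ^ k : K ≃ₐ[S] K) : K →ₐ[S] K) x p)
    rw [this, hp, map_zero]
  obtain ⟨i, j, hij, he⟩ := hfin.exists_lt_map_eq_of_forall_mem (f := fun k : ℕ => (σ ^ k) x) hmem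
  refine ⟨j - i, Nat.sub_pos_of_lt hij, ?_⟩
  have hj : σ ^ j = σ ^ i * σ ^ (j - i) := by
    rw [← pow_add, Nat.add_sub_cancel' hij.le]
  have he' : (σ ^ i) x = (σ ^ i) ((σ ^ (j - i)) x) := by
    have h1 : (σ ^ i) x = (σ ^ j) x := he
    rw [h1, hj]
    rfl
  exact ((σ ^ i).injective he').symm

variable (A : ValuationSubring K)

/-- An automorphism preserving `A` preserves its maximal ideal. -/
theorem valuation_map_lt_one (σ : K ≃ₐ[S] K) (hσ : ∀ x, x ∈ A ↔ σ x ∈ A) {y : K}
    (hy : A.valuation y < 1) : A.valuation (σ y) < 1 := by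
  by_cases hy0 : y = 0
  · rw [hy0, map_zero, map_zero]
    exact zero_lt_one
  · have h1 : y⁻¹ ∉ A := by
      rw [← A.valuation_le_one_iff, map_inv₀, not_le]
      exact (one_lt_inv₀ (zero_lt_iff.mpr ((A.valuation.ne_zero_iff).mpr hy0))).mpr hy
    have h2 : σ y⁻¹ ∉ A := fun h => h1 ((hσ _).mpr h)
    rw [map_inv₀, ← A.valuation_le_one_iff, map_inv₀, not_le] at h2
    have hσy0 : σ y ≠ 0 := (map_ne_zero σ).mpr hy0
    exact (one_lt_inv₀ (zero_lt_iff.mpr ((A.valuation.ne_zero_iff).mpr hσy0))).mp h2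

theorem valuation_map_not_lt [Algebra.IsAlgebraic S K] (σ : K ≃ₐ[S] K)
    (hσ : ∀ x, x ∈ A ↔ σ x ∈ A) (x : K) : ¬ A.valuation (σ x) < A.valuation x := by
  intro hlt
  have hx0 : x ≠ 0 := by
    rintro rfl
    rw [map_zero, map_zero] at hlt
    exact lt_irrefl _ hlt
  have hvx : 0 < A.valuation x := zero_lt_iff.mpr ((A.valuation.ne_zero_iff).mpr hx0)
  have hu : A.valuation (σ x / x) < 1 := by
    rw [map_div₀]
    exact (div_lt_one₀ hvx).mpr hlt
  have hpow : ∀ k : ℕ, A.valuation ((σ ^ k) (σ x / x)) < 1 := by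
    intro k
    induction k with
    | zero => simpa using hu
    | succ k ih =>
      have := valuation_map_lt_one A σ hσ ih
      rw [pow_succ']
      exact this
  have hdec : ∀ k : ℕ, A.valuation ((σ ^ (k + 1)) x) < A.valuation ((σ ^ k) x) := by
    intro k
    have hk0 : (σ ^ k) x ≠ 0 := (map_ne_zero (σ ^ k)).mpr hx0
    have hkv : 0 < A.valuation ((σ ^ k) x) := zero_lt_iff.mpr ((A.valuation.ne_zero_iff).mpr hk0)
    have e : (σ ^ (k + 1)) x = (σ ^ k) (σ x / x) * (σ ^ k) x := by
      rw [map_div₀, div_mul_cancel₀ _ hk0, pow_succ]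
      rfl
    rw [e, map_mul]
    calc A.valuation ((σ ^ k) (σ x / x)) * A.valuation ((σ ^ k) x)
        < 1 * A.valuation ((σ ^ k) x) := (mul_lt_mul_iff_left₀ hkv).mpr (hpow k)
      _ = A.valuation ((σ ^ k) x) := one_mul _
  have hall : ∀ k : ℕ, A.valuation ((σ ^ (k + 1)) x) < A.valuation x := by
    intro k
    induction k with
    | zero => simpa using hlt
    | succ k ih => exact lt_trans (hdec (k + 1)) ih
  obtain ⟨n, hn, hfix⟩ := exists_pow_apply_eq σ x
  have := hall (n - 1)
  rw [Nat.sub_add_cancel hn, hfix] at this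
  exact lt_irrefl _ this

/-- An automorphism of an algebraic extension preserving the valuation subring `A` preserves the
valuation of `A`. -/
theorem valuation_map_eq [Algebra.IsAlgebraic S K] (σ : K ≃ₐ[S] K)
    (hσ : ∀ x, x ∈ A ↔ σ x ∈ A) (x : K) : A.valuation (σ x) = A.valuation x := by
  refine le_antisymm ?_ (not_lt.mp (valuation_map_not_lt A σ hσ x))
  have hσ' : ∀ y, y ∈ A ↔ σ⁻¹ y ∈ A := by
    intro y
    have := hσ (σ⁻¹ y)
    have e : σ (σ⁻¹ y) = y := σ.apply_symm_apply y
    rw [e] at this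
    exact this.symm
  have h := valuation_map_not_lt A σ⁻¹ hσ' (σ x)
  have e : σ⁻¹ (σ x) = x := σ.symm_apply_apply x
  rw [e] at h
  exact not_lt.mp h

end Fermat.Agent.S13.ValMap
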