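import Mathlib
import Fermat.Prelude.Def_FLTPrelim_Ramification
import Fermat.Agent.S04.Wiring
import Fermat.Agent.S05.Shell
import Fermat.Agent.S13.LocTwo
import Fermat.Agent.S13.ValMap

set_option autoImplicit false

/-!
Inertia at `2` acts unipotently on the `p`-torsion of the Frey curve: for every valuation subring
`A` of `Qbar` over `2`, every `σ` in its inertia group and every `p`-torsion point `Pt`, the point
`σ Pt - Pt` is fixed by `σ`.
-/

namespace Fermat.Agent.S13.LocTwoFrey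

open WeierstrassCurve WeierstrassCurve.Affine WeierstrassCurve.Affine.Point
open Fermat.Agent.S05.Shell

local notation "Kbar" => AlgebraicClosure ℚ

/-- The Frey model is `2`-integral: `a₂`. -/
theorem frey_val_a₂ (P : FreyPackage) (A : ValuationSubring Kbar) :
    A.valuation (P.freyCurve⁄Kbar).a₂ ≤ 1 := by
  obtain ⟨k, hk⟩ := Fermat.Agent.S04.Wiring.four_dvd P
  rw [frey_a₂]
  have h1 : ((P.b : Kbar) ^ P.p - 1 - (P.a : Kbar) ^ P.p) = 4 * (k : Kbar) := by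
    exact_mod_cast congrArg (Int.cast : ℤ → Kbar) hk
  have h2 : ((P.b : Kbar) ^ P.p - 1 - (P.a : Kbar) ^ P.p) / 4 = (k : Kbar) := by
    rw [h1]
    field_simp
  rw [h2]
  exact (A.valuation_le_one_iff _).mpr (intCast_mem A k)

/-- `a₄ = 2 m` for a nonzero integer `m`. -/
theorem frey_a₄_eq (P : FreyPackage) :
    ∃ m : ℤ, m ≠ 0 ∧ (P.freyCurve⁄Kbar).a₄ = 2 * (m : Kbar) := by
  have hp5 := P.hp5
  have hb : (2 : ℤ) ∣ P.b := (ZMod.intCast_zmod_eq_zero_iff_dvd P.b 2).1 P.hb2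
  obtain ⟨k, hk⟩ := hb
  have hk0 : k ≠ 0 := by
    rintro rfl
    exact P.hb0 (by rw [hk]; ring)
  refine ⟨-(P.a ^ P.p) * (k ^ 5 * (2 * k) ^ (P.p - 5)), ?_, ?_⟩
  · exact mul_ne_zero (neg_ne_zero.mpr (pow_ne_zero _ P.ha0))
      (mul_ne_zero (pow_ne_zero _ hk0) (pow_ne_zero _ (mul_ne_zero two_ne_zero hk0)))
  · rw [frey_a₄]
    have hpe : P.p = 5 + (P.p - 5) := by omega
    have hbk : (P.b : Kbar) = 2 * (k : Kbar) := by exact_mod_cast congrArg (Int.cast : ℤ → Kbar) hk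
    have e : (P.b : Kbar) ^ P.p = 32 * ((k : Kbar) ^ 5 * (2 * (k : Kbar)) ^ (P.p - 5)) := by
      conv_lhs => rw [hpe, pow_add, hbk]
      ring
    rw [e]
    push_cast
    ring

theorem frey_val_a₄ (P : FreyPackage) (A : ValuationSubring Kbar) (hA : A.LiesOverPrime 2) :
    A.valuation (P.freyCurve⁄Kbar).a₄ < 1 := by
  obtain ⟨m, -, hm⟩ := frey_a₄_eq P
  have h2 : A.valuation (2 : Kbar) < 1 := by
    have := A.mem_nonunits_iff.mp hA
    simpa using this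
  rw [hm, map_mul]
  exact lt_of_le_of_lt
    (mul_le_of_le_one_right' ((A.valuation_le_one_iff _).mpr (intCast_mem A m))) h2

theorem frey_a₄_ne_zero (P : FreyPackage) : (P.freyCurve⁄Kbar).a₄ ≠ 0 := by
  obtain ⟨m, hm0, hm⟩ := frey_a₄_eq P
  rw [hm]
  exact mul_ne_zero two_ne_zero (by exact_mod_cast hm0)

theorem frey_val_b₂ (P : FreyPackage) (A : ValuationSubring Kbar) (hA : A.LiesOverPrime 2) :
    A.valuation (P.freyCurve⁄Kbar).b₂ = 1 := by
  have e : (P.freyCurve⁄Kbar).b₂ = ((P.b ^ P.p - P.a ^ P.p : ℤ) : Kbar) := by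
    rw [WeierstrassCurve.b₂, frey_a₁, frey_a₂]
    push_cast
    ring
  rw [e]
  apply valuation_intCast_eq_one A 2 Nat.prime_two hA
  intro hdvd
  have hb : (2 : ℤ) ∣ P.b := (ZMod.intCast_zmod_eq_zero_iff_dvd P.b 2).1 P.hb2
  have hbp : (2 : ℤ) ∣ P.b ^ P.p := dvd_pow hb P.hp0
  have hap : (2 : ℤ) ∣ P.a ^ P.p := by
    have := dvd_sub hbp hdvd
    simpa using this
  have ha : (2 : ℤ) ∣ P.a := Int.prime_two.dvd_of_dvd_pow hap
  have h4 : ((P.a : ℤ) : ZMod 4) = 3 := P.ha4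
  obtain ⟨j, hj⟩ := ha
  rw [hj] at h4
  have : ∀ t : ZMod 4, (2 : ZMod 4) * t ≠ 3 := by decide
  exact this (j : ZMod 4) (by push_cast at h4; exact h4)

/-- **Inertia at `2` is unipotent on `E[p]`.** -/
theorem inertia_two_unipotent (P : FreyPackage) (A : ValuationSubring Kbar)
    (hA : A.LiesOverPrime 2) (σ : Kbar ≃ₐ[ℚ] Kbar) (hσ : σ ∈ A.inertiaSubgroupIn ℚ)
    (Pt : (P.freyCurve⁄Kbar).Point) (hPt : (P.p : ℤ) • Pt = 0) :
    σ • (σ • Pt - Pt) = σ • Pt - Pt := by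
  have h2 : A.valuation (2 : Kbar) < 1 := by
    have := A.mem_nonunits_iff.mp hA
    simpa using this
  have hf : ∀ x, A.valuation x ≤ 1 → A.valuation (σ.toAlgHom x - x) < 1 :=
    fun x hx => Fermat.Agent.S05.Glue.valuation_sub_lt_one_of_mem_inertia ℚ A σ hσ x
      ((A.valuation_le_one_iff x).mp hx)
  have := Fermat.Agent.Lib.TorsionFinite.isAlgebraic_rat_algClosure
  have hfv : ∀ x, A.valuation (σ.toAlgHom x) = A.valuation x :=
    fun x => Fermat.Agent.S13.ValMap.valuation_map_eq A σ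
      (Fermat.Agent.S05.Glue.mem_iff_of_mem_inertia ℚ A σ hσ) x
  have h₁ : A.valuation (P.freyCurve⁄Kbar).a₁ ≤ 1 := by rw [frey_a₁, map_one]
  have hn : P.p • Pt = 0 := by rw [← natCast_zsmul]; exact hPt
  exact Fermat.Agent.S13.LocTwo.map_sub_fixed A.valuation P.freyCurve σ.toAlgHom hf hfv
    (frey_a₃ P) (frey_a₆ P) h₁ (frey_val_a₂ P A) (frey_val_a₄ P A hA) (frey_a₄_ne_zero P)
    (frey_val_b₂ P A hA) h2 P.hp_odd Pt hn

end Fermat.Agent.S13.LocTwoFrey
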