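import Mathlib
import Fermat.Prelude.Def_FLTPrelim_FreyPackage
import Fermat.Prelude.Def_FLTPrelim_GaloisRep
import Fermat.Agent.Lib.NodeLaw
import Fermat.Agent.Lib.KerRedAny

set_option autoImplicit false

/-!
# S13, package RAT: the Frey curve has no rational point of order `p`

`y² + a₁xy = x³ + a₂x² + a₄x` over a valued field whose residue field is `𝔽₂`, with `v a₄ < 1`
and `v b₂ = 1`: a point with unit `x`-coordinate has `3 • P` in the kernel of reduction.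
-/

namespace Fermat.Agent.S13.Rat

open WeierstrassCurve

section model

variable {K : Type*} [Field K] {W : WeierstrassCurve.Affine K}

theorem eqn_of (h₃ : W.a₃ = 0) (h₆ : W.a₆ = 0) {x y : K} (h : W.Equation x y) :
    y ^ 2 + W.a₁ * x * y = x ^ 3 + W.a₂ * x ^ 2 + W.a₄ * x := by
  have := (Affine.equation_iff x y).1 h
  rw [h₃, h₆] at this
  linear_combination this

theorem two_y_sq (h₃ : W.a₃ = 0) (h₆ : W.a₆ = 0) {x y : K} (h : W.Equation x y) :
    (2 * y + W.a₁ * x) ^ 2 = x * (4 * x ^ 2 + (W.a₁ ^ 2 + 4 * W.a₂) * x + 4 * W.a₄) := by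
  linear_combination 4 * eqn_of h₃ h₆ h

variable [DecidableEq K]

/-- Duplication formula for the `x`-coordinate on `y² + a₁xy = x³ + a₂x² + a₄x`. -/
theorem double_some (h₃ : W.a₃ = 0) (h₆ : W.a₆ = 0) {x y : K} (h : W.Nonsingular x y)
    (hd : 2 * y + W.a₁ * x ≠ 0) :
    ∃ (x' y' : K) (h' : W.Nonsingular x' y'),
      Affine.Point.some x y h + Affine.Point.some x y h = Affine.Point.some x' y' h' ∧
      x' * (2 * y + W.a₁ * x) ^ 2 = (x ^ 2 - W.a₄) ^ 2 := by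
  have hneg : W.negY x y = -y - W.a₁ * x := by simp only [Affine.negY, h₃]; ring
  have hy : y ≠ W.negY x y := by
    rw [hneg]
    intro hy
    apply hd
    linear_combination hy
  refine ⟨_, _, _, Affine.Point.add_self_of_Y_ne hy, ?_⟩
  rw [Affine.slope_of_Y_ne rfl hy, hneg]
  simp only [Affine.addX]
  have hd' : y - (-y - W.a₁ * x) = 2 * y + W.a₁ * x := by ring
  rw [hd']
  have e := eqn_of h₃ h₆ h.1
  have hd2 : 2 * y + x * W.a₁ ≠ 0 := by rw [mul_comm x]; exact hd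
  field_simp
  linear_combination (-(W.a₁ ^ 2 + 4 * W.a₂ + 8 * x)) * e

/-- Product formula for the `x`-coordinates of `P ± Q` on `y² + a₁xy = x³ + a₂x² + a₄x`. -/
theorem add_sub_some (h₃ : W.a₃ = 0) (h₆ : W.a₆ = 0) {x₁ y₁ x₂ y₂ : K}
    (h1 : W.Nonsingular x₁ y₁) (h2 : W.Nonsingular x₂ y₂) (hx : x₁ ≠ x₂) :
    ∃ (xp yp : K) (hp : W.Nonsingular xp yp) (xm ym : K) (hm : W.Nonsingular xm ym),
      Affine.Point.some x₁ y₁ h1 + Affine.Point.some x₂ y₂ h2 = Affine.Point.some xp yp hp ∧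
      Affine.Point.some x₁ y₁ h1 - Affine.Point.some x₂ y₂ h2 = Affine.Point.some xm ym hm ∧
      xp * xm * (x₁ - x₂) ^ 2 = (x₁ * x₂ - W.a₄) ^ 2 := by
  have hneg : W.negY x₂ y₂ = -y₂ - W.a₁ * x₂ := by simp only [Affine.negY, h₃]; ring
  have hm : Affine.Point.some x₁ y₁ h1 - Affine.Point.some x₂ y₂ h2 =
      Affine.Point.some _ _ (Affine.nonsingular_add h1 ((Affine.nonsingular_neg ..).mpr h2)
        (fun hxy => hx hxy.left)) := by
    rw [sub_eq_add_neg, Affine.Point.neg_some]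
    exact Affine.Point.add_of_X_ne hx
  refine ⟨_, _, _, _, _, _, Affine.Point.add_of_X_ne hx, hm, ?_⟩
  · rw [Affine.slope_of_X_ne hx, Affine.slope_of_X_ne hx, hneg]
    simp only [Affine.addX]
    have hd : x₁ - x₂ ≠ 0 := sub_ne_zero.2 hx
    have e1 := eqn_of h₃ h₆ h1.1
    have e2 := eqn_of h₃ h₆ h2.1
    have hd' : y₁ - (-y₂ - W.a₁ * x₂) = y₁ + y₂ + W.a₁ * x₂ := by ring
    rw [hd']
    field_simp
    grind

end model

section valuation

variable {K : Type*} [Field K] [DecidableEq K] {W : WeierstrassCurve.Affine K}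
variable {Γ₀ : Type*} [LinearOrderedCommGroupWithZero Γ₀] (v : Valuation K Γ₀)

/-- On `y² + a₁xy = x³ + a₂x² + a₄x` with `v a₄ < 1`, `v b₂ = 1` and residue field `𝔽₂`:
if `x(P)` is a unit then `3 • P` lies in the kernel of reduction. -/
theorem three_smul_mem_kernel (h₃ : W.a₃ = 0) (h₆ : W.a₆ = 0) (h₄ : v W.a₄ < 1)
    (hb₂ : v (W.a₁ ^ 2 + 4 * W.a₂) = 1)
    (hres : ∀ a b : K, v a = 1 → v b = 1 → v (a - b) < 1)
    {x y : K} (h : W.Nonsingular x y) (hx : v x = 1)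
    (h3 : (3 : ℕ) • Affine.Point.some x y h ≠ 0) :
    ∃ (x₃ y₃ : K) (h' : W.Nonsingular x₃ y₃),
      (3 : ℕ) • Affine.Point.some x y h = Affine.Point.some x₃ y₃ h' ∧ 1 < v x₃ := by
  have hv2 : v (2 : K) < 1 := by
    have := hres 1 (-1) v.map_one (by rw [v.map_neg, v.map_one])
    have e : (1 : K) - (-1) = 2 := by norm_num
    rwa [e] at this
  have hv4 : v (4 : K) < 1 := by
    have e : (4 : K) = 2 * 2 := by norm_num
    rw [e, v.map_mul]
    exact lt_of_le_of_lt (mul_le_of_le_one_left' hv2.le) hv2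
  have hx2 : v (x ^ 2) = 1 := by rw [v.map_pow, hx, one_pow]
  have hc : v (4 * x ^ 2 + (W.a₁ ^ 2 + 4 * W.a₂) * x + 4 * W.a₄) = 1 := by
    have e : 4 * x ^ 2 + (W.a₁ ^ 2 + 4 * W.a₂) * x + 4 * W.a₄ =
        (W.a₁ ^ 2 + 4 * W.a₂) * x + 4 * (x ^ 2 + W.a₄) := by ring
    have h1 : v ((W.a₁ ^ 2 + 4 * W.a₂) * x) = 1 := by rw [v.map_mul, hb₂, hx, one_mul]
    have h2 : v (4 * (x ^ 2 + W.a₄)) < 1 := by
      rw [v.map_mul]
      have : v (x ^ 2 + W.a₄) ≤ 1 := v.map_add_le hx2.le h₄.le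
      exact lt_of_le_of_lt (mul_le_of_le_one_right' this) hv4
    rw [e, v.map_add_eq_of_lt_left (by rw [h1]; exact h2), h1]
  have hd2 : v ((2 * y + W.a₁ * x) ^ 2) = 1 := by
    rw [two_y_sq h₃ h₆ h.1, v.map_mul, hx, hc, one_mul]
  have hd : 2 * y + W.a₁ * x ≠ 0 := by
    intro h0
    rw [h0, v.map_pow, v.map_zero] at hd2
    simp at hd2
  obtain ⟨x', y', h', e2, hx'⟩ := double_some h₃ h₆ h hd
  have hnum : v (x ^ 2 - W.a₄) = 1 := by
    rw [v.map_sub_eq_of_lt_left (by rw [hx2]; exact h₄), hx2]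
  have hvx' : v x' = 1 := by
    have := congrArg v hx'
    rw [v.map_mul, hd2, mul_one, v.map_pow, hnum, one_pow] at this
    exact this
  have hdiff : v (x' - x) < 1 := hres x' x hvx' hx
  have e3 : (3 : ℕ) • Affine.Point.some x y h =
      Affine.Point.some x' y' h' + Affine.Point.some x y h := by
    rw [← e2, succ_nsmul, two_nsmul]
  have hne : x' ≠ x := by
    intro hxx
    subst hxx
    rcases Affine.Y_eq_of_X_eq h'.1 h.1 rfl with hy | hy
    · subst hy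
      have : Affine.Point.some x' y' h + Affine.Point.some x' y' h =
          Affine.Point.some x' y' h + 0 := by rw [e2, add_zero]
      exact Affine.Point.some_ne_zero h (add_left_cancel this)
    · apply h3
      rw [e3]
      exact Affine.Point.add_of_Y_eq rfl hy
  obtain ⟨xp, yp, hp, xm, ym, hm, ep, em, hprod⟩ := add_sub_some h₃ h₆ h' h hne
  have hxm : xm = x := by
    have : Affine.Point.some xm ym hm = Affine.Point.some x y h := by
      rw [← em, ← e2]; abel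
    injection this
  refine ⟨xp, yp, hp, by rw [e3, ep], ?_⟩
  have hnum2 : v (x' * x - W.a₄) = 1 := by
    have h1 : v (x' * x) = 1 := by rw [v.map_mul, hvx', hx, one_mul]
    rw [v.map_sub_eq_of_lt_left (by rw [h1]; exact h₄), h1]
  have hval := congrArg v hprod
  rw [v.map_mul, v.map_mul, hxm, hx, mul_one, v.map_pow, v.map_pow, hnum2, one_pow] at hval
  by_contra hle
  have hle' : v xp ≤ 1 := not_lt.1 hle
  have h1 : v (x' - x) ^ 2 < 1 := by
    rw [sq]; exact lt_of_le_of_lt (mul_le_of_le_one_left' hdiff.le) hdiff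
  have h2 : v xp * v (x' - x) ^ 2 < 1 := lt_of_le_of_lt (mul_le_of_le_one_left' hle') h1
  rw [hval] at h2
  exact lt_irrefl _ h2

/-- Imported engine R1: the kernel of reduction has no torsion of unit order. -/
def KerStmt (v : Valuation K Γ₀) (W : WeierstrassCurve.Affine K) : Prop :=
  ∀ (n : ℕ) (x y : K) (h : W.Nonsingular x y), v (n : K) = 1 → 1 < v x →
    n • Affine.Point.some x y h ≠ 0

/-- Imported engine (node case): no `p`-torsion point reduces to the node. -/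
def NodeStmt (v : Valuation K Γ₀) (W : WeierstrassCurve.Affine K) (p : ℕ) : Prop :=
  ∀ (x y : K) (h : W.Nonsingular x y), v x < 1 → p • Affine.Point.some x y h ≠ 0

/-- No `p`-torsion at all, given the two engines. -/
theorem rat_core (hKer : KerStmt v W) {p : ℕ} (hNode : NodeStmt v W p)
    (h₃ : W.a₃ = 0) (h₆ : W.a₆ = 0) (h₄ : v W.a₄ < 1)
    (hb₂ : v (W.a₁ ^ 2 + 4 * W.a₂) = 1)
    (hres : ∀ a b : K, v a = 1 → v b = 1 → v (a - b) < 1)
    (hp : v (p : K) = 1) (hp3 : Nat.Coprime p 3)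
    (Q : W.Point) (hQ : Q ≠ 0) : p • Q ≠ 0 := by
  intro hpQ
  rcases Q with _ | ⟨x, y, h⟩
  · exact hQ rfl
  rcases lt_trichotomy (v x) 1 with hx | hx | hx
  · exact hNode x y h hx hpQ
  · have h3 : (3 : ℕ) • Affine.Point.some x y h ≠ 0 := by
      intro h3
      have d1 := addOrderOf_dvd_of_nsmul_eq_zero hpQ
      have d2 := addOrderOf_dvd_of_nsmul_eq_zero h3
      have d3 : addOrderOf (Affine.Point.some x y h) ∣ 1 := by
        have := Nat.dvd_gcd d1 d2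
        rwa [Nat.Coprime.gcd_eq_one hp3] at this
      exact hQ (AddMonoid.addOrderOf_eq_one_iff.1 (Nat.dvd_one.1 d3))
    obtain ⟨x₃, y₃, h', e3, hx3⟩ := three_smul_mem_kernel v h₃ h₆ h₄ hb₂ hres h hx h3
    apply hKer p x₃ y₃ h' hp hx3
    rw [← e3, ← mul_nsmul, mul_comm, mul_nsmul, hpQ, nsmul_zero]
  · exact hKer p x y h hp hx hpQ

end valuation

section twoadic

/-- The `2`-adic valuation of `ℚ`. -/
noncomputable abbrev v2 : Valuation ℚ (WithZero (Multiplicative ℤ)) :=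
  haveI : Fact (Nat.Prime 2) := ⟨Nat.prime_two⟩
  Rat.padicValuation 2

theorem v2_int_le_one (z : ℤ) : v2 (z : ℚ) ≤ 1 :=
  have : Fact (Nat.Prime 2) := ⟨Nat.prime_two⟩
  Int.padicValuation_le_one 2 z

theorem v2_int_eq_one {z : ℤ} (hz : ¬ (2 : ℤ) ∣ z) : v2 (z : ℚ) = 1 :=
  have : Fact (Nat.Prime 2) := ⟨Nat.prime_two⟩
  (Int.padicValuation_eq_one_iff (p := 2)).2 (by exact_mod_cast hz)

theorem v2_int_lt_one {z : ℤ} (hz : (2 : ℤ) ∣ z) : v2 (z : ℚ) < 1 :=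
  have : Fact (Nat.Prime 2) := ⟨Nat.prime_two⟩
  (Int.padicValuation_lt_one_iff (p := 2)).2 (by exact_mod_cast hz)

theorem not_dvd_of_v2_int_eq_one {z : ℤ} (hz : v2 (z : ℚ) = 1) : ¬ (2 : ℤ) ∣ z := by
  have : Fact (Nat.Prime 2) := ⟨Nat.prime_two⟩
  have := (Int.padicValuation_eq_one_iff (p := 2) (x := z)).1 hz
  exact_mod_cast this

theorem odd_of_v2_eq_one {x : ℚ} (hx : v2 x = 1) :
    ¬ (2 : ℤ) ∣ x.num ∧ ¬ (2 : ℤ) ∣ (x.den : ℤ) := by
  have : Fact (Nat.Prime 2) := ⟨Nat.prime_two⟩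
  have hden : ¬ 2 ∣ x.den := (Rat.padicValuation_le_one_iff (p := 2)).1 hx.le
  have hden' : ¬ (2 : ℤ) ∣ (x.den : ℤ) := by exact_mod_cast hden
  refine ⟨?_, hden'⟩
  apply not_dvd_of_v2_int_eq_one
  have h1 : v2 ((x.den : ℤ) : ℚ) = 1 := v2_int_eq_one hden'
  have h2 : x * ((x.den : ℤ) : ℚ) = ((x.num : ℤ) : ℚ) := by
    have := Rat.mul_den_eq_num x
    exact_mod_cast this
  rw [← h2, map_mul, hx, h1, one_mul]

/-- The residue field of the `2`-adic valuation of `ℚ` is `𝔽₂`. -/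
theorem v2_res (a b : ℚ) (ha : v2 a = 1) (hb : v2 b = 1) : v2 (a - b) < 1 := by
  obtain ⟨ha1, ha2⟩ := odd_of_v2_eq_one ha
  obtain ⟨hb1, hb2⟩ := odd_of_v2_eq_one hb
  have hda : ((a.den : ℤ) : ℚ) ≠ 0 := by exact_mod_cast a.den_ne_zero
  have hdb : ((b.den : ℤ) : ℚ) ≠ 0 := by exact_mod_cast b.den_ne_zero
  have e : (a - b) * (((a.den : ℤ) * (b.den : ℤ) : ℤ) : ℚ) =
      ((a.num * (b.den : ℤ) - b.num * (a.den : ℤ) : ℤ) : ℚ) := by
    have h1 : a * (a.den : ℚ) = (a.num : ℚ) := Rat.mul_den_eq_num a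
    have h2 : b * (b.den : ℚ) = (b.num : ℚ) := Rat.mul_den_eq_num b
    push_cast
    rw [← h1, ← h2]
    ring
  have hodd : ∀ z : ℤ, ¬ (2 : ℤ) ∣ z → Odd z := fun z hz =>
    Int.not_even_iff_odd.1 (fun he => hz (even_iff_two_dvd.1 he))
  have hden : v2 ((((a.den : ℤ) * (b.den : ℤ) : ℤ)) : ℚ) = 1 := by
    apply v2_int_eq_one
    intro hdvd
    have := (hodd _ ha2).mul (hodd _ hb2)
    exact Int.not_even_iff_odd.2 this (even_iff_two_dvd.2 hdvd)
  have hnum : v2 (((a.num * (b.den : ℤ) - b.num * (a.den : ℤ) : ℤ)) : ℚ) < 1 := by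
    apply v2_int_lt_one
    have h1 := (hodd _ ha1).mul (hodd _ hb2)
    have h2 := (hodd _ hb1).mul (hodd _ ha2)
    exact even_iff_two_dvd.1 (h1.sub_odd h2)
  have := congrArg v2 e
  rw [map_mul, hden, mul_one] at this
  rw [this]
  exact hnum

theorem v2_two_lt_one : v2 (2 : ℚ) < 1 := by
  have := v2_int_lt_one (z := 2) (dvd_refl 2)
  exact_mod_cast this

theorem v2_two_ne_zero : v2 (2 : ℚ) ≠ 0 := by
  rw [Ne, Valuation.zero_iff]
  norm_num

/-- Every nonzero rational has valuation an integral power of `v2 2`. -/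
theorem v2_eq_zpow {x : ℚ} (hx : x ≠ 0) : v2 x = v2 (2 : ℚ) ^ (padicValRat 2 x) := by
  have : Fact (Nat.Prime 2) := ⟨Nat.prime_two⟩
  have h1 : v2 x = WithZero.exp (-padicValRat 2 x) := by
    simp [v2, Rat.padicValuation, hx]
  have h2 : v2 (2 : ℚ) = WithZero.exp (-1 : ℤ) := by
    have := Rat.padicValuation_self 2
    exact_mod_cast this
  rw [h1, h2, ← WithZero.exp_zsmul]
  congr 1
  simp

end twoadic

section frey

open WeierstrassCurve.Affine

theorem frey_a₁ (P : FreyPackage) : (P.freyCurve⁄ℚ).a₁ = 1 := by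
  simp [FreyPackage.freyCurve, WeierstrassCurve.baseChange]

theorem frey_a₂ (P : FreyPackage) :
    (P.freyCurve⁄ℚ).a₂ = ((P.b : ℚ) ^ P.p - 1 - (P.a : ℚ) ^ P.p) / 4 := by
  simp [FreyPackage.freyCurve, WeierstrassCurve.baseChange]

theorem frey_a₃ (P : FreyPackage) : (P.freyCurve⁄ℚ).a₃ = 0 := by
  simp [FreyPackage.freyCurve, WeierstrassCurve.baseChange]

theorem frey_a₄ (P : FreyPackage) :
    (P.freyCurve⁄ℚ).a₄ = -((P.a : ℚ) ^ P.p) * ((P.b : ℚ) ^ P.p) / 16 := by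
  simp [FreyPackage.freyCurve, WeierstrassCurve.baseChange]

theorem frey_a₆ (P : FreyPackage) : (P.freyCurve⁄ℚ).a₆ = 0 := by
  simp [FreyPackage.freyCurve, WeierstrassCurve.baseChange]

/-- `32 ∣ b^p`. -/
theorem frey_dvd_B (P : FreyPackage) : (32 : ℤ) ∣ P.b ^ P.p := by
  have h2 : (2 : ℤ) ∣ P.b := (ZMod.intCast_zmod_eq_zero_iff_dvd P.b 2).1 P.hb2
  have h3 : (2 : ℤ) ^ P.p ∣ P.b ^ P.p := pow_dvd_pow_of_dvd h2 P.p
  have h4 : (2 : ℤ) ^ 5 ∣ (2 : ℤ) ^ P.p := pow_dvd_pow 2 P.hp5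
  have h5 : ((2 : ℤ) ^ 5) = 32 := by norm_num
  rw [h5] at h4
  exact h4.trans h3

/-- `a^p` is odd. -/
theorem frey_odd_A (P : FreyPackage) : ¬ (2 : ℤ) ∣ P.a ^ P.p := by
  intro h
  have h2 : (2 : ℤ) ∣ P.a := (Int.prime_two.dvd_of_dvd_pow h)
  have h4 := P.ha4
  obtain ⟨k, hk⟩ := h2
  rw [hk] at h4
  push_cast at h4
  have : ∀ z : ZMod 4, (2 : ZMod 4) * z ≠ 3 := by decide
  exact this _ h4

/-- `4 ∣ b^p - 1 - a^p`. -/
theorem frey_dvd_a₂ (P : FreyPackage) : (4 : ℤ) ∣ P.b ^ P.p - 1 - P.a ^ P.p := by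
  have key : ((P.b ^ P.p - 1 - P.a ^ P.p : ℤ) : ZMod 4) = 0 := by
    have hB : ((P.b ^ P.p : ℤ) : ZMod 4) = 0 := by
      rw [ZMod.intCast_zmod_eq_zero_iff_dvd]
      exact (show (4 : ℤ) ∣ 32 by norm_num).trans (frey_dvd_B P)
    have hA : ((P.a ^ P.p : ℤ) : ZMod 4) = 3 := by
      obtain ⟨k, hk⟩ := P.hp_odd
      push_cast
      rw [P.ha4, hk, pow_succ, pow_mul]
      have : (3 : ZMod 4) ^ 2 = 1 := by decide
      rw [this, one_pow, one_mul]
    push_cast at hB hA ⊢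
    rw [hB, hA]
    decide
  have := (ZMod.intCast_zmod_eq_zero_iff_dvd (P.b ^ P.p - 1 - P.a ^ P.p) 4).1 key
  exact_mod_cast this

theorem frey_v2_a₂ (P : FreyPackage) : v2 (P.freyCurve⁄ℚ).a₂ ≤ 1 := by
  obtain ⟨m, hm⟩ := frey_dvd_a₂ P
  have : (P.freyCurve⁄ℚ).a₂ = ((m : ℤ) : ℚ) := by
    rw [frey_a₂]
    have := congrArg (Int.cast : ℤ → ℚ) hm
    push_cast at this
    rw [this]
    field_simp
  rw [this]
  exact v2_int_le_one m

theorem frey_v2_a₄ (P : FreyPackage) : v2 (P.freyCurve⁄ℚ).a₄ < 1 := by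
  obtain ⟨n, hn⟩ := frey_dvd_B P
  have : (P.freyCurve⁄ℚ).a₄ = ((-(P.a ^ P.p) * n * 2 : ℤ) : ℚ) := by
    rw [frey_a₄]
    have := congrArg (Int.cast : ℤ → ℚ) hn
    push_cast at this
    rw [this]
    push_cast
    ring
  rw [this]
  exact v2_int_lt_one (Dvd.intro_left _ rfl)

theorem frey_v2_b₂ (P : FreyPackage) :
    v2 ((P.freyCurve⁄ℚ).a₁ ^ 2 + 4 * (P.freyCurve⁄ℚ).a₂) = 1 := by
  have : (P.freyCurve⁄ℚ).a₁ ^ 2 + 4 * (P.freyCurve⁄ℚ).a₂ = ((P.b ^ P.p - P.a ^ P.p : ℤ) : ℚ) := by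
    rw [frey_a₁, frey_a₂]
    push_cast
    ring
  rw [this]
  apply v2_int_eq_one
  intro h
  apply frey_odd_A P
  have h2 : (2 : ℤ) ∣ P.b ^ P.p := (show (2 : ℤ) ∣ 32 by norm_num).trans (frey_dvd_B P)
  have := dvd_sub h2 h
  simpa using this

theorem frey_v2_p (P : FreyPackage) : v2 ((P.p : ℕ) : ℚ) = 1 := by
  have : ((P.p : ℕ) : ℚ) = (((P.p : ℕ) : ℤ) : ℚ) := by push_cast; rfl
  rw [this]
  apply v2_int_eq_one
  intro h
  have h2 : 2 ∣ P.p := by exact_mod_cast h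
  have h3 := (Nat.prime_dvd_prime_iff_eq Nat.prime_two P.pp).1 h2
  have := P.hp5
  omega

theorem frey_coprime_three (P : FreyPackage) : Nat.Coprime P.p 3 := by
  rw [Nat.coprime_primes P.pp Nat.prime_three]
  have := P.hp5
  omega

theorem frey_a₄_ne_zero (P : FreyPackage) : (P.freyCurve⁄ℚ).a₄ ≠ 0 := by
  rw [frey_a₄]
  have ha : (P.a : ℚ) ≠ 0 := by exact_mod_cast P.ha0
  have hb : (P.b : ℚ) ≠ 0 := by exact_mod_cast P.hb0
  have h1 : (P.a : ℚ) ^ P.p ≠ 0 := pow_ne_zero _ ha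
  have h2 : (P.b : ℚ) ^ P.p ≠ 0 := pow_ne_zero _ hb
  exact div_ne_zero (mul_ne_zero (neg_ne_zero.2 h1) h2) (by norm_num)

/-- `v₂(a₄) = p·v₂(b) - 4`, which is prime to `p`. -/
theorem frey_a₄_zpow (P : FreyPackage) :
    ∃ n : ℤ, v2 (P.freyCurve⁄ℚ).a₄ = v2 (2 : ℚ) ^ n ∧ ¬ (P.p : ℤ) ∣ n := by
  have hb : (P.b : ℚ) ≠ 0 := by exact_mod_cast P.hb0
  refine ⟨padicValRat 2 (P.b : ℚ) * (P.p : ℤ) - 4, ?_, ?_⟩
  · have hA : v2 ((P.a : ℚ) ^ P.p) = 1 := by
      have := v2_int_eq_one (frey_odd_A P)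
      exact_mod_cast this
    have h16 : v2 (16 : ℚ) = v2 (2 : ℚ) ^ (4 : ℤ) := by
      have e : (16 : ℚ) = 2 ^ 4 := by norm_num
      rw [e, map_pow]
      norm_cast
    rw [frey_a₄, map_div₀, map_mul, Valuation.map_neg, hA, one_mul, map_pow, v2_eq_zpow hb, h16,
      zpow_sub₀ v2_two_ne_zero, zpow_mul, zpow_natCast]
  · intro h
    have h1 : (P.p : ℤ) ∣ padicValRat 2 (P.b : ℚ) * (P.p : ℤ) := Dvd.intro_left _ rfl
    have h2 : (P.p : ℤ) ∣ 4 := by
      have := dvd_sub h1 h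
      simpa using this
    have h3 := Int.le_of_dvd (by norm_num) h2
    have := P.hp5
    omega

/-- The node engine for the Frey curve at `2`. -/
theorem frey_node (P : FreyPackage) : NodeStmt v2 (P.freyCurve⁄ℚ) P.p := by
  intro x y h hx hpx
  have hp2 : P.p ≠ 2 := by have := P.hp5; omega
  have hb₂ : v2 (P.freyCurve⁄ℚ).b₂ = 1 := frey_v2_b₂ P
  obtain ⟨hlt, -⟩ := Fermat.Agent.Lib.NodeLaw.part3_node v2 (frey_a₃ P) (frey_a₆ P) hb₂
    (frey_v2_a₄ P) (frey_a₄_ne_zero P) P.hp_odd h hpx hx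
  have hx0 : x ≠ 0 := by
    rintro rfl
    rw [Valuation.map_zero] at hlt
    exact not_lt_zero hlt
  obtain ⟨n, hn, hpn⟩ := frey_a₄_zpow P
  have := Fermat.Agent.Lib.NodeLaw.not_node_of_torsion v2 (frey_a₃ P) (frey_a₆ P) hb₂
    (frey_v2_a₄ P) (frey_a₄_ne_zero P) P.pp hp2 h hpx v2_two_ne_zero v2_two_lt_one
    (v2_eq_zpow hx0) hn hpn
  exact absurd hx (not_lt.2 this)

/-- The kernel-of-reduction engine for the Frey curve at `2`. -/
theorem frey_ker (P : FreyPackage) : KerStmt v2 (P.freyCurve⁄ℚ) := by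
  intro n x y h hn hx h0
  have := Fermat.Agent.Lib.KerRedAny.torsion_integral v2 (P.freyCurve⁄ℚ)
    (by rw [frey_a₁, map_one]) (frey_v2_a₂ P) (by rw [frey_a₃, map_zero]; exact zero_le_one)
    (frey_v2_a₄ P).le (by rw [frey_a₆, map_zero]; exact zero_le_one) n hn _ h0 x y h rfl
  exact absurd hx (not_lt.2 this)

/-- **RAT over `ℚ`** (given the two engines): the Frey curve has no rational point of order `p`. -/
theorem rat_frey (P : FreyPackage) (hKer : KerStmt v2 (P.freyCurve⁄ℚ))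
    (hNode : NodeStmt v2 (P.freyCurve⁄ℚ) P.p) (Q : (P.freyCurve⁄ℚ).Point) (hQ : Q ≠ 0) :
    P.p • Q ≠ 0 :=
  rat_core v2 hKer hNode (frey_a₃ P) (frey_a₆ P) (frey_v2_a₄ P) (frey_v2_b₂ P) v2_res
    (frey_v2_p P) (frey_coprime_three P) Q hQ

end frey

section descent

open WeierstrassCurve.Affine WeierstrassCurve.Affine.Point

local notation "Qb" => AlgebraicClosure ℚ

/-- **RAT** (given the two engines): no nonzero Galois-fixed point of `E[p](ℚ̄)` on the Frey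
curve. -/
theorem no_fixed_torsion_of (P : FreyPackage) (hKer : KerStmt v2 (P.freyCurve⁄ℚ))
    (hNode : NodeStmt v2 (P.freyCurve⁄ℚ) P.p)
    (Q : (P.freyCurve⁄Qb).Point) (hQ : Q ≠ 0) (hpQ : P.p • Q = 0)
    (hfix : ∀ σ : Qb ≃ₐ[ℚ] Qb, σ • Q = Q) : False := by
  rcases Q with _ | ⟨x, y, h⟩
  · exact hQ rfl
  have hxy : ∀ σ : Qb ≃ₐ[ℚ] Qb, σ x = x ∧ σ y = y := by
    intro σ
    have h1 := hfix σ
    rw [algEquiv_smul_def, Point.map_some] at h1
    injection h1 with h2 h3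
    exact ⟨h2, h3⟩
  have : Algebra.IsAlgebraic ℚ Qb := AlgebraicClosure.isAlgebraic ℚ
  have : IsAlgClosure ℚ Qb := AlgebraicClosure.instIsAlgClosure ℚ
  obtain ⟨x₀, rfl⟩ := (InfiniteGalois.mem_range_algebraMap_iff_fixed (k := ℚ) (K := Qb) x).2
    (fun σ => (hxy σ).1)
  obtain ⟨y₀, rfl⟩ := (InfiniteGalois.mem_range_algebraMap_iff_fixed (k := ℚ) (K := Qb) y).2
    (fun σ => (hxy σ).2)
  have h₀ : (P.freyCurve⁄ℚ).Nonsingular x₀ y₀ :=
    (WeierstrassCurve.Affine.baseChange_nonsingular P.freyCurve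
      (f := Algebra.ofId ℚ Qb) (Algebra.ofId ℚ Qb).injective x₀ y₀).1 h
  have hmap : Point.map (W' := P.freyCurve) (Algebra.ofId ℚ Qb) (Point.some x₀ y₀ h₀) =
      Point.some _ _ h := rfl
  have h0 : P.p • (Point.some x₀ y₀ h₀ : (P.freyCurve⁄ℚ).Point) = 0 := by
    apply Point.map_injective (W' := P.freyCurve) (Algebra.ofId ℚ Qb)
    rw [map_nsmul, hmap, hpQ, Point.map_zero]
  exact rat_frey P hKer hNode _ (Point.some_ne_zero h₀) h0

/-- **RAT**: the Frey curve has no nonzero Galois-fixed point of order `p`. -/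
theorem no_fixed_torsion (P : FreyPackage) (Q : (P.freyCurve⁄Qb).Point) (hQ : Q ≠ 0)
    (hpQ : P.p • Q = 0) (hfix : ∀ σ : Qb ≃ₐ[ℚ] Qb, σ • Q = Q) : False :=
  no_fixed_torsion_of P (frey_ker P) (frey_node P) Q hQ hpQ hfix

/-- **RAT over `ℚ`**: the Frey curve has no rational point of order `p`. -/
theorem no_rational_torsion (P : FreyPackage) (Q : (P.freyCurve⁄ℚ).Point) (hQ : Q ≠ 0) :
    P.p • Q ≠ 0 :=
  rat_frey P (frey_ker P) (frey_node P) Q hQ

end descent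

end Fermat.Agent.S13.Rat
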