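import Mathlib
import Fermat.Agent.Lib.TorsionCard.Count

set_option autoImplicit false

/-!
# LOC-p dichotomy, valuation core

`N` a finite set of `p`-torsion points, stable under negation, all of whose nonzero members lie in
the kernel of reduction (`1 < v x`).  If the product `W_N` of the distinct `x`-coordinates of `N`
satisfies `1 ≤ v W_N * v p` (e.g. because it is rational and `v` is `p`-adic), then the Newton bound
`v p * ∏_{x ∈ S} v x ≤ 1` (over sets `S` of `x`-coordinates of `p`-torsion points in the kernel of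
reduction) forces every `p`-torsion point outside `N` to have an integral `x`-coordinate.
-/

namespace Fermat.Agent.S13.DichotomyCore

open WeierstrassCurve WeierstrassCurve.Affine Fermat.Agent.Lib.TorsionCard

variable {K : Type*} [Field K] [DecidableEq K] {Γ₀ : Type*} [LinearOrderedCommGroupWithZero Γ₀]
  (v : Valuation K Γ₀) (W : Affine K)

/-- The set of `x`-coordinates of the nonzero points of a finite set of points. -/
noncomputable def xSet (N : Finset W.Point) : Finset K :=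
  (N.erase 0).image (xOf W)

variable {W}

lemma mem_xSet {N : Finset W.Point} {x : K} :
    x ∈ xSet W N ↔ ∃ Q ∈ N, HasXc W Q x := by
  unfold xSet
  rw [Finset.mem_image]
  constructor
  · rintro ⟨Q, hQ, rfl⟩
    rw [Finset.mem_erase] at hQ
    exact ⟨Q, hQ.2, hasXc_xOf hQ.1⟩
  · rintro ⟨Q, hQ, hx⟩
    exact ⟨Q, Finset.mem_erase.mpr ⟨hx.ne_zero, hQ⟩, hx.xOf_eq⟩

/-- **Valuation core of the dichotomy at `p`.** -/
theorem val_le_one_of_notMem (p : ℕ)
    (hT2 : ∀ S : Finset K, (∀ x ∈ S, 1 < v x ∧ ∃ P : W.Point, p • P = 0 ∧ HasXc W P x) →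
      v (p : K) * ∏ x ∈ S, v x ≤ 1)
    (N : Finset W.Point) (hNtors : ∀ Q ∈ N, p • Q = 0) (hNneg : ∀ Q ∈ N, -Q ∈ N)
    (hNker : ∀ Q ∈ N, ∀ x, HasXc W Q x → 1 < v x)
    (hrat : 1 ≤ v (∏ x ∈ xSet W N, x) * v (p : K))
    {R : W.Point} (hR : p • R = 0) (hRN : R ∉ N) {x : K} (hx : HasXc W R x) : v x ≤ 1 := by
  by_contra hlt
  rw [not_le] at hlt
  have hxT : x ∉ xSet W N := by
    intro hmem
    obtain ⟨Q, hQ, hQx⟩ := mem_xSet.mp hmem
    rcases hx.eq_or_eq_neg hQx with rfl | rfl
    · exact hRN hQ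
    · exact hRN (hNneg Q hQ)
  have hS : ∀ x' ∈ insert x (xSet W N),
      1 < v x' ∧ ∃ P : W.Point, p • P = 0 ∧ HasXc W P x' := by
    intro x' hx'
    rcases Finset.mem_insert.mp hx' with rfl | hx'
    · exact ⟨hlt, R, hR, hx⟩
    · obtain ⟨Q, hQ, hQx⟩ := mem_xSet.mp hx'
      exact ⟨hNker Q hQ x' hQx, Q, hNtors Q hQ, hQx⟩
  have h1 := hT2 _ hS
  rw [Finset.prod_insert hxT, ← map_prod] at h1
  have h2 : v (p : K) * (v x * v (∏ x ∈ xSet W N, x))
      = v x * (v (∏ x ∈ xSet W N, x) * v (p : K)) := by rw [mul_comm, mul_assoc]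
  rw [h2] at h1
  have h3 : v x * 1 ≤ v x * (v (∏ x ∈ xSet W N, x) * v (p : K)) :=
    mul_le_mul_right hrat _
  rw [mul_one] at h3
  exact absurd (h3.trans h1) (not_le.mpr hlt)

end Fermat.Agent.S13.DichotomyCore
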