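import Mathlib
import Fermat.Prelude.Def_FLTPrelim_FreyPackage
import Fermat.Prelude.Def_FLTPrelim_GaloisRep
import Fermat.Prelude.Def_FLTPrelim_Ramification
import Fermat.Agent.S13.DichotomyCore

set_option autoImplicit false

/-!
# LOC-p dichotomy (Galois layer)

For a Galois-stable line `N` in `E[p](Q̄)` and a valuation subring `A` of `Q̄` over `p`: either no
nonzero point of `N` lies in the kernel of reduction, or every `p`-torsion point in the kernel of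
reduction lies in `N`.  The three analytic inputs (Newton bound `hT2`, equal valuations along unit
multiples in the kernel of reduction `hC2`, rational numbers have valuation in `|p|^ℤ` `hrat`) are
hypotheses here.
-/

namespace Fermat.Agent.S13.Dichotomy

open WeierstrassCurve WeierstrassCurve.Affine WeierstrassCurve.Affine.Point
open Fermat.Agent.Lib.TorsionCard Fermat.Agent.S13.DichotomyCore

local notation "Kbar" => AlgebraicClosure ℚ
local notation "Gq" => (AlgebraicClosure ℚ ≃ₐ[ℚ] AlgebraicClosure ℚ)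

/-- An element of `Q̄` fixed by the whole Galois group is rational. -/
theorem rational_of_fixed (x : Kbar) (hx : ∀ σ : Gq, σ x = x) : ∃ q : ℚ, (q : Kbar) = x := by
  have : Algebra.IsAlgebraic ℚ Kbar := AlgebraicClosure.isAlgebraic ℚ
  have : IsAlgClosure ℚ Kbar := AlgebraicClosure.instIsAlgClosure ℚ
  obtain ⟨q, hq⟩ := (InfiniteGalois.mem_range_algebraMap_iff_fixed (k := ℚ) (K := Kbar) x).mpr hx
  exact ⟨q, by rw [← hq]; simp⟩

variable (W' : Affine ℚ)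

lemma hasXc_smul (σ : Gq) {Q : (W'⁄Kbar).Point} {x : Kbar} (h : HasXc (W'⁄Kbar) Q x) :
    HasXc (W'⁄Kbar) (σ • Q) (σ x) := by
  obtain ⟨y, hy, rfl⟩ := h
  exact ⟨σ y, _, Point.map_some σ.toAlgHom hy⟩

/-- The product of the `x`-coordinates of a Galois-stable finite set of points is Galois-fixed. -/
theorem prod_xSet_fixed (N : Finset (W'⁄Kbar).Point) (hN : ∀ σ : Gq, ∀ Q ∈ N, σ • Q ∈ N)
    (σ : Gq) : σ (∏ x ∈ xSet (W'⁄Kbar) N, x) = ∏ x ∈ xSet (W'⁄Kbar) N, x := by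
  have himg : (xSet (W'⁄Kbar) N).image σ = xSet (W'⁄Kbar) N := by
    refine Finset.eq_of_subset_of_card_le ?_ ?_
    · intro x hx
      obtain ⟨x₀, hx₀, rfl⟩ := Finset.mem_image.mp hx
      obtain ⟨Q, hQ, hQx⟩ := mem_xSet.mp hx₀
      exact mem_xSet.mpr ⟨σ • Q, hN σ Q hQ, hasXc_smul W' σ hQx⟩
    · rw [Finset.card_image_of_injective _ σ.injective]
  rw [map_prod]
  conv_rhs => rw [← himg]
  rw [Finset.prod_image fun a _ b _ h => σ.injective h]

/-- In `Γ₀`, a nonempty product of elements `> 1` is `> 1`. -/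
lemma one_lt_prod_of_one_lt {Γ₀ : Type*} [LinearOrderedCommGroupWithZero Γ₀] {ι : Type*}
    (s : Finset ι) (f : ι → Γ₀) (hs : s.Nonempty) (h : ∀ i ∈ s, 1 < f i) : 1 < ∏ i ∈ s, f i := by
  refine Finset.prod_induction_nonempty f (fun a => 1 < a) (fun a b ha hb => ?_) hs h
  calc (1 : Γ₀) < a := ha
    _ = a * 1 := (mul_one a).symm
    _ ≤ a * b := mul_le_mul_right hb.le a

/-- **Dichotomy at `p`**, with the analytic inputs as hypotheses. -/
theorem dichotomy_of (p : ℕ) (hp : p.Prime) (A : ValuationSubring Kbar)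
    (hT2 : ∀ S : Finset Kbar,
      (∀ x ∈ S, 1 < A.valuation x ∧ ∃ P : (W'⁄Kbar).Point, p • P = 0 ∧ HasXc (W'⁄Kbar) P x) →
        A.valuation (p : Kbar) * ∏ x ∈ S, A.valuation x ≤ 1)
    (hC2 : ∀ (Q : (W'⁄Kbar).Point) (x : Kbar), HasXc (W'⁄Kbar) Q x → 1 < A.valuation x →
      ∀ k : ℕ, 0 < k → k < p → ∃ x', HasXc (W'⁄Kbar) (k • Q) x' ∧ 1 < A.valuation x')
    (hrat : ∀ r : ℚ, 1 < A.valuation (r : Kbar) →
      1 ≤ A.valuation (r : Kbar) * A.valuation (p : Kbar))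
    (N : Submodule (ZMod p) (Submodule.torsionBy ℤ (W'⁄Kbar).Point p))
    (hN : IsGaloisStable ℚ N) (hcard : Nat.card N = p) :
    (∀ Q ∈ N, ∀ x, HasXc (W'⁄Kbar) (Q : (W'⁄Kbar).Point) x → A.valuation x ≤ 1) ∨
    (∀ R : Submodule.torsionBy ℤ (W'⁄Kbar).Point p, ∀ x,
      HasXc (W'⁄Kbar) (R : (W'⁄Kbar).Point) x → 1 < A.valuation x → R ∈ N) := by
  by_cases hex : ∀ Q ∈ N, ∀ x, HasXc (W'⁄Kbar) (Q : (W'⁄Kbar).Point) x → A.valuation x ≤ 1
  · exact Or.inl hex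
  right
  push Not at hex
  obtain ⟨Q₀, hQ₀N, x₀, hQ₀x, hx₀⟩ := hex
  have : Fact p.Prime := ⟨hp⟩
  have : Finite N := Nat.finite_of_card_ne_zero (by rw [hcard]; exact hp.ne_zero)
  -- the finite set of points of `N`
  have hfin : (Set.range fun q : N => ((q : Submodule.torsionBy ℤ (W'⁄Kbar).Point p) :
      (W'⁄Kbar).Point)).Finite := Set.finite_range _
  set Nf : Finset (W'⁄Kbar).Point := hfin.toFinset with hNf
  have hmem : ∀ Q : (W'⁄Kbar).Point, Q ∈ Nf ↔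
      ∃ q : Submodule.torsionBy ℤ (W'⁄Kbar).Point p, q ∈ N ∧ (q : (W'⁄Kbar).Point) = Q := by
    intro Q
    rw [hNf, Set.Finite.mem_toFinset, Set.mem_range]
    constructor
    · rintro ⟨q, rfl⟩
      exact ⟨q.1, q.2, rfl⟩
    · rintro ⟨q, hq, rfl⟩
      exact ⟨⟨q, hq⟩, rfl⟩
  have htors : ∀ q : Submodule.torsionBy ℤ (W'⁄Kbar).Point p,
      p • (q : (W'⁄Kbar).Point) = 0 := by
    intro q
    have := (Submodule.mem_torsionBy_iff _ _).mp q.2
    rwa [natCast_zsmul] at this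
  -- every element of `N` is a multiple of `Q₀`
  have hQ₀0 : (⟨Q₀, hQ₀N⟩ : N) ≠ 0 := by
    intro h0
    have h1 : (Q₀ : (W'⁄Kbar).Point) = 0 := by
      have := congrArg (fun q : N => ((q : Submodule.torsionBy ℤ (W'⁄Kbar).Point p) :
        (W'⁄Kbar).Point)) h0
      simpa using this
    exact hQ₀x.ne_zero h1
  have hgen : ∀ q ∈ N, ∃ k : ℕ, k < p ∧
      (q : (W'⁄Kbar).Point) = k • (Q₀ : (W'⁄Kbar).Point) := by
    intro q hq
    have htop := zmultiples_eq_top_of_prime_card hcard hQ₀0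
    have hq' : (⟨q, hq⟩ : N) ∈ AddSubgroup.zmultiples (⟨Q₀, hQ₀N⟩ : N) := by
      rw [htop]; exact AddSubgroup.mem_top _
    obtain ⟨m, hm⟩ := AddSubgroup.mem_zmultiples_iff.mp hq'
    have hm' : m • (Q₀ : (W'⁄Kbar).Point) = (q : (W'⁄Kbar).Point) := by
      have := congrArg (fun q : N => ((q : Submodule.torsionBy ℤ (W'⁄Kbar).Point p) :
        (W'⁄Kbar).Point)) hm
      simpa using this
    have hp0 : (0 : ℤ) < p := by exact_mod_cast hp.pos
    refine ⟨(m % p).toNat, ?_, ?_⟩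
    · have := Int.emod_lt_of_pos m hp0
      have h0 := Int.emod_nonneg m hp0.ne'
      omega
    · rw [← hm', ← natCast_zsmul, Int.toNat_of_nonneg (Int.emod_nonneg m hp0.ne')]
      conv_lhs => rw [← Int.emod_add_mul_ediv m p, add_zsmul, mul_comm, mul_zsmul, natCast_zsmul, htors Q₀,
        zsmul_zero, add_zero]
  -- hypotheses of the core
  have hNtors : ∀ Q ∈ Nf, p • Q = 0 := by
    intro Q hQ
    obtain ⟨q, -, rfl⟩ := (hmem Q).mp hQ
    exact htors q
  have hNneg : ∀ Q ∈ Nf, -Q ∈ Nf := by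
    intro Q hQ
    obtain ⟨q, hq, rfl⟩ := (hmem Q).mp hQ
    exact (hmem _).mpr ⟨-q, N.neg_mem hq, rfl⟩
  have hNker : ∀ Q ∈ Nf, ∀ x, HasXc (W'⁄Kbar) Q x → 1 < A.valuation x := by
    intro Q hQ x hx
    obtain ⟨q, hq, rfl⟩ := (hmem Q).mp hQ
    obtain ⟨k, hkp, hk⟩ := hgen q hq
    have hk0 : 0 < k := by
      rcases Nat.eq_zero_or_pos k with h | h
      · rw [h, zero_nsmul] at hk
        exact absurd hk hx.ne_zero
      · exact h
    obtain ⟨x', hx', hv⟩ := hC2 _ x₀ hQ₀x hx₀ k hk0 hkp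
    rw [← hk] at hx'
    rwa [hx.unique hx']
  have hNstab : ∀ σ : Gq, ∀ Q ∈ Nf, σ • Q ∈ Nf := by
    intro σ Q hQ
    obtain ⟨q, hq, rfl⟩ := (hmem Q).mp hQ
    exact (hmem _).mpr ⟨σ • q, hN σ q hq, rfl⟩
  have hratN : 1 ≤ A.valuation (∏ x ∈ xSet (W'⁄Kbar) Nf, x) * A.valuation (p : Kbar) := by
    obtain ⟨r, hr⟩ := rational_of_fixed _ (prod_xSet_fixed W' Nf hNstab)
    rw [← hr]
    apply hrat
    rw [hr, map_prod]
    refine one_lt_prod_of_one_lt _ _ ⟨x₀, mem_xSet.mpr ⟨_, (hmem _).mpr ⟨Q₀, hQ₀N, rfl⟩, hQ₀x⟩⟩ ?_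
    intro x hx
    obtain ⟨Q, hQ, hQx⟩ := mem_xSet.mp hx
    exact hNker Q hQ x hQx
  intro R x hRx hx
  by_contra hRN
  have hRNf : (R : (W'⁄Kbar).Point) ∉ Nf := by
    intro h
    obtain ⟨q, hq, hqR⟩ := (hmem _).mp h
    exact hRN (by rwa [← Subtype.ext hqR])
  exact absurd (val_le_one_of_notMem A.valuation p hT2 Nf hNtors hNneg hNker hratN (htors R)
    hRNf hRx) (not_le.mpr hx)

end Fermat.Agent.S13.Dichotomy
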