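import Mathlib
import Fermat.Agent.S13.Dichotomy
import Fermat.Agent.S13.FreyInt

set_option autoImplicit false

/-!
# LOC-p dichotomy for the Frey curve

`frey_dichotomy_of`: the dichotomy at a valuation subring `A` over `p` for a Galois-stable line
`N ⊆ E[p]` of the Frey curve, given the two analytic engines in their published shapes
(specialised to `Q̄` and `A.valuation`):

* `T2`  (Newton bound, `Ladder.torsion_newton_bound`),
* `C2`  (kernel of reduction: unit multiples stay in the kernel, `KerRedGen`).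
-/

namespace Fermat.Agent.S13.DichotomyFrey

open WeierstrassCurve WeierstrassCurve.Affine WeierstrassCurve.Affine.Point
open Fermat.Agent.Lib.TorsionCard

local notation "Kbar" => AlgebraicClosure ℚ

/-- Shape of the Newton bound (T2) consumed here. -/
def T2Shape : Prop :=
  ∀ (A : ValuationSubring Kbar) (W : Affine Kbar),
    (A.valuation W.a₁ ≤ 1 ∧ A.valuation W.a₂ ≤ 1 ∧ A.valuation W.a₃ ≤ 1 ∧
      A.valuation W.a₄ ≤ 1 ∧ A.valuation W.a₆ ≤ 1) →
    ∀ p : ℕ, p.Prime → 5 ≤ p → (∀ k : ℕ, 0 < k → k < p → A.valuation (k : Kbar) = 1) →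
    ∀ S : Finset Kbar,
      (∀ x ∈ S, 1 < A.valuation x ∧ ∃ P : W.Point, p • P = 0 ∧ HasXc W P x) →
        A.valuation (p : Kbar) * ∏ x ∈ S, A.valuation x ≤ 1

/-- Shape of the kernel-of-reduction statement (C2) consumed here: multiples by units of a point
in the kernel of reduction stay in the kernel of reduction. -/
def C2Shape : Prop :=
  ∀ (A : ValuationSubring Kbar) (W : Affine Kbar),
    (A.valuation W.a₁ ≤ 1 ∧ A.valuation W.a₂ ≤ 1 ∧ A.valuation W.a₃ ≤ 1 ∧
      A.valuation W.a₄ ≤ 1 ∧ A.valuation W.a₆ ≤ 1) →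
    ∀ (Q : W.Point) (x : Kbar), HasXc W Q x → 1 < A.valuation x →
      ∀ k : ℕ, A.valuation (k : Kbar) = 1 → ∃ x', HasXc W (k • Q) x' ∧ 1 < A.valuation x'

/-- **Dichotomy at `p` for the Frey curve**, given (T2) and (C2). -/
theorem frey_dichotomy_of (hT2 : T2Shape) (hC2 : C2Shape) (P : FreyPackage)
    (A : ValuationSubring Kbar) (hA : A.LiesOverPrime P.p)
    (N : Submodule (ZMod P.p) (Submodule.torsionBy ℤ (P.freyCurve⁄Kbar).Point P.p))
    (hN : IsGaloisStable ℚ N) (hcard : Nat.card N = P.p) :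
    (∀ Q ∈ N, ∀ x, HasXc (P.freyCurve⁄Kbar) (Q : (P.freyCurve⁄Kbar).Point) x →
        A.valuation x ≤ 1) ∨
    (∀ R : Submodule.torsionBy ℤ (P.freyCurve⁄Kbar).Point P.p, ∀ x,
      HasXc (P.freyCurve⁄Kbar) (R : (P.freyCurve⁄Kbar).Point) x → 1 < A.valuation x → R ∈ N) := by
  have hunits := FreyInt.val_natCast_eq_one A P.p P.pp hA
  have hcoef := FreyInt.val_coeff_le_one P A
  refine Dichotomy.dichotomy_of P.freyCurve P.p P.pp A
    (hT2 A (P.freyCurve⁄Kbar) hcoef P.p P.pp P.hp5 hunits)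
    (fun Q x hQ hx k hk0 hkp => hC2 A (P.freyCurve⁄Kbar) hcoef Q x hQ hx k (hunits k hk0 hkp))
    (FreyInt.rat_val_ge A P.p P.pp hA) N hN hcard

/-- The same dichotomy in "kernel of reduction" form: either `N` meets the kernel of reduction
trivially, or the kernel of reduction (intersected with `E[p]`) is contained in `N`. -/
theorem frey_dichotomy_inKer_of (hT2 : T2Shape) (hC2 : C2Shape) (P : FreyPackage)
    (A : ValuationSubring Kbar) (hA : A.LiesOverPrime P.p)
    (N : Submodule (ZMod P.p) (Submodule.torsionBy ℤ (P.freyCurve⁄Kbar).Point P.p))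
    (hN : IsGaloisStable ℚ N) (hcard : Nat.card N = P.p) :
    (∀ Q ∈ N, ((Q : (P.freyCurve⁄Kbar).Point) = 0 ∨
        ∃ x y h, (Q : (P.freyCurve⁄Kbar).Point) = Point.some x y h ∧ 1 < A.valuation x) → Q = 0) ∨
    (∀ R : Submodule.torsionBy ℤ (P.freyCurve⁄Kbar).Point P.p,
      ((R : (P.freyCurve⁄Kbar).Point) = 0 ∨
        ∃ x y h, (R : (P.freyCurve⁄Kbar).Point) = Point.some x y h ∧ 1 < A.valuation x) →
          R ∈ N) := by
  rcases frey_dichotomy_of hT2 hC2 P A hA N hN hcard with h | h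
  · left
    rintro Q hQ (h0 | ⟨x, y, hxy, hQe, hx⟩)
    · exact Subtype.ext h0
    · exact absurd (h Q hQ x ⟨y, hxy, hQe⟩) (not_le.mpr hx)
  · right
    rintro R (h0 | ⟨x, y, hxy, hRe, hx⟩)
    · have : R = 0 := Subtype.ext h0
      rw [this]
      exact N.zero_mem
    · exact h R x ⟨y, hxy, hRe⟩ hx

end Fermat.Agent.S13.DichotomyFrey
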