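import Mathlib
import Fermat.Agent.S13.DichotomyFrey
import Fermat.Agent.S13.Ladder
import Fermat.Agent.S13.KerRedGen
import Fermat.Agent.S13.LegP

set_option autoImplicit false

/-!
# LOC-p dichotomy for the Frey curve (unconditional)

`Fermat.Agent.S13.Dichotomy.frey_dichotomy`: for a valuation subring `A` of `Q̄` over `p` and a
Galois-stable line `N ⊆ E[p]` of the Frey curve, either `N` meets the kernel of reduction trivially,
or every `p`-torsion point of the kernel of reduction lies in `N`.
-/

namespace Fermat.Agent.S13.Dichotomy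

open WeierstrassCurve WeierstrassCurve.Affine WeierstrassCurve.Affine.Point
open Fermat.Agent.Lib.TorsionCard

local notation "Kbar" => AlgebraicClosure ℚ

/-- The Newton bound (T2) in the shape consumed by the dichotomy. -/
theorem t2Shape : DichotomyFrey.T2Shape := by
  intro A W ha p hp hp5 hunits S hS
  exact Ladder.torsion_newton_bound A.valuation W ha.1 ha.2.1 ha.2.2.1 ha.2.2.2.1 ha.2.2.2.2 p hp
    (by omega) hunits S hS

/-- The kernel-of-reduction engine (C2) in the shape consumed by the dichotomy. -/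
theorem c2Shape : DichotomyFrey.C2Shape := by
  intro A W ha Q x hQ hx k hk
  obtain ⟨x', hx', hv⟩ := KerRedGen.nsmul_unit
    (KerRedGen.intB_of_coeffs ha.1 ha.2.1 ha.2.2.1 ha.2.2.2.1 ha.2.2.2.2) hQ hx k hk
  exact ⟨x', hx', by rw [hv]; exact hx⟩

/-- **Dichotomy at `p` for the Frey curve** (`HasXc` form). -/
theorem frey_dichotomy_hasXc (P : FreyPackage)
    (A : ValuationSubring Kbar) (hA : A.LiesOverPrime P.p)
    (N : Submodule (ZMod P.p) (Submodule.torsionBy ℤ (P.freyCurve⁄Kbar).Point P.p))
    (hN : IsGaloisStable ℚ N) (hcard : Nat.card N = P.p) :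
    (∀ Q ∈ N, ∀ x, HasXc (P.freyCurve⁄Kbar) (Q : (P.freyCurve⁄Kbar).Point) x →
        A.valuation x ≤ 1) ∨
    (∀ R : Submodule.torsionBy ℤ (P.freyCurve⁄Kbar).Point P.p, ∀ x,
      HasXc (P.freyCurve⁄Kbar) (R : (P.freyCurve⁄Kbar).Point) x → 1 < A.valuation x → R ∈ N) :=
  DichotomyFrey.frey_dichotomy_of t2Shape c2Shape P A hA N hN hcard

/-- **Dichotomy at `p` for the Frey curve** (canonical `InKer` form): a Galois-stable line `N`
either meets the kernel of reduction at `A ∣ p` trivially, or contains every `p`-torsion point of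
the kernel of reduction. -/
theorem frey_dichotomy (P : FreyPackage)
    (A : ValuationSubring Kbar) (hA : A.LiesOverPrime P.p)
    (N : Submodule (ZMod P.p) (Submodule.torsionBy ℤ (P.freyCurve⁄Kbar).Point P.p))
    (hN : IsGaloisStable ℚ N) (hcard : Nat.card N = P.p) :
    (∀ Q ∈ N, LegP.InKer A (Q : (P.freyCurve⁄Kbar).Point) → Q = 0) ∨
    (∀ R : Submodule.torsionBy ℤ (P.freyCurve⁄Kbar).Point P.p,
      LegP.InKer A (R : (P.freyCurve⁄Kbar).Point) → R ∈ N) :=
  DichotomyFrey.frey_dichotomy_inKer_of t2Shape c2Shape P A hA N hN hcard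

end Fermat.Agent.S13.Dichotomy
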