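import Mathlib
import Fermat.Prelude.Def_FLTPrelim_Ramification

set_option autoImplicit false

/-!
# S13: integrality facts for the Frey model

`W := P.freyCurve⁄L` is `y² + xy = x³ + a₂ x² + a₄ x` with `a₂ = (b^p - 1 - a^p)/4`,
`a₄ = -a^p b^p/16` *integers*.  This file records, for an arbitrary valuation `v` on a field `L`
of characteristic zero (and then for the valuation of a valuation subring of `ℚ̄`):

* all Weierstrass coefficients have `v ≤ 1`;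
* at `2` (`v 2 < 1`): `v b₂ = 1`, `v a₄ < 1`, `a₄ ≠ 0`, `v a₄ = v 2 ^ m` with `0 < m`, `¬ p ∣ 2 * m`;
* at a prime `q` (`v q < 1`): integers prime to `q` have `v = 1`; `q ≠ 2 → v 2 = 1`;
  `q ∣ a b → v a₄ < 1 ∧ v b₂ = 1`; `q ∤ 2abc → v Δ = 1`;
* at `p`: `v k = 1` for `0 < k < p`.
-/

namespace Fermat.Agent.S13.FreyVal

open WeierstrassCurve WeierstrassCurve.Affine

/-! ### Integer facts -/

section Ints

theorem two_dvd_b (P : FreyPackage) : (2 : ℤ) ∣ P.b :=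
  (ZMod.intCast_zmod_eq_zero_iff_dvd P.b 2).1 P.hb2

theorem four_dvd_a_sub_three (P : FreyPackage) : (4 : ℤ) ∣ P.a - 3 := by
  have h3 : ((P.a - 3 : ℤ) : ZMod 4) = 0 := by
    push_cast; rw [P.ha4]; decide
  exact (ZMod.intCast_zmod_eq_zero_iff_dvd _ 4).1 h3

theorem not_two_dvd_a (P : FreyPackage) : ¬ (2 : ℤ) ∣ P.a := by
  obtain ⟨k, hk⟩ := four_dvd_a_sub_three P
  rintro ⟨m, hm⟩
  omega

theorem thirtytwo_dvd_bpow (P : FreyPackage) : (32 : ℤ) ∣ P.b ^ P.p := by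
  obtain ⟨k, hk⟩ := two_dvd_b P
  obtain ⟨m, hm⟩ := Nat.exists_eq_add_of_le P.hp5
  rw [hk, hm, mul_pow, pow_add]
  exact Dvd.dvd.mul_right (Dvd.dvd.mul_right (by norm_num) _) _

theorem four_dvd_apow_sub_three (P : FreyPackage) : (4 : ℤ) ∣ P.a ^ P.p - 3 := by
  have h2 : (4 : ℤ) ∣ P.a - (-1) := by
    obtain ⟨k, hk⟩ := four_dvd_a_sub_three P
    exact ⟨k + 1, by linarith⟩
  have h3 : (4 : ℤ) ∣ P.a ^ P.p - (-1) ^ P.p := h2.trans (sub_dvd_pow_sub_pow _ _ _)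
  rw [P.hp_odd.neg_one_pow] at h3
  obtain ⟨k, hk⟩ := h3
  exact ⟨k - 1, by linarith⟩

theorem four_dvd_num₂ (P : FreyPackage) : (4 : ℤ) ∣ P.b ^ P.p - 1 - P.a ^ P.p := by
  obtain ⟨k, hk⟩ := thirtytwo_dvd_bpow P
  obtain ⟨m, hm⟩ := four_dvd_apow_sub_three P
  exact ⟨8 * k - 1 - m, by linarith⟩

theorem sixteen_dvd_num₄ (P : FreyPackage) : (16 : ℤ) ∣ -(P.a ^ P.p) * (P.b ^ P.p) := by
  obtain ⟨k, hk⟩ := thirtytwo_dvd_bpow P
  exact ⟨-(P.a ^ P.p) * (2 * k), by rw [hk]; ring⟩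

/-- The integer `a₂ = (b^p - 1 - a^p)/4` of the Frey model. -/
def A₂ (P : FreyPackage) : ℤ := (P.b ^ P.p - 1 - P.a ^ P.p) / 4

/-- The integer `a₄ = -a^p b^p/16` of the Frey model. -/
def A₄ (P : FreyPackage) : ℤ := -(P.a ^ P.p) * (P.b ^ P.p) / 16

/-- The integer `b₂ = b^p - a^p` of the Frey model. -/
def B₂ (P : FreyPackage) : ℤ := P.b ^ P.p - P.a ^ P.p

theorem four_mul_A₂ (P : FreyPackage) : 4 * A₂ P = P.b ^ P.p - 1 - P.a ^ P.p :=
  Int.mul_ediv_cancel' (four_dvd_num₂ P)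

theorem sixteen_mul_A₄ (P : FreyPackage) : 16 * A₄ P = -(P.a ^ P.p) * (P.b ^ P.p) :=
  Int.mul_ediv_cancel' (sixteen_dvd_num₄ P)

theorem B₂_eq (P : FreyPackage) : B₂ P = 1 + 4 * A₂ P := by
  rw [four_mul_A₂, B₂]; ring

theorem A₄_ne_zero (P : FreyPackage) : A₄ P ≠ 0 := by
  intro h
  have h1 := sixteen_mul_A₄ P
  rw [h, mul_zero] at h1
  have h2 : P.a ^ P.p * P.b ^ P.p ≠ 0 :=
    mul_ne_zero (pow_ne_zero _ P.ha0) (pow_ne_zero _ P.hb0)
  exact h2 (by linarith)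

theorem freyCurveInt_a₂ (P : FreyPackage) : P.freyCurveInt.a₂ = A₂ P := rfl

theorem freyCurveInt_a₄ (P : FreyPackage) : P.freyCurveInt.a₄ = A₄ P := rfl

/-- A prime cannot divide both `a` and `b`. -/
theorem not_dvd_a_and_b (P : FreyPackage) {q : ℕ} (hq : q.Prime)
    (ha : (q : ℤ) ∣ P.a) (hb : (q : ℤ) ∣ P.b) : False := by
  have h1 : (q : ℤ) ∣ gcd P.a P.b := dvd_gcd ha hb
  rw [P.hgcdab] at h1
  exact (Nat.prime_iff_prime_int.mp hq).not_isUnit (isUnit_of_dvd_one h1)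

/-- `b₂ = b^p - a^p` is prime to every prime dividing `a b`. -/
theorem not_dvd_B₂_of_dvd_ab (P : FreyPackage) {q : ℕ} (hq : q.Prime)
    (hab : (q : ℤ) ∣ P.a * P.b) : ¬ (q : ℤ) ∣ B₂ P := by
  have hq' := Nat.prime_iff_prime_int.mp hq
  intro h
  rcases hq'.dvd_or_dvd hab with ha | hb
  · have h1 : (q : ℤ) ∣ P.b ^ P.p := by
      have := dvd_add h (dvd_pow ha P.hp0)
      simpa [B₂] using this
    exact not_dvd_a_and_b P hq ha (hq'.dvd_of_dvd_pow h1)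
  · have h1 : (q : ℤ) ∣ P.a ^ P.p := by
      have := dvd_sub (dvd_pow hb P.hp0) h
      simpa [B₂] using this
    exact not_dvd_a_and_b P hq (hq'.dvd_of_dvd_pow h1) hb

theorem not_two_dvd_B₂ (P : FreyPackage) : ¬ (2 : ℤ) ∣ B₂ P := by
  have := not_dvd_B₂_of_dvd_ab P Nat.prime_two (Dvd.dvd.mul_left (two_dvd_b P) _)
  simpa using this

/-- `a₄` is divisible by every prime dividing `a b`. -/
theorem dvd_A₄_of_dvd_ab (P : FreyPackage) {q : ℕ} (hq : q.Prime)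
    (hab : (q : ℤ) ∣ P.a * P.b) : (q : ℤ) ∣ A₄ P := by
  have hq' := Nat.prime_iff_prime_int.mp hq
  by_cases h2 : q = 2
  · subst h2
    obtain ⟨k, hk⟩ := thirtytwo_dvd_bpow P
    have h1 := sixteen_mul_A₄ P
    refine ⟨-(P.a ^ P.p) * k, ?_⟩
    rw [hk] at h1
    push_cast
    linarith
  · have h1 : (q : ℤ) ∣ 16 * A₄ P := by
      rw [sixteen_mul_A₄]
      have h3 : (q : ℤ) ∣ P.a ^ P.p * P.b ^ P.p := by
        rcases hq'.dvd_or_dvd hab with ha | hb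
        · exact Dvd.dvd.mul_right (dvd_pow ha P.hp0) _
        · exact Dvd.dvd.mul_left (dvd_pow hb P.hp0) _
      simpa using h3
    rcases hq'.dvd_or_dvd h1 with h | h
    · exfalso
      have h4 : (q : ℤ) ∣ 2 ^ 4 := by norm_num; exact h
      have h5 : (q : ℤ) ∣ 2 := hq'.dvd_of_dvd_pow h4
      have h6 : q ∣ 2 := by exact_mod_cast h5
      exact h2 ((Nat.prime_dvd_prime_iff_eq hq Nat.prime_two).mp h6)
    · exact h

theorem two_dvd_A₄ (P : FreyPackage) : (2 : ℤ) ∣ A₄ P := by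
  have := dvd_A₄_of_dvd_ab P Nat.prime_two (Dvd.dvd.mul_left (two_dvd_b P) _)
  simpa using this

/-- The exact `2`-adic shape of `a₄`: `a₄ = 2 ^ m * u` with `u` odd, `0 < m` and `p ∤ 2 m`
(`m = p · v₂(b) - 4`). -/
theorem A₄_two_adic (P : FreyPackage) :
    ∃ (m : ℕ) (u : ℤ), 0 < m ∧ ¬ P.p ∣ 2 * m ∧ ¬ (2 : ℤ) ∣ u ∧ A₄ P = 2 ^ m * u := by
  -- `b = 2 ^ k * b'` with `b'` odd
  obtain ⟨k, b', hb', hb⟩ : ∃ (k : ℕ) (b' : ℤ), ¬ (2 : ℤ) ∣ b' ∧ P.b = 2 ^ k * b' := by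
    have hfin : FiniteMultiplicity (2 : ℤ) P.b :=
      Int.finiteMultiplicity_iff.mpr ⟨by norm_num, P.hb0⟩
    obtain ⟨b', hb1, hb2⟩ := hfin.exists_eq_pow_mul_and_not_dvd
    exact ⟨_, b', hb2, hb1⟩
  have hk : 0 < k := by
    rcases Nat.eq_zero_or_pos k with h0 | h0
    · exfalso
      subst h0
      rw [pow_zero, one_mul] at hb
      exact hb' (hb ▸ two_dvd_b P)
    · exact h0
  have h5 := P.hp5
  have hpk : 5 ≤ P.p * k := le_trans h5 (Nat.le_mul_of_pos_right _ hk)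
  refine ⟨P.p * k - 4, -(P.a ^ P.p) * b' ^ P.p, by omega, ?_, ?_, ?_⟩
  · -- `p ∤ 2 (p k - 4)`
    intro hdvd
    have h1 : P.p ∣ 2 * (P.p * k) := Dvd.dvd.mul_left (Dvd.intro _ rfl) _
    have h2 : 2 * (P.p * k) = 2 * (P.p * k - 4) + 8 := by omega
    have h3 : P.p ∣ 8 := by
      rw [h2] at h1
      exact (Nat.dvd_add_right hdvd).mp h1
    have h4 : P.p ∣ 2 ^ 3 := by norm_num; exact h3
    have h6 : P.p ∣ 2 := P.pp.dvd_of_dvd_pow h4
    have h7 := Nat.le_of_dvd (by norm_num) h6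
    omega
  · -- odd
    have h2' : Prime (2 : ℤ) := Int.prime_two
    intro h
    rcases h2'.dvd_or_dvd h with h1 | h1
    · rw [dvd_neg] at h1
      exact not_two_dvd_a P (h2'.dvd_of_dvd_pow h1)
    · exact hb' (h2'.dvd_of_dvd_pow h1)
  · have h1 := sixteen_mul_A₄ P
    have h2 : P.b ^ P.p = 2 ^ (P.p * k) * b' ^ P.p := by
      rw [hb, mul_pow, ← pow_mul, mul_comm k]
    have h3 : (2 : ℤ) ^ (P.p * k) = 16 * 2 ^ (P.p * k - 4) := by
      have : P.p * k = 4 + (P.p * k - 4) := by omega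
      conv_lhs => rw [this, pow_add]
      norm_num
    rw [h2, h3] at h1
    have h4 : (16 : ℤ) * A₄ P = 16 * (2 ^ (P.p * k - 4) * (-(P.a ^ P.p) * b' ^ P.p)) := by
      rw [h1]; ring
    exact mul_left_cancel₀ (by norm_num) h4

/-- `2^8 Δ = (a b c)^{2p}` in terms of the integers `A₂`, `A₄`. -/
theorem disc_identity (P : FreyPackage) :
    256 * (A₄ P ^ 2 * ((1 + 4 * A₂ P) ^ 2 - 64 * A₄ P)) = (P.a * P.b * P.c) ^ (2 * P.p) := by
  have hA := four_mul_A₂ P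
  have hB := sixteen_mul_A₄ P
  have hc : P.c ^ P.p = P.a ^ P.p + P.b ^ P.p := P.hFLT.symm
  have e1 : (1 + 4 * A₂ P) = P.b ^ P.p - P.a ^ P.p := by linarith
  have e2 : 64 * A₄ P = - 4 * (P.a ^ P.p * P.b ^ P.p) := by linarith
  rw [e1, e2, mul_pow, mul_pow, pow_mul', pow_mul', pow_mul', hc]
  have e3 : 256 * A₄ P ^ 2 = (P.a ^ P.p * P.b ^ P.p) ^ 2 := by
    have : (16 * A₄ P) ^ 2 = (-(P.a ^ P.p) * (P.b ^ P.p)) ^ 2 := by rw [hB]
    linarith [this]
  linear_combination ((P.b ^ P.p - P.a ^ P.p) ^ 2 - -4 * (P.a ^ P.p * P.b ^ P.p)) * e3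

end Ints


/-! ### The coefficients of the Frey model over a field of characteristic zero -/

section Coeffs

variable {L : Type*} [Field L] [Algebra ℚ L]

theorem freyCurve_a₂ (P : FreyPackage) : P.freyCurve.a₂ = ((A₂ P : ℤ) : ℚ) := by
  have h := congrArg (Int.cast : ℤ → ℚ) (four_mul_A₂ P)
  push_cast at h
  change ((P.b : ℚ) ^ P.p - 1 - (P.a : ℚ) ^ P.p) / 4 = _
  rw [← h]; ring

theorem freyCurve_a₄ (P : FreyPackage) : P.freyCurve.a₄ = ((A₄ P : ℤ) : ℚ) := by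
  have h := congrArg (Int.cast : ℤ → ℚ) (sixteen_mul_A₄ P)
  push_cast at h
  change -((P.a : ℚ) ^ P.p) * ((P.b : ℚ) ^ P.p) / 16 = _
  rw [← h]; ring

theorem a₁ (P : FreyPackage) : (P.freyCurve⁄L).a₁ = 1 := by
  simp [FreyPackage.freyCurve, WeierstrassCurve.baseChange]

theorem a₂ (P : FreyPackage) : (P.freyCurve⁄L).a₂ = ((A₂ P : ℤ) : L) := by
  change algebraMap ℚ L P.freyCurve.a₂ = _
  rw [freyCurve_a₂, map_intCast]

theorem a₃ (P : FreyPackage) : (P.freyCurve⁄L).a₃ = 0 := by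
  simp [FreyPackage.freyCurve, WeierstrassCurve.baseChange]

theorem a₄ (P : FreyPackage) : (P.freyCurve⁄L).a₄ = ((A₄ P : ℤ) : L) := by
  change algebraMap ℚ L P.freyCurve.a₄ = _
  rw [freyCurve_a₄, map_intCast]

theorem a₆ (P : FreyPackage) : (P.freyCurve⁄L).a₆ = 0 := by
  simp [FreyPackage.freyCurve, WeierstrassCurve.baseChange]

theorem b₂ (P : FreyPackage) : (P.freyCurve⁄L).b₂ = ((B₂ P : ℤ) : L) := by
  rw [WeierstrassCurve.b₂, a₁, a₂, B₂_eq]
  push_cast; ring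

theorem b₄ (P : FreyPackage) : (P.freyCurve⁄L).b₄ = 2 * ((A₄ P : ℤ) : L) := by
  rw [WeierstrassCurve.b₄, a₁, a₃, a₄]
  ring

theorem b₆ (P : FreyPackage) : (P.freyCurve⁄L).b₆ = 0 := by
  rw [WeierstrassCurve.b₆, a₃, a₆]
  ring

theorem b₈ (P : FreyPackage) : (P.freyCurve⁄L).b₈ = -((A₄ P : ℤ) : L) ^ 2 := by
  rw [WeierstrassCurve.b₈, a₁, a₂, a₃, a₄, a₆]
  ring

theorem a₄_ne_zero (P : FreyPackage) : (P.freyCurve⁄L).a₄ ≠ 0 := by
  have : CharZero L := charZero_of_injective_algebraMap (algebraMap ℚ L).injective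
  rw [a₄]
  exact_mod_cast A₄_ne_zero P

theorem disc (P : FreyPackage) :
    256 * (P.freyCurve⁄L).Δ = (((P.a * P.b * P.c : ℤ) : L)) ^ (2 * P.p) := by
  have h := congrArg (Int.cast : ℤ → L) (disc_identity P)
  rw [WeierstrassCurve.Δ, b₂, b₄, b₆, b₈, B₂_eq]
  push_cast at h ⊢
  linear_combination h

end Coeffs

/-! ### Valuations of integers -/

section Val

variable {L : Type*} [Field L] {Γ₀ : Type*} [LinearOrderedCommGroupWithZero Γ₀]
  (v : Valuation L Γ₀)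

theorem val_natCast_le_one (n : ℕ) : v (n : L) ≤ 1 := by
  induction n with
  | zero => simp
  | succ n ih =>
    rw [Nat.cast_succ]
    exact le_trans (v.map_add _ _) (max_le ih (by rw [map_one]))

theorem val_intCast_le_one (n : ℤ) : v (n : L) ≤ 1 := by
  obtain ⟨k, rfl | rfl⟩ := Int.eq_nat_or_neg n
  · rw [Int.cast_natCast]; exact val_natCast_le_one v k
  · rw [Int.cast_neg, Valuation.map_neg, Int.cast_natCast]; exact val_natCast_le_one v k

/-- Integers prime to `q` are units for a valuation with `v q < 1`. -/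
theorem val_intCast_eq_one {q : ℕ} (hq : q.Prime) (hv : v (q : L) < 1) {n : ℤ}
    (hn : ¬ (q : ℤ) ∣ n) : v (n : L) = 1 := by
  refine le_antisymm (val_intCast_le_one v n) (not_lt.mp fun hlt => ?_)
  have hcop : IsCoprime n (q : ℤ) :=
    ((Nat.prime_iff_prime_int.mp hq).coprime_iff_not_dvd.mpr hn).symm
  obtain ⟨u, w, huw⟩ := hcop
  have h1 : v ((u : L) * n + (w : L) * q) < 1 := by
    refine v.map_add_lt ?_ ?_
    · rw [map_mul]
      calc v (u : L) * v (n : L) ≤ 1 * v (n : L) := by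
            gcongr; exact val_intCast_le_one v u
        _ < 1 := by rw [one_mul]; exact hlt
    · rw [map_mul]
      calc v (w : L) * v (q : L) ≤ 1 * v (q : L) := by
            gcongr; exact val_intCast_le_one v w
        _ < 1 := by rw [one_mul]; exact hv
  have h2 : ((u : L) * n + (w : L) * q) = 1 := by exact_mod_cast congrArg (Int.cast : ℤ → L) huw
  rw [h2, map_one] at h1
  exact lt_irrefl _ h1

/-- Integers divisible by `q` are non-units for a valuation with `v q < 1`. -/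
theorem val_intCast_lt_one {q : ℕ} (hv : v (q : L) < 1) {n : ℤ}
    (hn : (q : ℤ) ∣ n) : v (n : L) < 1 := by
  obtain ⟨k, rfl⟩ := hn
  push_cast
  rw [map_mul]
  calc v (q : L) * v (k : L) ≤ v (q : L) * 1 := by
        gcongr; exact val_intCast_le_one v k
    _ < 1 := by rw [mul_one]; exact hv

/-- Natural numbers `0 < k < q` are units for a valuation with `v q < 1`, `q` prime. -/
theorem val_natCast_eq_one_of_lt {q : ℕ} (hq : q.Prime) (hv : v (q : L) < 1) {k : ℕ}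
    (hk0 : 0 < k) (hkq : k < q) : v (k : L) = 1 := by
  have h : ¬ (q : ℤ) ∣ (k : ℤ) := by
    intro h
    have h1 : q ∣ k := by exact_mod_cast h
    exact absurd (Nat.le_of_dvd hk0 h1) (not_le.mpr hkq)
  exact_mod_cast val_intCast_eq_one v hq hv h

/-- `2` is a unit at odd primes. -/
theorem val_two_eq_one {q : ℕ} (hq : q.Prime) (hq2 : q ≠ 2) (hv : v (q : L) < 1) :
    v (2 : L) = 1 := by
  have h : ¬ (q : ℤ) ∣ (2 : ℤ) := by
    intro h
    have h1 : q ∣ 2 := by exact_mod_cast h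
    exact hq2 ((Nat.prime_dvd_prime_iff_eq hq Nat.prime_two).mp h1)
  exact_mod_cast val_intCast_eq_one v hq hv h

end Val


/-! ### Valuations of the coefficients of the Frey model -/

section FreyVal

variable {L : Type*} [Field L] [Algebra ℚ L] {Γ₀ : Type*} [LinearOrderedCommGroupWithZero Γ₀]
  (v : Valuation L Γ₀)

theorem val_a₁ (P : FreyPackage) : v (P.freyCurve⁄L).a₁ = 1 := by rw [a₁, map_one]

theorem val_a₁_le (P : FreyPackage) : v (P.freyCurve⁄L).a₁ ≤ 1 := (val_a₁ v P).le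

theorem val_a₂_le (P : FreyPackage) : v (P.freyCurve⁄L).a₂ ≤ 1 := by
  rw [a₂]; exact val_intCast_le_one v _

theorem val_a₃_le (P : FreyPackage) : v (P.freyCurve⁄L).a₃ ≤ 1 := by
  rw [a₃, map_zero]; exact zero_le_one

theorem val_a₄_le (P : FreyPackage) : v (P.freyCurve⁄L).a₄ ≤ 1 := by
  rw [a₄]; exact val_intCast_le_one v _

theorem val_a₆_le (P : FreyPackage) : v (P.freyCurve⁄L).a₆ ≤ 1 := by
  rw [a₆, map_zero]; exact zero_le_one

/-- All five Weierstrass coefficients of the Frey model are integral, for every valuation. -/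
theorem val_a_le (P : FreyPackage) :
    v (P.freyCurve⁄L).a₁ ≤ 1 ∧ v (P.freyCurve⁄L).a₂ ≤ 1 ∧ v (P.freyCurve⁄L).a₃ ≤ 1 ∧
      v (P.freyCurve⁄L).a₄ ≤ 1 ∧ v (P.freyCurve⁄L).a₆ ≤ 1 :=
  ⟨val_a₁_le v P, val_a₂_le v P, val_a₃_le v P, val_a₄_le v P, val_a₆_le v P⟩

theorem val_b₂_le (P : FreyPackage) : v (P.freyCurve⁄L).b₂ ≤ 1 := by
  rw [b₂]; exact val_intCast_le_one v _

theorem val_b₄_le (P : FreyPackage) : v (P.freyCurve⁄L).b₄ ≤ 1 := by
  have h : (P.freyCurve⁄L).b₄ = ((2 * A₄ P : ℤ) : L) := by rw [b₄]; push_cast; ring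
  rw [h]; exact val_intCast_le_one v _

theorem val_b₆_le (P : FreyPackage) : v (P.freyCurve⁄L).b₆ ≤ 1 := by
  rw [b₆, map_zero]; exact zero_le_one

theorem val_b₈_le (P : FreyPackage) : v (P.freyCurve⁄L).b₈ ≤ 1 := by
  have h : (P.freyCurve⁄L).b₈ = ((-(A₄ P) ^ 2 : ℤ) : L) := by rw [b₈]; push_cast; ring
  rw [h]; exact val_intCast_le_one v _

/-- All four `b`-invariants of the Frey model are integral, for every valuation. -/
theorem val_b_le (P : FreyPackage) :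
    v (P.freyCurve⁄L).b₂ ≤ 1 ∧ v (P.freyCurve⁄L).b₄ ≤ 1 ∧ v (P.freyCurve⁄L).b₆ ≤ 1 ∧
      v (P.freyCurve⁄L).b₈ ≤ 1 :=
  ⟨val_b₂_le v P, val_b₄_le v P, val_b₆_le v P, val_b₈_le v P⟩

/-- At a prime dividing `a b` (for instance `2`), `b₂ = b^p - a^p` is a unit. -/
theorem val_b₂_of_dvd_ab (P : FreyPackage) {q : ℕ} (hq : q.Prime) (hv : v (q : L) < 1)
    (hab : (q : ℤ) ∣ P.a * P.b) : v (P.freyCurve⁄L).b₂ = 1 := by
  rw [b₂]; exact val_intCast_eq_one v hq hv (not_dvd_B₂_of_dvd_ab P hq hab)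

/-- At a prime dividing `a b` (for instance `2`), `a₄` is a non-unit. -/
theorem val_a₄_of_dvd_ab (P : FreyPackage) {q : ℕ} (hq : q.Prime) (hv : v (q : L) < 1)
    (hab : (q : ℤ) ∣ P.a * P.b) : v (P.freyCurve⁄L).a₄ < 1 := by
  rw [a₄]; exact val_intCast_lt_one v hv (dvd_A₄_of_dvd_ab P hq hab)

/-- At `2`: `b₂` is a unit. -/
theorem val_b₂_two (P : FreyPackage) (h2 : v (2 : L) < 1) : v (P.freyCurve⁄L).b₂ = 1 :=
  val_b₂_of_dvd_ab v P Nat.prime_two (by exact_mod_cast h2)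
    (Dvd.dvd.mul_left (by exact_mod_cast two_dvd_b P) _)

/-- At `2`: `a₄` is a non-unit. -/
theorem val_a₄_two (P : FreyPackage) (h2 : v (2 : L) < 1) : v (P.freyCurve⁄L).a₄ < 1 :=
  val_a₄_of_dvd_ab v P Nat.prime_two (by exact_mod_cast h2)
    (Dvd.dvd.mul_left (by exact_mod_cast two_dvd_b P) _)

/-- At `2`: `v a₄ = v 2 ^ m` with `0 < m` and `p ∤ 2 m` (`m = p · v₂(b) - 4`). -/
theorem val_a₄_two_pow (P : FreyPackage) (h2 : v (2 : L) < 1) :
    ∃ m : ℕ, 0 < m ∧ ¬ P.p ∣ 2 * m ∧ v (P.freyCurve⁄L).a₄ = v (2 : L) ^ m := by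
  obtain ⟨m, u, hm, hpm, hu, hA⟩ := A₄_two_adic P
  refine ⟨m, hm, hpm, ?_⟩
  have hu1 : v (u : L) = 1 :=
    val_intCast_eq_one v Nat.prime_two (by exact_mod_cast h2) (by exact_mod_cast hu)
  rw [a₄, hA]
  push_cast
  rw [map_mul, map_pow, hu1, mul_one]

/-- At a prime `q ∤ 2 a b c` the discriminant of the Frey model is a unit. -/
theorem val_disc_eq_one (P : FreyPackage) {q : ℕ} (hq : q.Prime) (hq2 : q ≠ 2)
    (hv : v (q : L) < 1) (habc : ¬ (q : ℤ) ∣ P.a * P.b * P.c) :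
    v (P.freyCurve⁄L).Δ = 1 := by
  have h1 : v (((P.a * P.b * P.c : ℤ) : L)) = 1 := val_intCast_eq_one v hq hv habc
  have h2 : v (2 : L) = 1 := val_two_eq_one v hq hq2 hv
  have h3 := congrArg v (disc (L := L) P)
  rw [map_mul, map_pow, h1, one_pow] at h3
  have h4 : v (256 : L) = 1 := by
    have : (256 : L) = 2 ^ 8 := by norm_num
    rw [this, map_pow, h2, one_pow]
  rw [h4, one_mul] at h3
  exact h3

/-- The discriminant of the Frey model is nonzero. -/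
theorem disc_ne_zero (P : FreyPackage) : (P.freyCurve⁄L).Δ ≠ 0 := by
  have : CharZero L := charZero_of_injective_algebraMap (algebraMap ℚ L).injective
  intro h
  have h1 := disc (L := L) P
  rw [h, mul_zero] at h1
  have h2 : (((P.a * P.b * P.c : ℤ) : L)) ≠ 0 := by exact_mod_cast P.habc0
  exact pow_ne_zero _ h2 h1.symm

omit [Algebra ℚ L] in
/-- At `p`: the integers `0 < k < p` are units. -/
theorem val_natCast_eq_one_of_lt_p (P : FreyPackage) (hv : v (P.p : L) < 1) {k : ℕ}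
    (hk0 : 0 < k) (hkp : k < P.p) : v (k : L) = 1 :=
  val_natCast_eq_one_of_lt v P.pp hv hk0 hkp

end FreyVal

/-! ### Specialisation to valuation subrings of `ℚ̄` -/

section KbarFacts

local notation "Kbar" => AlgebraicClosure ℚ

theorem val_lt_one_of_mem_nonunits (A : ValuationSubring Kbar) {q : ℕ}
    (hA : (q : Kbar) ∈ A.nonunits) : A.valuation (q : Kbar) < 1 :=
  A.mem_nonunits_iff.mp hA

theorem val_lt_one_of_liesOverPrime (A : ValuationSubring Kbar) {q : ℕ}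
    (hA : A.LiesOverPrime q) : A.valuation (q : Kbar) < 1 :=
  val_lt_one_of_mem_nonunits A hA

theorem val_two_lt_one (A : ValuationSubring Kbar) (hA : (2 : Kbar) ∈ A.nonunits) :
    A.valuation (2 : Kbar) < 1 :=
  A.mem_nonunits_iff.mp hA

/-- At `A ∣ p`: the hypothesis `hunits` of the Newton bound. -/
theorem units_below_p (P : FreyPackage) (A : ValuationSubring Kbar) (hA : A.LiesOverPrime P.p) :
    ∀ k : ℕ, 0 < k → k < P.p → A.valuation (k : Kbar) = 1 := fun _ hk0 hkp =>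
  val_natCast_eq_one_of_lt_p A.valuation P (val_lt_one_of_liesOverPrime A hA) hk0 hkp

/-- The node shape at `2`: `a₃ = a₆ = 0`, `v b₂ = 1`, `v a₄ < 1`, `a₄ ≠ 0`. -/
theorem node_shape_two (P : FreyPackage) (A : ValuationSubring Kbar)
    (hA : (2 : Kbar) ∈ A.nonunits) :
    (P.freyCurve⁄Kbar).a₃ = 0 ∧ (P.freyCurve⁄Kbar).a₆ = 0 ∧
      A.valuation (P.freyCurve⁄Kbar).b₂ = 1 ∧ A.valuation (P.freyCurve⁄Kbar).a₄ < 1 ∧
      (P.freyCurve⁄Kbar).a₄ ≠ 0 :=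
  ⟨a₃ P, a₆ P, val_b₂_two _ P (val_two_lt_one A hA), val_a₄_two _ P (val_two_lt_one A hA),
    a₄_ne_zero P⟩

theorem liesOverPrime_two_iff (A : ValuationSubring Kbar) :
    A.LiesOverPrime 2 ↔ (2 : Kbar) ∈ A.nonunits := by
  unfold ValuationSubring.LiesOverPrime
  rw [Nat.cast_ofNat]

/-- The node shape at a prime `q ∣ a b`: `a₃ = a₆ = 0`, `v b₂ = 1`, `v a₄ < 1`, `a₄ ≠ 0`. -/
theorem node_shape_of_dvd_ab (P : FreyPackage) (A : ValuationSubring Kbar) {q : ℕ}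
    (hq : q.Prime) (hA : A.LiesOverPrime q) (hab : (q : ℤ) ∣ P.a * P.b) :
    (P.freyCurve⁄Kbar).a₃ = 0 ∧ (P.freyCurve⁄Kbar).a₆ = 0 ∧
      A.valuation (P.freyCurve⁄Kbar).b₂ = 1 ∧ A.valuation (P.freyCurve⁄Kbar).a₄ < 1 ∧
      (P.freyCurve⁄Kbar).a₄ ≠ 0 :=
  ⟨a₃ P, a₆ P, val_b₂_of_dvd_ab _ P hq (val_lt_one_of_liesOverPrime A hA) hab,
    val_a₄_of_dvd_ab _ P hq (val_lt_one_of_liesOverPrime A hA) hab, a₄_ne_zero P⟩

/-- Integrality of the Frey model at every valuation subring of `ℚ̄`. -/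
theorem integral_model (P : FreyPackage) (A : ValuationSubring Kbar) :
    A.valuation (P.freyCurve⁄Kbar).a₁ ≤ 1 ∧ A.valuation (P.freyCurve⁄Kbar).a₂ ≤ 1 ∧
      A.valuation (P.freyCurve⁄Kbar).a₃ ≤ 1 ∧ A.valuation (P.freyCurve⁄Kbar).a₄ ≤ 1 ∧
      A.valuation (P.freyCurve⁄Kbar).a₆ ≤ 1 :=
  val_a_le A.valuation P

/-- At `2`: `v a₄ = v 2 ^ m` with `0 < m`, `p ∤ 2 m`. -/
theorem val_a₄_two_pow_Kbar (P : FreyPackage) (A : ValuationSubring Kbar)
    (hA : (2 : Kbar) ∈ A.nonunits) :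
    ∃ m : ℕ, 0 < m ∧ ¬ P.p ∣ 2 * m ∧
      A.valuation (P.freyCurve⁄Kbar).a₄ = A.valuation (2 : Kbar) ^ m :=
  val_a₄_two_pow A.valuation P (val_two_lt_one A hA)

end KbarFacts

end Fermat.Agent.S13.FreyVal
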