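import Mathlib
import Fermat.Prelude.Def_FLTPrelim_Ramification
import Fermat.Agent.S05.SameRed
import Fermat.Agent.S05.Glue
import Fermat.Agent.S05.Shell

set_option autoImplicit false

/-!
# Inertia acts unipotently modulo the kernel of reduction (S13, local package)

For a Weierstrass model with a node at the origin (`a₃ = a₆ = 0`, `v a₄ < 1`, `v (a₁² + 4 a₂) = 1`;
any residue characteristic) and a field automorphism `f` congruent to the identity modulo the
maximal ideal, the operator `D = f - 1` on points satisfies `D (D Q) ∈ E₁ ∪ {O}` for every point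
`Q`, where `E₁` is the set of affine points with non-integral `x`-coordinate.
-/

namespace Fermat.Agent.S13.InertiaSq

open WeierstrassCurve WeierstrassCurve.Affine

variable {K : Type*} [Field K] {Γ₀ : Type*} [LinearOrderedCommGroupWithZero Γ₀]
  (v : Valuation K Γ₀)

/-- A root of a monic quadratic with integral coefficients is integral. -/
lemma val_le_one_of_sq_eq {w c₁ c₀ : K} (h : w ^ 2 = c₁ * w + c₀) (h₁ : v c₁ ≤ 1) (h₀ : v c₀ ≤ 1) :
    v w ≤ 1 := by
  by_contra hw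
  rw [not_le] at hw
  have hw0 : 0 < v w := lt_trans zero_lt_one hw
  have h2 : v w * v w ≤ v w := by
    have : v (w ^ 2) ≤ v w := by
      rw [h]
      refine v.map_add_le ?_ (h₀.trans hw.le)
      rw [map_mul]
      calc v c₁ * v w ≤ 1 * v w := by gcongr
        _ = v w := one_mul _
    rwa [map_pow, pow_two] at this
  have h3 : v w * v w ≤ v w * 1 := by rwa [mul_one]
  have h4 : v w ≤ 1 := le_of_mul_le_mul_left h3 hw0
  exact absurd hw (not_lt.mpr h4)

lemma val_two_le_one : v (2 : K) ≤ 1 := by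
  have : (2 : K) = 1 + 1 := by norm_num
  rw [this]
  exact v.map_add_le (le_of_eq v.map_one) (le_of_eq v.map_one)

section Points

variable [DecidableEq K]

/-- `Q` is zero or an affine point with non-integral `x`-coordinate (kernel of reduction). -/
def InE1 (W : Affine K) (Q : W.Point) : Prop :=
  Q = 0 ∨ ∃ (x y : K) (h : W.Nonsingular x y), Q = Point.some x y h ∧ 1 < v x

/-- `Q` is zero or an affine point whose `x`-coordinate is not in the maximal ideal. -/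
def InE0 (W : Affine K) (Q : W.Point) : Prop :=
  Q = 0 ∨ ∃ (x y : K) (h : W.Nonsingular x y), Q = Point.some x y h ∧ 1 ≤ v x

omit [DecidableEq K] in
lemma InE1.inE0 {W : Affine K} {Q : W.Point} (h : InE1 v W Q) : InE0 v W Q := by
  rcases h with h | ⟨x, y, hxy, rfl, hx⟩
  · exact Or.inl h
  · exact Or.inr ⟨x, y, hxy, rfl, hx.le⟩

/-- (R3) The sum of a point of `E₁` and an integral affine point is an integral affine point. -/
theorem add_integral (W : Affine K) (h₁ : v W.a₁ ≤ 1) (h₂ : v W.a₂ ≤ 1) (h₃ : v W.a₃ ≤ 1)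
    (h₄ : v W.a₄ ≤ 1) (h₆ : v W.a₆ ≤ 1) {xS yS xD yD : K} (hS : W.Nonsingular xS yS)
    (hD : W.Nonsingular xD yD) (hxS : 1 < v xS) (hxD : v xD ≤ 1) :
    ∃ (x3 y3 : K) (h3 : W.Nonsingular x3 y3),
      Point.some xS yS hS + Point.some xD yD hD = Point.some x3 y3 h3 ∧ v x3 ≤ 1 := by
  have hne : xS ≠ xD := by
    rintro rfl
    exact absurd hxS (not_lt.mpr hxD)
  have hd : xS - xD ≠ 0 := sub_ne_zero.mpr hne
  have hxS0 : xS ≠ 0 := by
    rintro rfl
    rw [map_zero] at hxS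
    exact absurd hxS (not_lt.mpr zero_le_one)
  refine ⟨_, _, _, Point.add_of_X_ne hne, ?_⟩
  rw [Affine.slope_of_X_ne hne]
  have ES := (W.equation_iff xS yS).mp hS.1
  have ED := (W.equation_iff xD yD).mp hD.1
  have hyD : v yD ≤ 1 := Fermat.Agent.S05.SameRed.val_y_le_one v W h₁ h₂ h₃ h₄ h₆ hD.1 hxD
  obtain ⟨t, ht⟩ : ∃ t : K, t = xS⁻¹ := ⟨_, rfl⟩
  obtain ⟨w, hw⟩ : ∃ w : K, w = yS * t ^ 2 := ⟨_, rfl⟩
  have hvt : v t < 1 := by
    rw [ht, map_inv₀]
    exact inv_lt_one_of_one_lt₀ hxS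
  have hxt : xS * t = 1 := by rw [ht]; exact mul_inv_cancel₀ hxS0
  have ht' : t ∈ v.integer := hvt.le
  have ha₁ : W.a₁ ∈ v.integer := h₁
  have ha₂ : W.a₂ ∈ v.integer := h₂
  have ha₃ : W.a₃ ∈ v.integer := h₃
  have ha₄ : W.a₄ ∈ v.integer := h₄
  have ha₆ : W.a₆ ∈ v.integer := h₆
  have hxD' : xD ∈ v.integer := hxD
  have hyD' : yD ∈ v.integer := hyD
  have h2' : (2 : K) ∈ v.integer := val_two_le_one v
  have h1' : (1 : K) ∈ v.integer := one_mem _
  -- `w = y / x²` is integral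
  have hvw : v w ≤ 1 := by
    refine val_le_one_of_sq_eq v (c₁ := -(W.a₁ * t + W.a₃ * t ^ 2))
      (c₀ := t + W.a₂ * t ^ 2 + W.a₄ * t ^ 3 + W.a₆ * t ^ 4) ?_ ?_ ?_
    · have e : w ^ 2 + (W.a₁ * t + W.a₃ * t ^ 2) * w =
          (yS ^ 2 + W.a₁ * xS * yS + W.a₃ * yS) * t ^ 4 := by
        rw [hw]
        linear_combination (-(W.a₁ * yS * t ^ 3)) * hxt
      rw [ES] at e
      have e' : (xS ^ 3 + W.a₂ * xS ^ 2 + W.a₄ * xS + W.a₆) * t ^ 4 =
          t + W.a₂ * t ^ 2 + W.a₄ * t ^ 3 + W.a₆ * t ^ 4 := by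
        linear_combination (t * (xS ^ 2 * t ^ 2 + xS * t + 1) + W.a₂ * t ^ 2 * (xS * t + 1)
          + W.a₄ * t ^ 3) * hxt
      linear_combination e + e'
    · have : -(W.a₁ * t + W.a₃ * t ^ 2) ∈ v.integer := by
        repeat' first | assumption | apply add_mem | apply sub_mem | apply mul_mem | apply neg_mem | apply pow_mem
      exact this
    · have : t + W.a₂ * t ^ 2 + W.a₄ * t ^ 3 + W.a₆ * t ^ 4 ∈ v.integer := by
        repeat' first | assumption | apply add_mem | apply sub_mem | apply mul_mem | apply neg_mem | apply pow_mem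
      exact this
  have hw' : w ∈ v.integer := hvw
  obtain ⟨lam, hlam⟩ : ∃ lam : K, lam = (yS - yD) / (xS - xD) := ⟨_, rfl⟩
  rw [← hlam]
  have hlamd : lam * (xS - xD) = yS - yD := by rw [hlam]; exact div_mul_cancel₀ _ hd
  have key : W.addX xS xD lam * (xS - xD) ^ 2 =
      (xS * xD + W.a₄) * (xS + xD) + 2 * W.a₂ * xS * xD + 2 * W.a₆
        - W.a₁ * (xS * yD + xD * yS) - W.a₃ * (yS + yD) - 2 * yS * yD := by
    rw [Affine.addX]
    linear_combination (lam * (xS - xD) + (yS - yD) + W.a₁ * (xS - xD)) * hlamd + ES + ED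
  obtain ⟨M, hM⟩ : ∃ M : K, M = (xD + W.a₄ * t) * (1 + xD * t) + 2 * W.a₂ * xD * t
      + 2 * W.a₆ * t ^ 2 - W.a₁ * (yD * t + xD * w) - W.a₃ * (w + yD * t ^ 2) - 2 * w * yD :=
    ⟨_, rfl⟩
  have hMint : v M ≤ 1 := by
    have : M ∈ v.integer := by
      rw [hM]
      repeat' first | assumption | apply add_mem | apply sub_mem | apply mul_mem | apply neg_mem | apply pow_mem
    exact this
  have key2 : W.addX xS xD lam * (1 - xD * t) ^ 2 = M := by
    have e1 : (xS - xD) = xS * (1 - xD * t) := by linear_combination xD * hxt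
    have e3 : (xS * xD + W.a₄) * (xS + xD) + 2 * W.a₂ * xS * xD + 2 * W.a₆
        - W.a₁ * (xS * yD + xD * yS) - W.a₃ * (yS + yD) - 2 * yS * yD = xS ^ 2 * M := by
      rw [hM, hw, ht]
      field_simp
    have e2 : W.addX xS xD lam * (xS * (1 - xD * t)) ^ 2 = xS ^ 2 * M := by
      rw [← e1, key, e3]
    have hx2 : xS ^ 2 ≠ 0 := pow_ne_zero 2 hxS0
    apply mul_left_cancel₀ hx2
    rw [← e2]
    ring
  have hunit : v (1 - xD * t) = 1 := by
    apply v.map_one_sub_of_lt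
    rw [map_mul]
    calc v xD * v t ≤ 1 * v t := by gcongr
      _ = v t := one_mul _
      _ < 1 := hvt
  have : v (W.addX xS xD lam) = v M := by
    rw [← key2, map_mul, map_pow, hunit, one_pow, mul_one]
  rw [this]
  exact hMint

section Map

variable {R S : Type*} [CommRing R] [CommRing S] [Algebra R S] [Algebra R K] [Algebra S K]
  [IsScalarTower R S K]

omit [DecidableEq K] in
lemma one_lt_val_map (f : K →ₐ[S] K) (hf : ∀ x, v x ≤ 1 → v (f x - x) < 1) {x : K}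
    (hx : 1 < v x) : 1 < v (f x) := by
  have hx0 : x ≠ 0 := by
    rintro rfl
    rw [map_zero] at hx
    exact absurd hx (not_lt.mpr zero_le_one)
  have h1 : v x⁻¹ < 1 := by
    rw [map_inv₀]
    exact inv_lt_one_of_one_lt₀ hx
  have h2 := hf x⁻¹ h1.le
  have h3 : v (f x⁻¹) < 1 := by
    have e : f x⁻¹ = (f x⁻¹ - x⁻¹) + x⁻¹ := by ring
    rw [e]
    exact v.map_add_lt h2 h1
  rw [map_inv₀, map_inv₀] at h3
  have hfx0 : f x ≠ 0 := (map_ne_zero f).mpr hx0
  have hpos : 0 < v (f x) := by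
    rw [pos_iff_ne_zero]; exact (v.ne_zero_iff).mpr hfx0
  exact (inv_lt_one₀ hpos).mp h3

/-- (R3) `f Q - Q ∈ E₁ ∪ {O}` for `Q ∈ E₁`. -/
theorem map_sub_mem_E1_of_E1 (W' : Affine R) (f : K →ₐ[S] K)
    (hf : ∀ x, v x ≤ 1 → v (f x - x) < 1)
    (h₁ : v (W'⁄K).a₁ ≤ 1) (h₂ : v (W'⁄K).a₂ ≤ 1) (h₃ : v (W'⁄K).a₃ ≤ 1)
    (h₄ : v (W'⁄K).a₄ ≤ 1) (h₆ : v (W'⁄K).a₆ ≤ 1)
    {x y : K} (h : (W'⁄K).Nonsingular x y) (hx : 1 < v x) :
    InE1 v (W'⁄K) (Point.map f (Point.some x y h) - Point.some x y h) := by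
  obtain ⟨D, hD⟩ : ∃ D, D = Point.map f (Point.some x y h) - Point.some x y h := ⟨_, rfl⟩
  rw [← hD]
  rcases D with _ | ⟨xD, yD, hDn⟩
  · exact Or.inl rfl
  · by_cases hxD : 1 < v xD
    · exact Or.inr ⟨xD, yD, hDn, rfl, hxD⟩
    · exfalso
      rw [not_lt] at hxD
      obtain ⟨x3, y3, h3, hsum, hx3⟩ := add_integral v (W'⁄K) h₁ h₂ h₃ h₄ h₆ h hDn hx hxD
      rw [hD, add_sub_cancel, Point.map_some] at hsum
      have := (Point.some.injEq _ _ _ _ _ _).mp hsum
      have hfx := one_lt_val_map v f hf hx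
      rw [this.1] at hfx
      exact absurd hfx (not_lt.mpr hx3)

/-- (R2) `f Q - Q ∈ E₁ ∪ {O}` for an integral affine point `Q` with nonsingular reduction. -/
theorem map_sub_mem_E1_of_nonsingular (W' : Affine R) (f : K →ₐ[S] K)
    (hf : ∀ x, v x ≤ 1 → v (f x - x) < 1)
    (h₁ : v (W'⁄K).a₁ ≤ 1) (h₂ : v (W'⁄K).a₂ ≤ 1) (h₃ : v (W'⁄K).a₃ ≤ 1)
    (h₄ : v (W'⁄K).a₄ ≤ 1) (h₆ : v (W'⁄K).a₆ ≤ 1)
    {x y : K} (h : (W'⁄K).Nonsingular x y) (hx : v x ≤ 1)
    (hns : ¬ (v (2 * y + (W'⁄K).a₁ * x + (W'⁄K).a₃) < 1 ∧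
      v (3 * x ^ 2 + 2 * (W'⁄K).a₂ * x + (W'⁄K).a₄ - (W'⁄K).a₁ * y) < 1)) :
    InE1 v (W'⁄K) (Point.map f (Point.some x y h) - Point.some x y h) := by
  have hy : v y ≤ 1 := Fermat.Agent.S05.SameRed.val_y_le_one v _ h₁ h₂ h₃ h₄ h₆ h.1 hx
  rw [Point.map_some]
  by_cases hfix : f x = x ∧ f y = y
  · left
    have : Point.some (f x) (f y) ((W'.baseChange_nonsingular f.injective ..).mpr h) =
        Point.some x y h := by
      rw [Point.some.injEq]; exact hfix
    rw [this, sub_self]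
  · right
    obtain ⟨x3, y3, h3, hsub, hx3⟩ := Fermat.Agent.S05.SameRed.same_red_sub v (W'⁄K) h₁ h₂
      ((W'.baseChange_nonsingular f.injective ..).mpr h) h hx (hf x hx) (hf y hy) hns hfix
    exact ⟨x3, y3, h3, hsub, hx3⟩

end Map

omit [DecidableEq K] in
/-- Node model: an integral point with unit `x`-coordinate has nonsingular reduction. -/
lemma node_nonsingular_reduction (W : Affine K) (ha₃ : W.a₃ = 0) (ha₆ : W.a₆ = 0)
    (h₁ : v W.a₁ ≤ 1) (h₄ : v W.a₄ < 1)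
    (hb₂ : v (W.a₁ ^ 2 + 4 * W.a₂) = 1) {x y : K} (hE : W.Equation x y) (hx : v x = 1) :
    ¬ (v (2 * y + W.a₁ * x + W.a₃) < 1 ∧
      v (3 * x ^ 2 + 2 * W.a₂ * x + W.a₄ - W.a₁ * y) < 1) := by
  rintro ⟨hD, hN⟩
  have E := (W.equation_iff x y).mp hE
  rw [ha₃, ha₆] at E
  rw [ha₃] at hD
  have h2 : v (2 : K) ≤ 1 := val_two_le_one v
  have h4 : v (4 : K) ≤ 1 := by
    have : (4 : K) = 2 * 2 := by norm_num
    rw [this, map_mul]
    exact mul_le_one' h2 h2
  -- [I] `v (4 x + b₂) < 1`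
  have hI : v (4 * x + (W.a₁ ^ 2 + 4 * W.a₂)) < 1 := by
    have e : (2 * y + W.a₁ * x + 0) ^ 2 =
        x ^ 2 * (4 * x + (W.a₁ ^ 2 + 4 * W.a₂)) + 4 * W.a₄ * x := by
      linear_combination 4 * E
    have h5 : v ((2 * y + W.a₁ * x + 0) ^ 2) < 1 := by
      rw [map_pow]
      exact pow_lt_one' hD (by norm_num)
    have h6 : v (4 * W.a₄ * x) < 1 := by
      rw [map_mul, map_mul, hx, mul_one]
      calc v 4 * v W.a₄ ≤ 1 * v W.a₄ := by gcongr
        _ = v W.a₄ := one_mul _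
        _ < 1 := h₄
    have h7 : v (x ^ 2 * (4 * x + (W.a₁ ^ 2 + 4 * W.a₂))) < 1 := by
      have e2 : x ^ 2 * (4 * x + (W.a₁ ^ 2 + 4 * W.a₂)) =
          (2 * y + W.a₁ * x + 0) ^ 2 - 4 * W.a₄ * x := by rw [e]; ring
      rw [e2]
      exact v.map_sub_lt h5 h6
    rwa [map_mul, map_pow, hx, one_pow, one_mul] at h7
  -- [II] `v (6 x + b₂) < 1`
  have hII : v (6 * x + (W.a₁ ^ 2 + 4 * W.a₂)) < 1 := by
    have e : x * (6 * x + (W.a₁ ^ 2 + 4 * W.a₂)) =
        2 * (3 * x ^ 2 + 2 * W.a₂ * x + W.a₄ - W.a₁ * y) + W.a₁ * (2 * y + W.a₁ * x + 0)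
          - 2 * W.a₄ := by ring
    have h5 : v (x * (6 * x + (W.a₁ ^ 2 + 4 * W.a₂))) < 1 := by
      rw [e]
      refine v.map_sub_lt (v.map_add_lt ?_ ?_) ?_
      · rw [map_mul]
        calc v 2 * v (3 * x ^ 2 + 2 * W.a₂ * x + W.a₄ - W.a₁ * y)
            ≤ 1 * v (3 * x ^ 2 + 2 * W.a₂ * x + W.a₄ - W.a₁ * y) := by gcongr
          _ = _ := one_mul _
          _ < 1 := hN
      · rw [map_mul]
        calc v W.a₁ * v (2 * y + W.a₁ * x + 0) ≤ 1 * v (2 * y + W.a₁ * x + 0) := by gcongr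
          _ = _ := one_mul _
          _ < 1 := hD
      · rw [map_mul]
        calc v 2 * v W.a₄ ≤ 1 * v W.a₄ := by gcongr
          _ = v W.a₄ := one_mul _
          _ < 1 := h₄
    rwa [map_mul, hx, one_mul] at h5
  have h2x : v (2 : K) < 1 := by
    have e : (2 : K) * x = (6 * x + (W.a₁ ^ 2 + 4 * W.a₂)) - (4 * x + (W.a₁ ^ 2 + 4 * W.a₂)) := by
      ring
    have : v ((2 : K) * x) < 1 := by
      rw [e]; exact v.map_sub_lt hII hI
    rwa [map_mul, hx, mul_one] at this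
  have h4x : v (4 * x) < 1 := by
    have : (4 : K) = 2 * 2 := by norm_num
    rw [this, map_mul, map_mul, hx, mul_one]
    calc v 2 * v 2 ≤ 1 * v 2 := by gcongr
      _ = v 2 := one_mul _
      _ < 1 := h2x
  have : v (W.a₁ ^ 2 + 4 * W.a₂) < 1 := by
    have e : W.a₁ ^ 2 + 4 * W.a₂ = (4 * x + (W.a₁ ^ 2 + 4 * W.a₂)) - 4 * x := by ring
    rw [e]
    exact v.map_sub_lt hI h4x
  rw [hb₂] at this
  exact lt_irrefl _ this

section Node

variable {R S : Type*} [CommRing R] [CommRing S] [Algebra R S] [Algebra R K] [Algebra S K]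
  [IsScalarTower R S K]

/-- (U2) for the node model: if `Q` is zero or has `1 ≤ v x`, then `f Q - Q ∈ E₁ ∪ {O}`. -/
theorem node_U2 (W' : Affine R) (f : K →ₐ[S] K)
    (hf : ∀ x, v x ≤ 1 → v (f x - x) < 1)
    (ha₃ : (W'⁄K).a₃ = 0) (ha₆ : (W'⁄K).a₆ = 0)
    (h₁ : v (W'⁄K).a₁ ≤ 1) (h₂ : v (W'⁄K).a₂ ≤ 1) (h₄ : v (W'⁄K).a₄ < 1)
    (hb₂ : v ((W'⁄K).a₁ ^ 2 + 4 * (W'⁄K).a₂) = 1)
    {Q : (W'⁄K).Point} (hQ : InE0 v (W'⁄K) Q) :
    InE1 v (W'⁄K) (Point.map f Q - Q) := by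
  have h₃ : v (W'⁄K).a₃ ≤ 1 := by rw [ha₃, map_zero]; exact zero_le_one
  have h₆ : v (W'⁄K).a₆ ≤ 1 := by rw [ha₆, map_zero]; exact zero_le_one
  rcases hQ with rfl | ⟨x, y, h, rfl, hx⟩
  · left
    rw [map_zero, sub_zero]
  · rcases hx.lt_or_eq with hx | hx
    · exact map_sub_mem_E1_of_E1 v W' f hf h₁ h₂ h₃ h₄.le h₆ h hx
    · exact map_sub_mem_E1_of_nonsingular v W' f hf h₁ h₂ h₃ h₄.le h₆ h hx.symm.le
        (node_nonsingular_reduction v (W'⁄K) ha₃ ha₆ h₁ h₄ hb₂ h.1 hx.symm)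

/-- (R4) for the node model: a point in the middle region `v a₄ < v x < 1`. -/
theorem node_middle (W' : Affine R) (f : K →ₐ[S] K)
    (hf : ∀ x, v x ≤ 1 → v (f x - x) < 1) (hfv : ∀ x, v (f x) = v x)
    (ha₃ : (W'⁄K).a₃ = 0) (ha₆ : (W'⁄K).a₆ = 0)
    (h₁ : v (W'⁄K).a₁ ≤ 1) (h₂ : v (W'⁄K).a₂ ≤ 1)
    (hb₂ : v ((W'⁄K).a₁ ^ 2 + 4 * (W'⁄K).a₂) = 1)
    {x y : K} (h : (W'⁄K).Nonsingular x y) (hx1 : v x < 1) (hx4 : v (W'⁄K).a₄ < v x) :
    InE0 v (W'⁄K) (Point.map f (Point.some x y h) - Point.some x y h) := by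
  have hvx0 : 0 < v x := lt_of_le_of_lt zero_le hx4
  have hx0 : x ≠ 0 := (v.ne_zero_iff).mp hvx0.ne'
  have hfx0 : f x ≠ 0 := (map_ne_zero f).mpr hx0
  have hP' : (W'⁄K).Nonsingular (f x) (f y) := (W'.baseChange_nonsingular f.injective ..).mpr h
  have E := ((W'⁄K).equation_iff x y).mp h.1
  have E' := ((W'⁄K).equation_iff (f x) (f y)).mp hP'.1
  rw [ha₃, ha₆] at E E'
  obtain ⟨a₁, ha₁⟩ : ∃ a : K, a = (W'⁄K).a₁ := ⟨_, rfl⟩
  obtain ⟨a₂, ha₂⟩ : ∃ a : K, a = (W'⁄K).a₂ := ⟨_, rfl⟩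
  obtain ⟨a₄, ha₄⟩ : ∃ a : K, a = (W'⁄K).a₄ := ⟨_, rfl⟩
  rw [← ha₁, ← ha₂, ← ha₄] at E E'
  rw [← ha₁] at h₁
  rw [← ha₂] at h₂
  rw [← ha₁, ← ha₂] at hb₂
  rw [← ha₄] at hx4
  -- `u = y / x`
  obtain ⟨u, hu⟩ : ∃ u : K, u = y / x := ⟨_, rfl⟩
  have hy : y = u * x := by rw [hu]; field_simp
  obtain ⟨e, he⟩ : ∃ e : K, e = x + a₄ / x := ⟨_, rfl⟩
  have hve : v e < 1 := by
    rw [he]
    refine v.map_add_lt hx1 ?_
    rw [map_div₀]
    exact (div_lt_one₀ hvx0).mpr hx4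
  have hu2 : u ^ 2 = -a₁ * u + (a₂ + e) := by
    rw [hu, he]
    field_simp
    linear_combination E
  have hvu : v u ≤ 1 := by
    refine val_le_one_of_sq_eq v hu2 ?_ ?_
    · rw [Valuation.map_neg]; exact h₁
    · exact v.map_add_le h₂ hve.le
  have h2 : v (2 : K) ≤ 1 := val_two_le_one v
  have h4 : v (4 : K) ≤ 1 := by
    have : (4 : K) = 2 * 2 := by norm_num
    rw [this, map_mul]
    exact mul_le_one' h2 h2
  -- `2 u + a₁` is a unit
  have hc : v (2 * u + a₁) = 1 := by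
    have e1 : (2 * u + a₁) ^ 2 = (a₁ ^ 2 + 4 * a₂) + 4 * e := by linear_combination 4 * hu2
    have e2 : v ((2 * u + a₁) ^ 2) = 1 := by
      rw [e1, v.map_add_eq_of_lt_left, hb₂]
      rw [hb₂, map_mul]
      calc v 4 * v e ≤ 1 * v e := by gcongr
        _ = v e := one_mul _
        _ < 1 := hve
    rw [map_pow] at e2
    exact (pow_eq_one_iff_of_nonneg zero_le (by norm_num)).mp e2
  have hδ : v (f u - u) < 1 := hf u hvu
  have hfu : f y = f u * f x := by rw [hy, map_mul]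
  have hvfu : v (f u) ≤ 1 := by rw [hfv]; exact hvu
  rw [Point.map_some]
  by_cases hxx : f x = x
  · left
    rcases Affine.Y_eq_of_X_eq hP'.1 h.1 hxx with hyy | hyy
    · have : Point.some (f x) (f y) hP' = Point.some x y h := by
        rw [Point.some.injEq]; exact ⟨hxx, hyy⟩
      rw [this, sub_self]
    · exfalso
      rw [Affine.negY, ha₃, ← ha₁, hfu, hxx, hy] at hyy
      have e1 : f u - u = -(2 * u + a₁) := by
        have : (f u - u + (2 * u + a₁)) * x = 0 := by linear_combination hyy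
        rcases mul_eq_zero.mp this with h0 | h0
        · linear_combination h0
        · exact absurd h0 hx0
      rw [e1, Valuation.map_neg, hc] at hδ
      exact lt_irrefl _ hδ
  · right
    have hd : f x - x ≠ 0 := sub_ne_zero.mpr hxx
    rw [sub_eq_add_neg, Point.neg_some]
    refine ⟨_, _, _, Point.add_of_X_ne hxx, ?_⟩
    rw [Affine.slope_of_X_ne hxx]
    obtain ⟨lam, hlam⟩ : ∃ lam : K, lam = (f y - (W'⁄K).negY x y) / (f x - x) := ⟨_, rfl⟩
    rw [← hlam]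
    have hlamd : lam * (f x - x) = f y + y + a₁ * x := by
      rw [hlam, div_mul_cancel₀ _ hd, Affine.negY, ha₃, ← ha₁]; ring
    obtain ⟨B, hB⟩ : ∃ B : K, B = f x + x + 2 * a₂ + a₁ ^ 2 + a₁ * (u + f u) + 2 * f u * u :=
      ⟨_, rfl⟩
    have key : (W'⁄K).addX (f x) x lam * (f x - x) ^ 2 = f x * x * B + a₄ * (f x + x) := by
      rw [Affine.addX, ← ha₁, ← ha₂, hB]
      rw [hfu, hy] at hlamd
      rw [hfu] at E'
      rw [hy] at E
      linear_combination (lam * (f x - x) + (f u * f x + u * x + a₁ * x) + a₁ * (f x - x)) * hlamd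
        + E' + E
    have hvB : v B = 1 := by
      have e1 : B = (a₁ ^ 2 + 4 * a₂) + (f x + x + 2 * e + (f u - u) * (a₁ + 2 * u)) := by
        rw [hB]; linear_combination 2 * hu2
      rw [e1, v.map_add_eq_of_lt_left, hb₂]
      rw [hb₂]
      refine v.map_add_lt (v.map_add_lt (v.map_add_lt ?_ hx1) ?_) ?_
      · rw [hfv]; exact hx1
      · rw [map_mul]
        calc v 2 * v e ≤ 1 * v e := by gcongr
          _ = v e := one_mul _
          _ < 1 := hve
      · rw [map_mul]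
        have : v (a₁ + 2 * u) ≤ 1 := by
          refine v.map_add_le h₁ ?_
          rw [map_mul]
          exact mul_le_one' h2 hvu
        calc v (f u - u) * v (a₁ + 2 * u) ≤ v (f u - u) * 1 := by gcongr
          _ = v (f u - u) := mul_one _
          _ < 1 := hδ
    have hvN : v (f x * x * B + a₄ * (f x + x)) = v x * v x := by
      have e1 : v (f x * x * B) = v x * v x := by
        rw [map_mul, map_mul, hfv, hvB, mul_one]
      rw [v.map_add_eq_of_lt_left, e1]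
      rw [e1, map_mul]
      have e2 : v (f x + x) ≤ v x := v.map_add_le (le_of_eq (hfv x)) le_rfl
      calc v a₄ * v (f x + x) ≤ v a₄ * v x := by gcongr
        _ < v x * v x := by gcongr
    have hvd : v (f x - x) ≤ v x := v.map_sub_le (le_of_eq (hfv x)) le_rfl
    have hvd0 : 0 < v (f x - x) := by
      rw [pos_iff_ne_zero]; exact (v.ne_zero_iff).mpr hd
    by_contra hlt
    rw [not_le] at hlt
    have h5 : v ((W'⁄K).addX (f x) x lam) * v (f x - x) ^ 2 = v x * v x := by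
      rw [← hvN, ← key, map_mul, map_pow]
    have h6 : v ((W'⁄K).addX (f x) x lam) * v (f x - x) ^ 2 < 1 * v (f x - x) ^ 2 := by
      have : 0 < v (f x - x) ^ 2 := pow_pos hvd0 2
      gcongr
    rw [h5, one_mul, pow_two] at h6
    have h7 : v (f x - x) * v (f x - x) ≤ v x * v x := mul_le_mul' hvd hvd
    exact absurd h6 (not_lt.mpr h7)

/-- (R5) for the node model: a point in the lower region `v x ≤ v a₄`; translate by `(0, 0)`. -/
theorem node_lower (W' : Affine R) (f : K →ₐ[S] K)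
    (hf : ∀ x, v x ≤ 1 → v (f x - x) < 1)
    (ha₃ : (W'⁄K).a₃ = 0) (ha₆ : (W'⁄K).a₆ = 0)
    (h₁ : v (W'⁄K).a₁ ≤ 1) (h₂ : v (W'⁄K).a₂ ≤ 1) (h₄ : v (W'⁄K).a₄ < 1)
    (ha₄0 : (W'⁄K).a₄ ≠ 0)
    (hb₂ : v ((W'⁄K).a₁ ^ 2 + 4 * (W'⁄K).a₂) = 1)
    {x y : K} (h : (W'⁄K).Nonsingular x y) (hx4 : v x ≤ v (W'⁄K).a₄) :
    InE1 v (W'⁄K) (Point.map f (Point.some x y h) - Point.some x y h) := by
  have hT : (W'⁄K).Nonsingular 0 0 := (Affine.nonsingular_zero).mpr ⟨ha₆, Or.inr ha₄0⟩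
  have hfT : Point.map f (Point.some 0 0 hT) = Point.some 0 0 hT := by
    rw [Point.map_some, Point.some.injEq]
    exact ⟨map_zero f, map_zero f⟩
  have E := ((W'⁄K).equation_iff x y).mp h.1
  rw [ha₃, ha₆] at E
  -- `Q = P + T` is in `E₀`
  have hQ : InE0 v (W'⁄K) (Point.some x y h + Point.some 0 0 hT) := by
    by_cases hx0 : x = 0
    · left
      have hy0 : y = 0 := by
        rw [hx0] at E
        have : y ^ 2 = 0 := by linear_combination E
        exact pow_eq_zero_iff (two_ne_zero) |>.mp this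
      exact Point.add_of_Y_eq hx0 (by rw [hy0, Affine.negY, ha₃]; ring)
    · right
      refine ⟨_, _, _, Point.add_of_X_ne hx0, ?_⟩
      rw [Affine.slope_of_X_ne hx0]
      have e : (W'⁄K).addX x 0 ((y - 0) / (x - 0)) = (W'⁄K).a₄ / x := by
        rw [Affine.addX, sub_zero, sub_zero, sub_zero]
        have hlx : y / x * x = y := div_mul_cancel₀ _ hx0
        have hx2 : x ^ 2 ≠ 0 := pow_ne_zero 2 hx0
        rw [eq_div_iff hx0]
        apply mul_left_cancel₀ hx0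
        linear_combination (y / x * x + y + (W'⁄K).a₁ * x) * hlx + E
      rw [e, map_div₀]
      have hvx0 : 0 < v x := by
        rw [pos_iff_ne_zero]; exact (v.ne_zero_iff).mpr hx0
      exact (one_le_div₀ hvx0).mpr hx4
  have key := node_U2 v W' f hf ha₃ ha₆ h₁ h₂ h₄ hb₂ hQ
  have e : Point.map f (Point.some x y h + Point.some 0 0 hT) -
      (Point.some x y h + Point.some 0 0 hT) =
      Point.map f (Point.some x y h) - Point.some x y h := by
    rw [map_add, hfT]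
    abel
  rwa [e] at key

/-- (U1) for the node model: `f Q - Q` is zero or has `1 ≤ v x`, for every point `Q`. -/
theorem node_U1 (W' : Affine R) (f : K →ₐ[S] K)
    (hf : ∀ x, v x ≤ 1 → v (f x - x) < 1) (hfv : ∀ x, v (f x) = v x)
    (ha₃ : (W'⁄K).a₃ = 0) (ha₆ : (W'⁄K).a₆ = 0)
    (h₁ : v (W'⁄K).a₁ ≤ 1) (h₂ : v (W'⁄K).a₂ ≤ 1) (h₄ : v (W'⁄K).a₄ < 1)
    (ha₄0 : (W'⁄K).a₄ ≠ 0)
    (hb₂ : v ((W'⁄K).a₁ ^ 2 + 4 * (W'⁄K).a₂) = 1) (Q : (W'⁄K).Point) :
    InE0 v (W'⁄K) (Point.map f Q - Q) := by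
  rcases Q with _ | ⟨x, y, h⟩
  · left
    change Point.map f 0 - 0 = 0
    rw [map_zero, sub_zero]
  · by_cases hx1 : 1 ≤ v x
    · exact (node_U2 v W' f hf ha₃ ha₆ h₁ h₂ h₄ hb₂ (Or.inr ⟨x, y, h, rfl, hx1⟩)).inE0
    · rw [not_le] at hx1
      by_cases hx4 : v (W'⁄K).a₄ < v x
      · exact node_middle v W' f hf hfv ha₃ ha₆ h₁ h₂ hb₂ h hx1 hx4
      · rw [not_lt] at hx4
        exact (node_lower v W' f hf ha₃ ha₆ h₁ h₂ h₄ ha₄0 hb₂ h hx4).inE0

/-- **Node model, any residue characteristic.**  `a₃ = a₆ = 0`, `a₁, a₂` integral, `a₄` in the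
maximal ideal, `b₂ = a₁² + 4a₂` a unit.  If `f` is congruent to the identity modulo the maximal
ideal and preserves the valuation, then `(f - 1)² Q` lies in the kernel of reduction for every
point `Q`. -/
theorem node_sq (W' : Affine R) (f : K →ₐ[S] K)
    (hf : ∀ x, v x ≤ 1 → v (f x - x) < 1) (hfv : ∀ x, v (f x) = v x)
    (ha₃ : (W'⁄K).a₃ = 0) (ha₆ : (W'⁄K).a₆ = 0)
    (h₁ : v (W'⁄K).a₁ ≤ 1) (h₂ : v (W'⁄K).a₂ ≤ 1) (h₄ : v (W'⁄K).a₄ < 1)
    (ha₄0 : (W'⁄K).a₄ ≠ 0)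
    (hb₂ : v ((W'⁄K).a₁ ^ 2 + 4 * (W'⁄K).a₂) = 1) (Q : (W'⁄K).Point) :
    InE1 v (W'⁄K) (Point.map f (Point.map f Q - Q) - (Point.map f Q - Q)) :=
  node_U2 v W' f hf ha₃ ha₆ h₁ h₂ h₄ hb₂ (node_U1 v W' f hf hfv ha₃ ha₆ h₁ h₂ h₄ ha₄0 hb₂ Q)

/-- **Good model.**  Integral Weierstrass model all of whose integral affine points have
nonsingular reduction: `(f - 1) Q` lies in the kernel of reduction for every point `Q`. -/
theorem good_sq (W' : Affine R) (f : K →ₐ[S] K)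
    (hf : ∀ x, v x ≤ 1 → v (f x - x) < 1)
    (h₁ : v (W'⁄K).a₁ ≤ 1) (h₂ : v (W'⁄K).a₂ ≤ 1) (h₃ : v (W'⁄K).a₃ ≤ 1)
    (h₄ : v (W'⁄K).a₄ ≤ 1) (h₆ : v (W'⁄K).a₆ ≤ 1)
    (hgood : ∀ x y : K, (W'⁄K).Equation x y → v x ≤ 1 →
      ¬ (v (2 * y + (W'⁄K).a₁ * x + (W'⁄K).a₃) < 1 ∧
        v (3 * x ^ 2 + 2 * (W'⁄K).a₂ * x + (W'⁄K).a₄ - (W'⁄K).a₁ * y) < 1))
    (Q : (W'⁄K).Point) :
    InE1 v (W'⁄K) (Point.map f Q - Q) := by
  rcases Q with _ | ⟨x, y, h⟩
  · left
    change Point.map f 0 - 0 = 0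
    rw [map_zero, sub_zero]
  · by_cases hx : v x ≤ 1
    · exact map_sub_mem_E1_of_nonsingular v W' f hf h₁ h₂ h₃ h₄ h₆ h hx (hgood x y h.1 hx)
    · rw [not_le] at hx
      exact map_sub_mem_E1_of_E1 v W' f hf h₁ h₂ h₃ h₄ h₆ h hx

end Node

end Points

section Invariance

variable {k L : Type*} [Field k] [Field L] [Algebra k L] [Algebra.IsAlgebraic k L]

/-- An automorphism of an algebraic extension which stabilises a valuation subring preserves its
valuation. -/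
theorem valuation_map_eq (A : ValuationSubring L) (σ : L ≃ₐ[k] L) (hσ : ∀ x, x ∈ A ↔ σ x ∈ A)
    (x : L) : A.valuation (σ x) = A.valuation x := by
  have hmono : ∀ a b : L, A.valuation a ≤ A.valuation b ↔ A.valuation (σ a) ≤ A.valuation (σ b) := by
    intro a b
    by_cases hb : b = 0
    · subst hb
      simp only [map_zero, le_zero_iff, map_eq_zero]
    · have hσb : σ b ≠ 0 := (EmbeddingLike.map_ne_zero_iff).mpr hb
      have h1 : 0 < A.valuation b := by
        rw [pos_iff_ne_zero]; exact (A.valuation.ne_zero_iff).mpr hb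
      have h2 : 0 < A.valuation (σ b) := by
        rw [pos_iff_ne_zero]; exact (A.valuation.ne_zero_iff).mpr hσb
      rw [← div_le_one₀ h1, ← div_le_one₀ h2, ← map_div₀, ← map_div₀, ← map_div₀ σ,
        A.valuation_le_one_iff, A.valuation_le_one_iff]
      exact hσ _
  have key : ∀ y : L, ¬ A.valuation (σ y) < A.valuation y := by
    intro y hy
    have hstep : ∀ n : ℕ, A.valuation ((σ ^ (n + 1)) y) < A.valuation ((σ ^ n) y) := by
      intro n
      induction n with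
      | zero => simpa using hy
      | succ n ih =>
        rw [pow_succ' σ (n + 1), pow_succ' σ n, AlgEquiv.mul_apply, AlgEquiv.mul_apply] at *
        rw [← not_le] at ih ⊢
        intro hle
        apply ih
        rw [hmono]
        exact hle
    have hanti : StrictAnti (fun n : ℕ => A.valuation ((σ ^ n) y)) :=
      strictAnti_nat_of_succ_lt hstep
    have hinj : Function.Injective (fun n : ℕ => (σ ^ n) y) := by
      intro m n hmn
      exact hanti.injective (congrArg A.valuation hmn)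
    have hfin : (Set.range (fun n : ℕ => (σ ^ n) y)).Finite := by
      refine Set.Finite.subset ((minpoly k y).rootSet_finite L) ?_
      rintro _ ⟨n, rfl⟩
      have hy0 : minpoly k y ≠ 0 := minpoly.ne_zero (Algebra.IsIntegral.isIntegral y)
      rw [Polynomial.mem_rootSet_of_ne hy0]
      have := Polynomial.aeval_algHom_apply ((σ ^ n : L ≃ₐ[k] L) : L →ₐ[k] L) y (minpoly k y)
      rw [minpoly.aeval, map_zero] at this
      exact this
    exact (Set.infinite_range_of_injective hinj) hfin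
  rcases lt_trichotomy (A.valuation (σ x)) (A.valuation x) with h | h | h
  · exact absurd h (key x)
  · exact h
  · exfalso
    have hx0 : x ≠ 0 := by
      rintro rfl
      rw [map_zero, map_zero] at h
      exact lt_irrefl _ h
    apply key x⁻¹
    rw [map_inv₀, map_inv₀, map_inv₀]
    have h1 : 0 < A.valuation x := by
      rw [pos_iff_ne_zero]; exact (A.valuation.ne_zero_iff).mpr hx0
    exact (inv_lt_inv₀ (lt_trans h1 h) h1).mpr h

end Invariance

section Transfer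

open Fermat.Agent.S05.VarChange

variable [DecidableEq K]

omit [DecidableEq K] in
/-- Transfer of `InE1` along a change of variables `X = u² x + r` with `u` a unit and `r`
integral. -/
lemma inE1_of_pointMap {W W' : Affine K} {u r s t : K} (H : Rel W W' u r s t) (hu : v u = 1)
    (hr : v r ≤ 1) {Q : W'.Point} (h : InE1 v W (H.pointMap Q)) : InE1 v W' Q := by
  rcases Q with _ | ⟨x, y, hxy⟩
  · exact Or.inl rfl
  · rcases h with h | ⟨X, Y, hXY, heq, hX⟩
    · rw [Rel.pointMap_some] at h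
      exact absurd h (Point.some_ne_zero _)
    · right
      refine ⟨x, y, hxy, rfl, ?_⟩
      rw [Rel.pointMap_some, Point.some.injEq] at heq
      obtain ⟨e1, -⟩ := heq
      by_contra hx
      rw [not_lt] at hx
      have : v X ≤ 1 := by
        rw [← e1]
        refine v.map_add_le ?_ hr
        rw [map_mul, map_pow, hu, one_pow, one_mul]
        exact hx
      exact absurd hX (not_lt.mpr this)

end Transfer

section Frey

local notation "Kbar" => AlgebraicClosure ℚ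

open Fermat.Agent.S05.Shell Fermat.Agent.S05.VarChange Fermat.Agent.S05

theorem frey_two_dvd_b (P : FreyPackage) : (2 : ℤ) ∣ P.b :=
  (ZMod.intCast_zmod_eq_zero_iff_dvd P.b 2).1 P.hb2

theorem frey_thirtytwo_dvd (P : FreyPackage) : (32 : ℤ) ∣ P.b ^ P.p := by
  obtain ⟨k, hk⟩ := frey_two_dvd_b P
  have h5 := P.hp5
  obtain ⟨m, hm⟩ := Nat.exists_eq_add_of_le h5
  rw [hk, hm, mul_pow, pow_add]
  exact Dvd.dvd.mul_right (Dvd.dvd.mul_right (by norm_num) _) _

theorem frey_four_dvd (P : FreyPackage) : (4 : ℤ) ∣ P.b ^ P.p - 1 - P.a ^ P.p := by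
  have h1 : (4 : ℤ) ∣ P.a - 3 := by
    have := P.ha4
    have h3 : ((P.a - 3 : ℤ) : ZMod 4) = 0 := by
      push_cast; rw [this]; decide
    exact (ZMod.intCast_zmod_eq_zero_iff_dvd _ 4).1 h3
  have h2 : (4 : ℤ) ∣ P.a - (-1) := by
    obtain ⟨k, hk⟩ := h1
    exact ⟨k + 1, by linarith⟩
  have h3 : (4 : ℤ) ∣ P.a ^ P.p - (-1) ^ P.p := h2.trans (sub_dvd_pow_sub_pow _ _ _)
  rw [P.hp_odd.neg_one_pow] at h3
  obtain ⟨k, hk⟩ := h3
  obtain ⟨m, hm⟩ := frey_thirtytwo_dvd P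
  exact ⟨8 * m - k, by linarith⟩

/-- The coefficients `a₂`, `a₄` of the Frey curve are integers, `16 a₄ = -a^p b^p`, `a₄` even. -/
theorem frey_coeffs (P : FreyPackage) : ∃ k₂ k₄ : ℤ, 4 * k₂ = P.b ^ P.p - 1 - P.a ^ P.p ∧
    16 * k₄ = -(P.a ^ P.p * P.b ^ P.p) ∧ (2 : ℤ) ∣ k₄ ∧
    (P.freyCurve⁄Kbar).a₂ = (k₂ : Kbar) ∧ (P.freyCurve⁄Kbar).a₄ = (k₄ : Kbar) := by
  obtain ⟨k₂, hk₂⟩ := frey_four_dvd P
  obtain ⟨m, hm⟩ := frey_thirtytwo_dvd P
  refine ⟨k₂, -(P.a ^ P.p) * (2 * m), hk₂.symm, by rw [hm]; ring, ⟨-(P.a ^ P.p) * m, by ring⟩, ?_, ?_⟩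
  · rw [frey_a₂]
    have := congrArg (Int.cast : ℤ → Kbar) hk₂
    push_cast at this
    rw [this]
    field_simp
  · rw [frey_a₄]
    have := congrArg (Int.cast : ℤ → Kbar) hm
    push_cast at this
    rw [this]
    push_cast
    field_simp
    ring

/-- **Inertia acts unipotently modulo the kernel of reduction on the Frey curve**, at every prime
`l` (including `l = 2` and `l = p`): for `σ` in the inertia group of a valuation subring `A` of
`ℚ̄` over `l` and every point `Q`, `(σ - 1)² Q` is zero or has non-integral `x`-coordinate. -/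
theorem frey_inertia_sq (P : FreyPackage) {l : ℕ} (hl : l.Prime) (A : ValuationSubring Kbar)
    (hA : A.LiesOverPrime l) (σ : Kbar ≃ₐ[ℚ] Kbar) (hσ : σ ∈ A.inertiaSubgroupIn ℚ)
    (Q : (P.freyCurve⁄Kbar).Point) :
    InE1 A.valuation (P.freyCurve⁄Kbar) (σ • (σ • Q - Q) - (σ • Q - Q)) := by
  have hf : ∀ x, A.valuation x ≤ 1 → A.valuation (σ.toAlgHom x - x) < 1 :=
    fun x hx => Glue.valuation_sub_lt_one_of_mem_inertia ℚ A σ hσ x
      ((A.valuation_le_one_iff x).mp hx)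
  have : Algebra.IsAlgebraic ℚ Kbar := AlgebraicClosure.isAlgebraic ℚ
  have hfv : ∀ x, A.valuation (σ.toAlgHom x) = A.valuation x :=
    fun x => valuation_map_eq A σ (Glue.mem_iff_of_mem_inertia ℚ A σ hσ) x
  have hlZ : Prime (l : ℤ) := Nat.prime_iff_prime_int.mp hl
  have hint : ∀ d : ℤ, A.valuation (d : Kbar) ≤ 1 := fun d =>
    (A.valuation_le_one_iff _).mpr (intCast_mem A d)
  have hlt : ∀ d : ℤ, (l : ℤ) ∣ d → A.valuation (d : Kbar) < 1 := by
    rintro d ⟨e, rfl⟩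
    push_cast
    rw [map_mul]
    calc A.valuation (l : Kbar) * A.valuation (e : Kbar) ≤ A.valuation (l : Kbar) * 1 := by
          gcongr; exact hint e
      _ = A.valuation (l : Kbar) := mul_one _
      _ < 1 := A.mem_nonunits_iff.mp hA
  have hunit : ∀ d : ℤ, ¬ (l : ℤ) ∣ d → A.valuation (d : Kbar) = 1 := fun d hd =>
    valuation_intCast_eq_one A l hl hA d hd
  have hFLT := P.hFLT
  by_cases hab : (l : ℤ) ∣ P.a * P.b
  · -- node model: the Frey curve itself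
    obtain ⟨k₂, k₄, h2, h4, h4', e2, e4⟩ := frey_coeffs P
    have hk4 : (l : ℤ) ∣ k₄ := by
      by_cases hl2 : l = 2
      · subst hl2; exact_mod_cast h4'
      · have h1 : (l : ℤ) ∣ 16 * k₄ := by
          rw [h4, dvd_neg, ← mul_pow]
          exact dvd_pow hab P.hp0
        rcases hlZ.dvd_or_dvd h1 with h | h
        · exfalso
          have h16 : (l : ℤ) ∣ 2 ^ 4 := by norm_num; exact h
          have h2' : (l : ℤ) ∣ 2 := hlZ.dvd_of_dvd_pow h16
          have : l ∣ 2 := by exact_mod_cast h2'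
          exact hl2 ((Nat.prime_dvd_prime_iff_eq hl Nat.prime_two).mp this)
        · exact h
    have hb2 : ¬ (l : ℤ) ∣ P.b ^ P.p - P.a ^ P.p := by
      intro h
      rcases hlZ.dvd_or_dvd hab with ha | hb
      · have h1 : (l : ℤ) ∣ P.b ^ P.p := by
          have := dvd_add h (dvd_pow ha P.hp0)
          simpa using this
        have := dvd_gcd ha (hlZ.dvd_of_dvd_pow h1)
        rw [P.hgcdab] at this
        exact hlZ.not_dvd_one this
      · have h1 : (l : ℤ) ∣ P.a ^ P.p := by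
          have := dvd_sub (dvd_pow hb P.hp0) h
          simpa using this
        have := dvd_gcd (hlZ.dvd_of_dvd_pow h1) hb
        rw [P.hgcdab] at this
        exact hlZ.not_dvd_one this
    have hk40 : k₄ ≠ 0 := by
      rintro rfl
      have : P.a ^ P.p * P.b ^ P.p = 0 := by linarith
      rcases mul_eq_zero.mp this with h | h
      · exact P.ha0 (pow_eq_zero_iff P.hp0 |>.mp h)
      · exact P.hb0 (pow_eq_zero_iff P.hp0 |>.mp h)
    refine node_sq A.valuation P.freyCurve σ.toAlgHom hf hfv (frey_a₃ P) (frey_a₆ P) ?_ ?_ ?_ ?_ ?_ Q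
    · rw [frey_a₁, map_one]
    · rw [e2]; exact hint _
    · rw [e4]; exact hlt _ hk4
    · rw [e4]; exact_mod_cast hk40
    · rw [frey_a₁, e2]
      have e : (1 : Kbar) ^ 2 + 4 * (k₂ : Kbar) = ((P.b ^ P.p - P.a ^ P.p : ℤ) : Kbar) := by
        have := congrArg (Int.cast : ℤ → Kbar) h2
        push_cast at this
        push_cast
        linear_combination this
      rw [e]
      exact hunit _ hb2
  · have ha : ¬ (l : ℤ) ∣ P.a := fun h => hab (Dvd.dvd.mul_right h _)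
    have hb : ¬ (l : ℤ) ∣ P.b := fun h => hab (Dvd.dvd.mul_left h _)
    have hl2 : ¬ (l : ℤ) ∣ 2 := fun h => hb (h.trans (frey_two_dvd_b P))
    have v2 : A.valuation (2 : Kbar) = 1 := by
      have := hunit 2 hl2
      simpa using this
    have hsub : ∀ {e α β : ℤ}
        (H : Rel ((Leg (α : ℚ) (β : ℚ))⁄Kbar) (P.freyCurve⁄Kbar) (2 : Kbar) (-(e : Kbar)) 1 0),
        H.pointMap (σ • (σ • Q - Q) - (σ • Q - Q)) =
          σ • (σ • H.pointMap Q - H.pointMap Q) - (σ • H.pointMap Q - H.pointMap Q) := by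
      intro e α β H
      have hs : ∀ X Y, H.pointMap (X - Y) = H.pointMap X - H.pointMap Y :=
        fun X Y => map_sub H.pointHom X Y
      rw [hs, pointMap_smul H σ, hs, pointMap_smul H σ]
    by_cases hc : (l : ℤ) ∣ P.c
    · -- node at `X = a^p`: Legendre model with `α = -c^p`, `β = a^p`
      have H := rel P (P.a ^ P.p) (-(P.c ^ P.p)) (P.a ^ P.p) (by rw [← hFLT]; ring)
        (by rw [← hFLT]; ring) (by rw [← hFLT]; ring)
      have hα : (l : ℤ) ∣ -(P.c ^ P.p) := by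
        rw [dvd_neg]; exact dvd_pow hc P.hp0
      have key := node_sq A.valuation (Leg ((-(P.c ^ P.p) : ℤ) : ℚ) ((P.a ^ P.p : ℤ) : ℚ))
        σ.toAlgHom hf hfv (leg_a₃ _ _) (leg_a₆ _ _) ?_ ?_ ?_ ?_ ?_ (H.pointMap Q)
      · apply inE1_of_pointMap A.valuation H v2
        · rw [Valuation.map_neg]; exact hint _
        · rw [hsub H]
          exact key
      · rw [leg_a₁, map_zero]; exact zero_le_one
      · rw [leg_a₂]; exact A.valuation.map_sub_le (hint _) (hint _)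
      · rw [leg_a₄, Valuation.map_neg, map_mul]
        calc A.valuation ((-(P.c ^ P.p) : ℤ) : Kbar) * A.valuation ((P.a ^ P.p : ℤ) : Kbar)
            ≤ A.valuation ((-(P.c ^ P.p) : ℤ) : Kbar) * 1 := by gcongr; exact hint _
          _ = _ := mul_one _
          _ < 1 := hlt _ hα
      · rw [leg_a₄]
        have h1 : ((-(P.c ^ P.p) : ℤ) : Kbar) ≠ 0 := by
          exact_mod_cast neg_ne_zero.mpr (pow_ne_zero _ P.hc0)
        have h2 : ((P.a ^ P.p : ℤ) : Kbar) ≠ 0 := by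
          exact_mod_cast pow_ne_zero _ P.ha0
        exact neg_ne_zero.mpr (mul_ne_zero h1 h2)
      · rw [leg_a₁, leg_a₂]
        have e : (0 : Kbar) ^ 2 + 4 * (((P.a ^ P.p : ℤ) : Kbar) - ((-(P.c ^ P.p) : ℤ) : Kbar)) =
            ((4 * (P.a ^ P.p + P.c ^ P.p) : ℤ) : Kbar) := by
          push_cast; ring
        rw [e]
        apply hunit
        intro h
        rcases hlZ.dvd_or_dvd h with h | h
        · have h4 : (l : ℤ) ∣ 2 ^ 2 := by norm_num; exact h
          exact hl2 (hlZ.dvd_of_dvd_pow h4)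
        · have h1 : (l : ℤ) ∣ P.a ^ P.p := by
            have := dvd_sub h (dvd_pow hc P.hp0)
            simpa using this
          exact ha (hlZ.dvd_of_dvd_pow h1)
    · -- good reduction: Legendre model with `α = a^p`, `β = b^p`
      have H := rel P 0 (P.a ^ P.p) (P.b ^ P.p) (by ring) (by ring) (by ring)
      have vα : A.valuation ((P.a ^ P.p : ℤ) : Kbar) = 1 :=
        hunit _ (fun h => ha (hlZ.dvd_of_dvd_pow h))
      have vβ : A.valuation ((P.b ^ P.p : ℤ) : Kbar) = 1 :=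
        hunit _ (fun h => hb (hlZ.dvd_of_dvd_pow h))
      have vαβ : A.valuation (((P.a ^ P.p : ℤ) : Kbar) + ((P.b ^ P.p : ℤ) : Kbar)) = 1 := by
        have := hunit (P.a ^ P.p + P.b ^ P.p) (by
          rw [hFLT]; exact fun h => hc (hlZ.dvd_of_dvd_pow h))
        simpa using this
      have h₁ : A.valuation ((Leg ((P.a ^ P.p : ℤ) : ℚ) ((P.b ^ P.p : ℤ) : ℚ))⁄Kbar).a₁ ≤ 1 := by
        rw [leg_a₁, map_zero]; exact zero_le_one
      have h₂ : A.valuation ((Leg ((P.a ^ P.p : ℤ) : ℚ) ((P.b ^ P.p : ℤ) : ℚ))⁄Kbar).a₂ ≤ 1 := by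
        rw [leg_a₂]; exact A.valuation.map_sub_le (hint _) (hint _)
      have h₃ : A.valuation ((Leg ((P.a ^ P.p : ℤ) : ℚ) ((P.b ^ P.p : ℤ) : ℚ))⁄Kbar).a₃ ≤ 1 := by
        rw [leg_a₃, map_zero]; exact zero_le_one
      have h₄ : A.valuation ((Leg ((P.a ^ P.p : ℤ) : ℚ) ((P.b ^ P.p : ℤ) : ℚ))⁄Kbar).a₄ ≤ 1 := by
        rw [leg_a₄, Valuation.map_neg, map_mul, vα, vβ, mul_one]
      have h₆ : A.valuation ((Leg ((P.a ^ P.p : ℤ) : ℚ) ((P.b ^ P.p : ℤ) : ℚ))⁄Kbar).a₆ ≤ 1 := by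
        rw [leg_a₆, map_zero]; exact zero_le_one
      have key := good_sq A.valuation (Leg ((P.a ^ P.p : ℤ) : ℚ) ((P.b ^ P.p : ℤ) : ℚ))
        σ.toAlgHom hf h₁ h₂ h₃ h₄ h₆
        (fun x y hE hx => SameRed.legendre_nonsingular_reduction A.valuation _
          (leg_a₁ _ _) (leg_a₃ _ _) (leg_a₆ _ _) (leg_a₂ _ _) (leg_a₄ _ _) v2 vα.le vβ vαβ hE hx
          (Or.inl vα))
        (σ • H.pointMap Q - H.pointMap Q)
      apply inE1_of_pointMap A.valuation H v2
      · rw [Valuation.map_neg]; exact hint _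
      · rw [hsub H]
        exact key

/-- `frey_inertia_sq` on the `p`-torsion module. -/
theorem frey_inertia_sq_torsion (P : FreyPackage) {l : ℕ} (hl : l.Prime)
    (A : ValuationSubring Kbar) (hA : A.LiesOverPrime l) (σ : Kbar ≃ₐ[ℚ] Kbar)
    (hσ : σ ∈ A.inertiaSubgroupIn ℚ)
    (x : Submodule.torsionBy ℤ (P.freyCurve⁄Kbar).Point P.p) :
    InE1 A.valuation (P.freyCurve⁄Kbar)
      ((σ • (σ • x - x) - (σ • x - x) : Submodule.torsionBy ℤ (P.freyCurve⁄Kbar).Point P.p) :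
        (P.freyCurve⁄Kbar).Point) :=
  frey_inertia_sq P hl A hA σ hσ (x : (P.freyCurve⁄Kbar).Point)

/-- If no nonzero `p`-torsion point lies in the kernel of reduction at `A` (e.g. `l ≠ p`), then
inertia at `A` acts unipotently on the `p`-torsion: `(σ - 1)² = 0`. -/
theorem frey_unipotent (P : FreyPackage) {l : ℕ} (hl : l.Prime)
    (A : ValuationSubring Kbar) (hA : A.LiesOverPrime l) (σ : Kbar ≃ₐ[ℚ] Kbar)
    (hσ : σ ∈ A.inertiaSubgroupIn ℚ)
    (hR1 : ∀ (x y : Kbar) (h : (P.freyCurve⁄Kbar).Nonsingular x y),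
      (P.p : ℤ) • Point.some x y h = 0 → A.valuation x ≤ 1)
    (x : Submodule.torsionBy ℤ (P.freyCurve⁄Kbar).Point P.p) :
    σ • (σ • x - x) = σ • x - x := by
  have key := frey_inertia_sq_torsion P hl A hA σ hσ x
  obtain ⟨D, hD⟩ : ∃ D : Submodule.torsionBy ℤ (P.freyCurve⁄Kbar).Point P.p,
      D = σ • (σ • x - x) - (σ • x - x) := ⟨_, rfl⟩
  rw [← hD] at key
  have hD0 : D = 0 := by
    rcases key with h | ⟨x', y', h', heq, hx'⟩
    · exact Subtype.ext h
    · exfalso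
      have hDt : (P.p : ℤ) • (D : (P.freyCurve⁄Kbar).Point) = 0 :=
        (Submodule.mem_torsionBy_iff _ _).mp D.2
      rw [heq] at hDt
      exact absurd (hR1 x' y' h' hDt) (not_le.mpr hx')
  rw [hD] at hD0
  exact sub_eq_zero.mp hD0

end Frey

end Fermat.Agent.S13.InertiaSq
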