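import Mathlib
import Fermat.Agent.Lib.TorsionCard.Basic

set_option autoImplicit false

/-!
# The kernel of reduction is a subgroup (any integral Weierstrass model, any residue characteristic)

`KerRed v W Q` : `Q = 0` or `Q` is an affine point whose `x`-coordinate is not `v`-integral.
Only the `b`-invariants of the model are assumed integral.  The proof is `x`-only: sum and product
formulas for `x(P+Q)`, `x(P-Q)` and the duplication formula (`Lib.TorsionCard.Basic`).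
-/

namespace Fermat.Agent.S13.KerRedGroup

open WeierstrassCurve WeierstrassCurve.Affine
open Fermat.Agent.Lib.TorsionCard

variable {K : Type*} [Field K] {Γ₀ : Type*} [LinearOrderedCommGroupWithZero Γ₀]
  (v : Valuation K Γ₀)

/-- The kernel of reduction: the point at infinity and the affine points with non-integral
`x`-coordinate. -/
def KerRed (W : Affine K) (Q : W.Point) : Prop := Q = 0 ∨ ∃ x, HasXc W Q x ∧ 1 < v x

theorem kerRed_zero (W : Affine K) : KerRed v W 0 := Or.inl rfl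

theorem kerRed_of_hasXc {W : Affine K} {Q : W.Point} {x : K} (h : HasXc W Q x) (hx : 1 < v x) :
    KerRed v W Q := Or.inr ⟨x, h, hx⟩

theorem kerRed_some_iff {W : Affine K} {x y : K} (h : W.Nonsingular x y) :
    KerRed v W (Point.some x y h) ↔ 1 < v x := by
  constructor
  · rintro (h0 | ⟨x', hx', hv⟩)
    · exact absurd h0 (Point.some_ne_zero h)
    · rwa [(hasXc_some h).unique hx']
  · exact fun hx => Or.inr ⟨x, hasXc_some h, hx⟩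

theorem val_two_le_one : v (2 : K) ≤ 1 := by
  have : (2 : K) = 1 + 1 := by norm_num
  rw [this]
  exact v.map_add_le (le_of_eq v.map_one) (le_of_eq v.map_one)

theorem val_four_le_one : v (4 : K) ≤ 1 := by
  have : (4 : K) = 2 * 2 := by norm_num
  rw [this, map_mul]
  exact mul_le_one₀ (val_two_le_one v) zero_le (val_two_le_one v)

/-- Pure valuation core of closure under addition. -/
theorem key_add {b₂ b₄ b₆ b₈ x₁ x₂ x₃ x₄ : K} (h₂ : v b₂ ≤ 1) (h₄ : v b₄ ≤ 1) (h₆ : v b₆ ≤ 1)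
    (h₈ : v b₈ ≤ 1) (h1 : 1 < v x₁) (h12 : v x₁ ≤ v x₂)
    (hs : (x₃ + x₄) * (x₁ - x₂) ^ 2 =
      2 * x₁ * x₂ * (x₁ + x₂) + b₂ * x₁ * x₂ + b₄ * (x₁ + x₂) + b₆)
    (hp : x₃ * x₄ * (x₁ - x₂) ^ 2 = x₁ ^ 2 * x₂ ^ 2 - b₄ * x₁ * x₂ - b₆ * (x₁ + x₂) - b₈) :
    1 < v x₃ := by
  have h2' : 1 < v x₂ := lt_of_lt_of_le h1 h12
  have hg₁0 : 0 < v x₁ := zero_lt_one.trans h1
  have hg₂0 : 0 < v x₂ := zero_lt_one.trans h2'
  have hsum : v (x₁ + x₂) ≤ v x₂ := v.map_add_le h12 le_rfl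
  have hd : v (x₁ - x₂) ≤ v x₂ := v.map_sub_le h12 le_rfl
  have h12' : 1 < v x₁ * v x₂ := one_lt_mul_of_lt_of_le' h1 h2'.le
  have hA : v x₁ * v x₂ < v x₁ ^ 2 * v x₂ ^ 2 := by
    have : v x₁ * v x₂ * 1 < v x₁ * v x₂ * (v x₁ * v x₂) :=
      (mul_lt_mul_iff_right₀ (zero_lt_one.trans h12')).mpr h12'
    calc v x₁ * v x₂ = v x₁ * v x₂ * 1 := (mul_one _).symm
      _ < v x₁ * v x₂ * (v x₁ * v x₂) := this
      _ = v x₁ ^ 2 * v x₂ ^ 2 := by rw [pow_two, pow_two]; ac_rfl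
  have hB : v x₂ < v x₁ ^ 2 * v x₂ ^ 2 := by
    refine lt_of_le_of_lt ?_ hA
    calc v x₂ = 1 * v x₂ := (one_mul _).symm
      _ ≤ v x₁ * v x₂ := by gcongr
  have hC : 1 < v x₁ ^ 2 * v x₂ ^ 2 := h12'.trans hA
  -- the numerator of the product
  have hPi : v (x₁ ^ 2 * x₂ ^ 2 - b₄ * x₁ * x₂ - b₆ * (x₁ + x₂) - b₈) = v x₁ ^ 2 * v x₂ ^ 2 := by
    have e0 : v (x₁ ^ 2 * x₂ ^ 2) = v x₁ ^ 2 * v x₂ ^ 2 := by rw [map_mul, map_pow, map_pow]
    have t1 : v (b₄ * x₁ * x₂) < v x₁ ^ 2 * v x₂ ^ 2 := by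
      refine lt_of_le_of_lt ?_ hA
      rw [map_mul, map_mul]
      calc v b₄ * v x₁ * v x₂ ≤ 1 * v x₁ * v x₂ := by gcongr
        _ = v x₁ * v x₂ := by rw [one_mul]
    have t2 : v (b₆ * (x₁ + x₂)) < v x₁ ^ 2 * v x₂ ^ 2 := by
      refine lt_of_le_of_lt ?_ hB
      rw [map_mul]
      calc v b₆ * v (x₁ + x₂) ≤ 1 * v x₂ := by gcongr
        _ = v x₂ := one_mul _
    have t3 : v b₈ < v x₁ ^ 2 * v x₂ ^ 2 := lt_of_le_of_lt h₈ hC
    have e1 : v (x₁ ^ 2 * x₂ ^ 2 - b₄ * x₁ * x₂) = v x₁ ^ 2 * v x₂ ^ 2 := by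
      rw [v.map_sub_eq_of_lt_left (by rw [e0]; exact t1), e0]
    have e2 : v (x₁ ^ 2 * x₂ ^ 2 - b₄ * x₁ * x₂ - b₆ * (x₁ + x₂)) = v x₁ ^ 2 * v x₂ ^ 2 := by
      rw [v.map_sub_eq_of_lt_left (by rw [e1]; exact t2), e1]
    rw [v.map_sub_eq_of_lt_left (by rw [e2]; exact t3), e2]
  -- the numerator of the sum
  have hS : v (2 * x₁ * x₂ * (x₁ + x₂) + b₂ * x₁ * x₂ + b₄ * (x₁ + x₂) + b₆)
      ≤ v x₁ * v x₂ * v x₂ := by
    have one_le : (1 : Γ₀) ≤ v x₁ * v x₂ := h12'.le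
    refine v.map_add_le (v.map_add_le (v.map_add_le ?_ ?_) ?_) ?_
    · rw [map_mul, map_mul, map_mul]
      calc v 2 * v x₁ * v x₂ * v (x₁ + x₂) ≤ 1 * v x₁ * v x₂ * v x₂ := by
            gcongr; exact val_two_le_one v
        _ = v x₁ * v x₂ * v x₂ := by rw [one_mul]
    · rw [map_mul, map_mul]
      calc v b₂ * v x₁ * v x₂ ≤ 1 * v x₁ * v x₂ := by gcongr
        _ = v x₁ * v x₂ * 1 := by rw [one_mul, mul_one]
        _ ≤ v x₁ * v x₂ * v x₂ := by gcongr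
    · rw [map_mul]
      calc v b₄ * v (x₁ + x₂) ≤ 1 * v x₂ := by gcongr
        _ ≤ v x₁ * v x₂ * v x₂ := by gcongr
    · calc v b₆ ≤ 1 := h₆
        _ = 1 * 1 := (one_mul _).symm
        _ ≤ v x₁ * v x₂ * v x₂ := by gcongr
  by_contra h3
  rw [not_lt] at h3
  have hp' := congrArg v hp
  rw [map_mul, map_mul, map_pow, hPi] at hp'
  have e1 : v x₁ ^ 2 * v x₂ ^ 2 ≤ v x₄ * v (x₁ - x₂) ^ 2 := by
    calc v x₁ ^ 2 * v x₂ ^ 2 = v x₃ * (v x₄ * v (x₁ - x₂) ^ 2) := by rw [← hp', mul_assoc]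
      _ ≤ 1 * (v x₄ * v (x₁ - x₂) ^ 2) := by gcongr
      _ = v x₄ * v (x₁ - x₂) ^ 2 := one_mul _
  have e2 : v x₁ ^ 2 ≤ v x₄ := by
    have : v x₁ ^ 2 * v x₂ ^ 2 ≤ v x₄ * v x₂ ^ 2 := e1.trans (by gcongr)
    exact le_of_mul_le_mul_right this (pow_pos hg₂0 2)
  have e3 : v x₃ < v x₄ := h3.trans_lt (lt_of_lt_of_le (one_lt_pow₀ h1 two_ne_zero) e2)
  have e4 : v (x₃ + x₄) = v x₄ := v.map_add_eq_of_lt_right e3
  have hs' := congrArg v hs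
  rw [map_mul, map_pow, e4] at hs'
  have e5 : v x₁ ^ 2 * v x₂ ^ 2 ≤ v x₁ * v x₂ * v x₂ := e1.trans (hs' ▸ hS)
  have e6 : v x₁ * (v x₁ * v x₂ * v x₂) ≤ 1 * (v x₁ * v x₂ * v x₂) := by
    rw [one_mul]
    calc v x₁ * (v x₁ * v x₂ * v x₂) = v x₁ ^ 2 * v x₂ ^ 2 := by rw [pow_two, pow_two]; ac_rfl
      _ ≤ _ := e5
  have hpos : 0 < v x₁ * v x₂ * v x₂ := mul_pos (mul_pos hg₁0 hg₂0) hg₂0
  exact absurd (le_of_mul_le_mul_right e6 hpos) (not_le.mpr h1)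

/-- Pure valuation core of closure under doubling. -/
theorem key_double {b₂ b₄ b₆ b₈ x x' : K} (h₂ : v b₂ ≤ 1) (h₄ : v b₄ ≤ 1) (h₆ : v b₆ ≤ 1)
    (h₈ : v b₈ ≤ 1) (h1 : 1 < v x)
    (hx : x' * (4 * x ^ 3 + b₂ * x ^ 2 + 2 * b₄ * x + b₆) =
      x ^ 4 - b₄ * x ^ 2 - 2 * b₆ * x - b₈) : 1 < v x' := by
  have hg0 : 0 < v x := zero_lt_one.trans h1
  have p2 : v x ^ 2 < v x ^ 4 := pow_lt_pow_right₀ h1 (by norm_num)
  have p1 : v x < v x ^ 4 := by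
    calc v x = v x ^ 1 := (pow_one _).symm
      _ < v x ^ 4 := pow_lt_pow_right₀ h1 (by norm_num)
  have p0 : 1 < v x ^ 4 := one_lt_pow₀ h1 (by norm_num)
  have hPhi : v (x ^ 4 - b₄ * x ^ 2 - 2 * b₆ * x - b₈) = v x ^ 4 := by
    have e0 : v (x ^ 4) = v x ^ 4 := map_pow _ _ _
    have t1 : v (b₄ * x ^ 2) < v x ^ 4 := by
      refine lt_of_le_of_lt ?_ p2
      rw [map_mul, map_pow]
      calc v b₄ * v x ^ 2 ≤ 1 * v x ^ 2 := by gcongr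
        _ = v x ^ 2 := one_mul _
    have t2 : v (2 * b₆ * x) < v x ^ 4 := by
      refine lt_of_le_of_lt ?_ p1
      rw [map_mul, map_mul]
      calc v 2 * v b₆ * v x ≤ 1 * 1 * v x := by gcongr; exact val_two_le_one v
        _ = v x := by rw [one_mul, one_mul]
    have t3 : v b₈ < v x ^ 4 := lt_of_le_of_lt h₈ p0
    have e1 : v (x ^ 4 - b₄ * x ^ 2) = v x ^ 4 := by
      rw [v.map_sub_eq_of_lt_left (by rw [e0]; exact t1), e0]
    have e2 : v (x ^ 4 - b₄ * x ^ 2 - 2 * b₆ * x) = v x ^ 4 := by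
      rw [v.map_sub_eq_of_lt_left (by rw [e1]; exact t2), e1]
    rw [v.map_sub_eq_of_lt_left (by rw [e2]; exact t3), e2]
  have hPsi : v (4 * x ^ 3 + b₂ * x ^ 2 + 2 * b₄ * x + b₆) ≤ v x ^ 3 := by
    have q2 : v x ^ 2 ≤ v x ^ 3 := pow_le_pow_right₀ h1.le (by norm_num)
    have q1 : v x ≤ v x ^ 3 := by
      calc v x = v x ^ 1 := (pow_one _).symm
        _ ≤ v x ^ 3 := pow_le_pow_right₀ h1.le (by norm_num)
    have q0 : 1 ≤ v x ^ 3 := one_le_pow₀ h1.le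
    refine v.map_add_le (v.map_add_le (v.map_add_le ?_ ?_) ?_) (h₆.trans q0)
    · rw [map_mul, map_pow]
      calc v 4 * v x ^ 3 ≤ 1 * v x ^ 3 := by gcongr; exact val_four_le_one v
        _ = v x ^ 3 := one_mul _
    · rw [map_mul, map_pow]
      calc v b₂ * v x ^ 2 ≤ 1 * v x ^ 2 := by gcongr
        _ = v x ^ 2 := one_mul _
        _ ≤ v x ^ 3 := q2
    · rw [map_mul, map_mul]
      calc v 2 * v b₄ * v x ≤ 1 * 1 * v x := by gcongr; exact val_two_le_one v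
        _ = v x := by rw [one_mul, one_mul]
        _ ≤ v x ^ 3 := q1
  have hx' := congrArg v hx
  rw [map_mul, hPhi] at hx'
  have e1 : v x * v x ^ 3 ≤ v x' * v x ^ 3 := by
    calc v x * v x ^ 3 = v x ^ 4 := by rw [← pow_succ']
      _ = v x' * v (4 * x ^ 3 + b₂ * x ^ 2 + 2 * b₄ * x + b₆) := hx'.symm
      _ ≤ v x' * v x ^ 3 := by gcongr
  exact lt_of_lt_of_le h1 (le_of_mul_le_mul_right e1 (pow_pos hg0 3))

section Group

variable [DecidableEq K] {W : Affine K}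

theorem kerRed_neg {Q : W.Point} (h : KerRed v W Q) : KerRed v W (-Q) := by
  rcases h with rfl | ⟨x, hx, hv⟩
  · rw [neg_zero]; exact kerRed_zero v W
  · exact Or.inr ⟨x, hx.neg, hv⟩

theorem two_nsmul_eq_zero_of_psi {Q : W.Point} {x : K} (hQ : HasXc W Q x)
    (hx : 4 * x ^ 3 + W.b₂ * x ^ 2 + 2 * W.b₄ * x + W.b₆ = 0) : 2 • Q = 0 := by
  obtain ⟨y, hy, rfl⟩ := hQ
  have heq := (W.equation_iff x y).mp hy.1
  have hB : 4 * x ^ 3 + W.b₂ * x ^ 2 + 2 * W.b₄ * x + W.b₆ = (y - W.negY x y) ^ 2 := by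
    simp only [WeierstrassCurve.b₂, WeierstrassCurve.b₄, WeierstrassCurve.b₆, negY]
    linear_combination (-4 : K) * heq
  have hyy : y = W.negY x y := by
    rw [hB] at hx
    exact sub_eq_zero.mp ((pow_eq_zero_iff two_ne_zero).mp hx)
  rw [two_nsmul, Point.add_self_of_Y_eq hyy]

variable (hb₂ : v W.b₂ ≤ 1) (hb₄ : v W.b₄ ≤ 1) (hb₆ : v W.b₆ ≤ 1) (hb₈ : v W.b₈ ≤ 1)
include hb₂ hb₄ hb₆ hb₈

theorem kerRed_two_nsmul {Q : W.Point} (h : KerRed v W Q) : KerRed v W (2 • Q) := by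
  rcases h with rfl | ⟨x, hx, hv⟩
  · rw [smul_zero]; exact kerRed_zero v W
  · by_cases hpsi : 4 * x ^ 3 + W.b₂ * x ^ 2 + 2 * W.b₄ * x + W.b₆ = 0
    · rw [two_nsmul_eq_zero_of_psi hx hpsi]; exact kerRed_zero v W
    · obtain ⟨x', hx', e⟩ := hasXc_two_nsmul hx hpsi
      exact Or.inr ⟨x', hx', key_double v hb₂ hb₄ hb₆ hb₈ hv e⟩

theorem kerRed_add {P Q : W.Point} (hP : KerRed v W P) (hQ : KerRed v W Q) :
    KerRed v W (P + Q) := by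
  rcases hP with rfl | ⟨x₁, hx₁, hv₁⟩
  · rw [zero_add]; exact hQ
  rcases hQ with rfl | ⟨x₂, hx₂, hv₂⟩
  · rw [add_zero]; exact Or.inr ⟨x₁, hx₁, hv₁⟩
  by_cases hxx : x₁ = x₂
  · subst hxx
    rcases hx₁.eq_or_eq_neg hx₂ with rfl | rfl
    · rw [← two_nsmul]
      exact kerRed_two_nsmul v hb₂ hb₄ hb₆ hb₈ (Or.inr ⟨x₁, hx₁, hv₁⟩)
    · rw [neg_add_cancel]; exact kerRed_zero v W
  · obtain ⟨x₃, x₄, h₃, -, hs, hp⟩ := hasXc_add_sub hx₁ hx₂ hxx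
    refine Or.inr ⟨x₃, h₃, ?_⟩
    rcases le_total (v x₁) (v x₂) with hle | hle
    · exact key_add v hb₂ hb₄ hb₆ hb₈ hv₁ hle hs hp
    · refine key_add v hb₂ hb₄ hb₆ hb₈ hv₂ hle (x₃ := x₃) (x₄ := x₄) ?_ ?_
      · linear_combination hs
      · linear_combination hp

theorem kerRed_sub {P Q : W.Point} (hP : KerRed v W P) (hQ : KerRed v W Q) :
    KerRed v W (P - Q) := by
  rw [sub_eq_add_neg]
  exact kerRed_add v hb₂ hb₄ hb₆ hb₈ hP (kerRed_neg v hQ)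

end Group

end Fermat.Agent.S13.KerRedGroup
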