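import Mathlib
import Fermat.Agent.S13.LocP
import Fermat.Agent.S13.LegP
import Fermat.Agent.S13.Ladder
import Fermat.Agent.S13.KerRedGen
import Fermat.Agent.S13.Assembly

set_option autoImplicit false

/-!
# S13, inertia at `p` for the Frey curve

`frey_locP`: for a Galois-stable cyclic subgroup `N` of the `p`-torsion of the Frey curve and a
valuation subring `A` of `AlgebraicClosure ℚ` above `p`, the inertia group of `A` acts trivially
on `N` or on the quotient by `N`.

`frey_locP_of_finrank`: the same in the shape consumed by `Assembly.result_of_parts`.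
-/

namespace Fermat.Agent.S13.LocPFrey

open WeierstrassCurve WeierstrassCurve.Affine WeierstrassCurve.Affine.Point
open Fermat.Agent.Lib.TorsionCard
open Fermat.Agent.S13.LocP

local notation "Kbar" => AlgebraicClosure ℚ
local notation "Gq" => (AlgebraicClosure ℚ ≃ₐ[ℚ] AlgebraicClosure ℚ)

/-- **Inertia at `p` for the Frey curve**: trivial on a stable cyclic subgroup `N` of `E[p]` or on
the quotient by `N`. -/
theorem frey_locP (P : FreyPackage) (A : ValuationSubring Kbar) (hA : A.LiesOverPrime P.p)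
    (N : Submodule (ZMod P.p) (Submodule.torsionBy ℤ (P.freyCurve⁄Kbar).Point P.p))
    (hN : IsGaloisStable ℚ N)
    (hcyc : ∃ R0 ∈ N, ∀ x ∈ N, ∃ k : ℕ, x = k • R0) :
    (∀ σ ∈ A.inertiaSubgroupIn ℚ, ∀ x ∈ N, σ • x = x) ∨
    (∀ σ ∈ A.inertiaSubgroupIn ℚ,
      ∀ x : Submodule.torsionBy ℤ (P.freyCurve⁄Kbar).Point P.p, σ • x - x ∈ N) := by
  have hp : P.p.Prime := P.pp
  have hp5 := P.hp5
  have hA' : (P.p : Kbar) ∈ A.nonunits := hA
  have hvp : A.valuation (P.p : Kbar) < 1 := A.mem_nonunits_iff.mp hA'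
  have hle : ∀ d : ℤ, A.valuation (d : Kbar) ≤ 1 := fun d =>
    (A.valuation_le_one_iff _).mpr (intCast_mem A d)
  have hunitZ : ∀ c : ℤ, ¬ (P.p : ℤ) ∣ c → A.valuation (c : Kbar) = 1 :=
    fun c hc => Fermat.Agent.S05.Shell.valuation_intCast_eq_one A P.p hp hA' c hc
  have hunits : ∀ k : ℕ, 0 < k → k < P.p → A.valuation (k : Kbar) = 1 := by
    intro k hk0 hkp
    have := hunitZ (k : ℤ) (by
      intro hd
      have hd' : P.p ∣ k := by exact_mod_cast hd
      exact absurd (Nat.le_of_dvd hk0 hd') (by omega))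
    simpa using this
  have v4 : A.valuation (4 : Kbar) = 1 := by
    have := hunits 4 (by norm_num) (by omega)
    simpa using this
  have v16 : A.valuation (16 : Kbar) = 1 := by
    have e : (16 : Kbar) = 4 * 4 := by norm_num
    rw [e, map_mul, v4, one_mul]
  -- integrality of the Frey coefficients at `A`
  have h₁ : A.valuation (P.freyCurve⁄Kbar).a₁ ≤ 1 := by
    rw [Fermat.Agent.S05.Shell.frey_a₁, map_one]
  have h₃ : A.valuation (P.freyCurve⁄Kbar).a₃ ≤ 1 := by
    rw [Fermat.Agent.S05.Shell.frey_a₃, _root_.map_zero]; exact zero_le_one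
  have h₆ : A.valuation (P.freyCurve⁄Kbar).a₆ ≤ 1 := by
    rw [Fermat.Agent.S05.Shell.frey_a₆, _root_.map_zero]; exact zero_le_one
  have h₂ : A.valuation (P.freyCurve⁄Kbar).a₂ ≤ 1 := by
    rw [Fermat.Agent.S05.Shell.frey_a₂, map_div₀, v4, div_one]
    have := hle (P.b ^ P.p - 1 - P.a ^ P.p)
    push_cast at this
    exact this
  have h₄ : A.valuation (P.freyCurve⁄Kbar).a₄ ≤ 1 := by
    rw [Fermat.Agent.S05.Shell.frey_a₄, map_div₀, v16, div_one]
    have := hle (-(P.a ^ P.p) * P.b ^ P.p)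
    push_cast at this
    exact this
  have hB := Fermat.Agent.S13.KerRedGen.intB_of_coeffs (v := A.valuation) h₁ h₂ h₃ h₄ h₆
  refine locP_of_parts P.freyCurve A hp hA' ?_ ?_ ?_ N hN hcyc
  · intro P0 x _ hx hv k hk
    exact Fermat.Agent.S13.KerRedGen.nsmul_of_not_dvd hB hx hv hp hvp k hk
  · intro S hS
    exact Fermat.Agent.S13.Ladder.torsion_newton_bound A.valuation (P.freyCurve⁄Kbar)
      h₁ h₂ h₃ h₄ h₆ P.p hp (by omega) hunits S hS
  · intro σ hσ Pt hPt
    exact Fermat.Agent.S13.LegP.frey_inertia_sub P hp (by omega) A hA' σ hσ Pt hPt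

/-- A proper nonzero submodule of a plane over `ZMod p` is cyclic, generated by multiples. -/
theorem exists_nat_generator {p : ℕ} [Fact p.Prime] {V : Type*} [AddCommGroup V]
    [Module (ZMod p) V] (h2 : Module.finrank (ZMod p) V = 2) (N : Submodule (ZMod p) V)
    (hN0 : N ≠ ⊥) (hN1 : N ≠ ⊤) : ∃ R0 ∈ N, ∀ x ∈ N, ∃ k : ℕ, x = k • R0 := by
  have hN : Module.finrank (ZMod p) N = 1 :=
    Fermat.Agent.S13.Assembly.finrank_line h2 N hN0 hN1
  obtain ⟨R0, hR0N, hR00⟩ := Submodule.exists_mem_ne_zero_of_ne_bot hN0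
  refine ⟨R0, hR0N, fun x hx => ?_⟩
  have hne : (⟨R0, hR0N⟩ : N) ≠ 0 := fun h => hR00 (congrArg Subtype.val h)
  obtain ⟨c, hc⟩ := (finrank_eq_one_iff_of_nonzero' (⟨R0, hR0N⟩ : N) hne).mp hN ⟨x, hx⟩
  have hc' : c • R0 = x := congrArg Subtype.val hc
  refine ⟨c.val, ?_⟩
  rw [← hc', ← Nat.cast_smul_eq_nsmul (ZMod p), ZMod.natCast_zmod_val]

/-- **Inertia at `p`**, in the shape consumed by `Assembly.result_of_parts`. -/
theorem frey_locP_of_finrank (P : FreyPackage)
    (hfr : Module.finrank (ZMod P.p) (Fermat.Agent.S13.Assembly.Vp P) = 2) :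
    ∀ N : Submodule (ZMod P.p) (Fermat.Agent.S13.Assembly.Vp P), IsGaloisStable ℚ N →
      N ≠ ⊥ → N ≠ ⊤ →
      ∀ A : ValuationSubring (AlgebraicClosure ℚ), A.LiesOverPrime P.p →
        (∀ σ : Gq, σ ∈ A.inertiaSubgroupIn ℚ → ∀ x ∈ N, σ • x = x) ∨
        (∀ σ : Gq, σ ∈ A.inertiaSubgroupIn ℚ →
          ∀ x : Fermat.Agent.S13.Assembly.Vp P, σ • x - x ∈ N) := by
  intro N hN hN0 hN1 A hA
  have : Fact P.p.Prime := ⟨P.pp⟩
  exact frey_locP P A hA N hN (exists_nat_generator hfr N hN0 hN1)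

end Fermat.Agent.S13.LocPFrey
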