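import Fermat.Agent.S05.PointSeq

set_option autoImplicit false

/-!
# Char-free unsigned component law for node models

Model: `y² + a₁ x y = x³ + a₂ x² + a₄ x` (`a₃ = a₆ = 0`) over a valued field, with
`v b₂ = 1` and `0 < v a₄ = ν < 1`.  **No hypothesis on `v 2`**: everything here is valid in
residue characteristic `2`.

For affine points `P₁, P₂` with `x`-coordinates `x1 ≠ x2`, the `x`-coordinates `r1, r2` of
`P₁ ± P₂` satisfy

* `r1 + r2 = (2 (x1 + x2) (x1 x2 + a₄) + b₂ x1 x2) / (x1 - x2)²`,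
* `r1 r2 = (x1 x2 - a₄)² / (x1 - x2)²`,

and `x(2P) = (x² - a₄)² / (x (4 x² + b₂ x + 4 a₄))`.

With the clamped height `h(x) = max ν (min 1 (v x))` we prove the unsigned component law
`{h(r1), h(r2)} = {fold (h(x1) h(x2)), min (h(x1)/h(x2)) (h(x2)/h(x1))}` and
`h(x(2P)) = fold (h(x)²)`, in the shape consumed by `Fermat.Agent.S05.PointSeq`.
-/

namespace Fermat.Agent.S13.NodeLaw

section Order

variable {Γ₀ : Type*} [LinearOrderedCommGroupWithZero Γ₀]

theorem sq_inj' {a b : Γ₀} (h : a ^ 2 = b ^ 2) : a = b := by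
  rcases lt_trichotomy a b with hlt | heq | hgt
  · exfalso
    have : a ^ 2 < b ^ 2 := by gcongr; exact zero_le
    exact this.ne h
  · exact heq
  · exfalso
    have : b ^ 2 < a ^ 2 := by gcongr; exact zero_le
    exact this.ne' h

theorem mul_lt_mul_of_lt_of_le' {a b c d : Γ₀} (h : a < b) (h' : c ≤ d) (hd : 0 < d) :
    a * c < b * d := by
  calc a * c ≤ a * d := by gcongr
    _ < b * d := by gcongr

theorem div_le_div_right'' {a b : Γ₀} (h : a ≤ b) (c : Γ₀) : a / c ≤ b / c := by
  rw [div_eq_mul_inv, div_eq_mul_inv]; exact mul_le_mul_left h _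

theorem sq_le_sq'' {a b : Γ₀} (h : a ≤ b) : a ^ 2 ≤ b ^ 2 := pow_le_pow_left₀ zero_le h 2

theorem sq_lt_sq'' {a b : Γ₀} (h : a < b) : a ^ 2 < b ^ 2 :=
  pow_lt_pow_left₀ h zero_le (by norm_num)

end Order

section Newton

variable {K : Type*} [Field K] {Γ₀ : Type*} [LinearOrderedCommGroupWithZero Γ₀]
  (v : Valuation K Γ₀)

/-- If the product of two elements has valuation `t ^ 2` and the sum has valuation `≤ t`,
both have valuation `t`. -/
theorem val_eq_of_mul_of_add_le {r1 r2 : K} {t : Γ₀} (hp : v (r1 * r2) = t ^ 2)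
    (hs : v (r1 + r2) ≤ t) : v r1 = t ∧ v r2 = t := by
  rw [map_mul] at hp
  by_cases hne : v r1 = v r2
  · rw [← hne, ← sq] at hp
    have h1 : v r1 = t := sq_inj' hp
    exact ⟨h1, hne ▸ h1⟩
  · exfalso
    rw [v.map_add_of_distinct_val hne] at hs
    have h1 : v r1 ≤ t := le_trans (le_max_left _ _) hs
    have h2 : v r2 ≤ t := le_trans (le_max_right _ _) hs
    have ht : 0 < t := by
      rcases eq_or_ne t 0 with rfl | ht
      · exfalso
        have e1 : v r1 = 0 := le_antisymm h1 zero_le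
        have e2 : v r2 = 0 := le_antisymm h2 zero_le
        exact hne (e1.trans e2.symm)
      · exact zero_lt_iff.mpr ht
    rcases lt_or_eq_of_le h1 with h1' | h1'
    · have : v r1 * v r2 < t * t := mul_lt_mul_of_lt_of_le' h1' h2 ht
      rw [hp, sq] at this
      exact lt_irrefl _ this
    · rcases lt_or_eq_of_le h2 with h2' | h2'
      · have : v r2 * v r1 < t * t := mul_lt_mul_of_lt_of_le' h2' h1 ht
        rw [mul_comm, hp, sq] at this
        exact lt_irrefl _ this
      · exact hne (h1'.trans h2'.symm)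

/-- If the sum of two elements has valuation `S` and the product has valuation `P < S ^ 2`,
then one of them has valuation `S` and the other `P / S`. -/
theorem val_split_of_mul_of_add {r1 r2 : K} {P S : Γ₀} (hp : v (r1 * r2) = P)
    (hs : v (r1 + r2) = S) (hlt : P < S ^ 2) :
    (v r1 = S ∧ v r2 = P / S) ∨ (v r2 = S ∧ v r1 = P / S) := by
  rw [map_mul] at hp
  have hS : S ≠ 0 := by
    rintro rfl
    simp at hlt
  by_cases hne : v r1 = v r2
  · exfalso
    have h1 : S ≤ v r1 := by
      rw [← hs]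
      exact (v.map_add r1 r2).trans (by rw [hne, max_self])
    have : S ^ 2 ≤ P := by
      rw [← hp, ← hne, ← sq]
      gcongr
    exact absurd hlt (not_lt.mpr this)
  · rw [v.map_add_of_distinct_val hne] at hs
    rcases lt_or_gt_of_ne hne with h | h
    · right
      rw [max_eq_right h.le] at hs
      refine ⟨hs, ?_⟩
      rw [← hp, hs, mul_div_assoc, div_self hS, mul_one]
    · left
      rw [max_eq_left h.le] at hs
      refine ⟨hs, ?_⟩
      rw [← hp, hs, mul_comm, mul_div_assoc, div_self hS, mul_one]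

/-- If the product has valuation `P ≥ 1` and the sum has valuation `≤ S ≤ P`, both elements
have valuation `≥ 1`. -/
theorem one_le_val_of_mul_of_add_le {r1 r2 : K} {P S : Γ₀} (hp : v (r1 * r2) = P)
    (hs : v (r1 + r2) ≤ S) (h1 : 1 ≤ P) (h2 : S ≤ P) : 1 ≤ v r1 ∧ 1 ≤ v r2 := by
  have key : ∀ s1 s2 : K, v (s1 * s2) = P → v (s1 + s2) ≤ S → 1 ≤ v s1 := by
    intro s1 s2 hp' hs'
    by_contra hlt
    rw [not_le] at hlt
    rw [map_mul] at hp'
    have hP : 0 < P := lt_of_lt_of_le zero_lt_one h1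
    have h0 : v s1 ≠ 0 := by
      intro h0
      rw [h0, zero_mul] at hp'
      exact hP.ne hp'
    have h20 : 0 < v s2 := by
      rw [zero_lt_iff]
      intro h0
      rw [h0, mul_zero] at hp'
      exact hP.ne hp'
    have hb : P < v s2 := by
      rw [← hp']
      exact mul_lt_of_lt_one_left h20 hlt
    have hlt2 : v s1 < v s2 := lt_trans hlt (lt_of_le_of_lt h1 hb)
    rw [v.map_add_eq_of_lt_right hlt2] at hs'
    exact absurd (lt_of_lt_of_le hb (le_trans le_rfl (le_refl _))) (not_lt.mpr (hs'.trans h2))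
  refine ⟨key r1 r2 hp hs, key r2 r1 ?_ ?_⟩
  · rwa [mul_comm]
  · rwa [add_comm]

/-- If the product has valuation `≤ t ^ 2` and the sum has valuation `≤ t`, both elements
have valuation `≤ t`. -/
theorem val_le_of_mul_of_add_le {r1 r2 : K} {t : Γ₀} (hp : v (r1 * r2) ≤ t ^ 2)
    (hs : v (r1 + r2) ≤ t) : v r1 ≤ t ∧ v r2 ≤ t := by
  have key : ∀ s1 s2 : K, v (s1 * s2) ≤ t ^ 2 → v (s1 + s2) ≤ t → v s1 ≤ t := by
    intro s1 s2 hp' hs'
    by_contra hlt
    rw [not_le] at hlt
    rw [map_mul] at hp'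
    have h2 : v s2 ≤ t := by
      by_contra h2
      rw [not_le] at h2
      have : t * t < v s1 * v s2 := by
        calc t * t ≤ t * v s2 := by gcongr
          _ < v s1 * v s2 := by
            gcongr
            exact lt_of_le_of_lt zero_le h2
      rw [← sq] at this
      exact absurd this (not_lt.mpr hp')
    have hlt2 : v s2 < v s1 := lt_of_le_of_lt h2 hlt
    rw [v.map_add_eq_of_lt_left hlt2] at hs'
    exact absurd hlt (not_lt.mpr hs')
  refine ⟨key r1 r2 hp hs, key r2 r1 ?_ ?_⟩
  · rwa [mul_comm]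
  · rwa [add_comm]

end Newton

section Key

variable {K : Type*} [Field K] {Γ₀ : Type*} [LinearOrderedCommGroupWithZero Γ₀]
  (v : Valuation K Γ₀) (ν : Γ₀)

/-- The valuation clamped to the interval `[ν, 1]`. -/
def clampV (x : K) : Γ₀ := max ν (min 1 (v x))

/-- Folding map on the value group: identity on `[ν, ∞)`, `c ↦ ν * ν / c` below `ν`. -/
def fold (c : Γ₀) : Γ₀ := if ν ≤ c then c else ν * ν / c

variable {v ν}

theorem clampV_eq_one (hν : ν ≤ 1) {x : K} (h : 1 ≤ v x) : clampV v ν x = 1 := by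
  unfold clampV; rw [min_eq_left h, max_eq_right hν]

theorem clampV_eq_nu (hν : ν ≤ 1) {x : K} (h : v x ≤ ν) : clampV v ν x = ν := by
  unfold clampV; rw [min_eq_right (h.trans hν), max_eq_left h]

theorem clampV_eq_self {x : K} (h1 : ν ≤ v x) (h2 : v x ≤ 1) : clampV v ν x = v x := by
  unfold clampV; rw [min_eq_right h2, max_eq_right h1]

theorem nu_le_clampV (x : K) : ν ≤ clampV v ν x := le_max_left _ _

theorem clampV_le_one (hν : ν ≤ 1) (x : K) : clampV v ν x ≤ 1 :=
  max_le hν (min_le_left _ _)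

theorem fold_of_le {c : Γ₀} (h : ν ≤ c) : fold ν c = c := if_pos h

theorem fold_of_lt {c : Γ₀} (h : c < ν) : fold ν c = ν ^ 2 / c := by
  unfold fold
  rw [if_neg (not_le.mpr h), sq]

theorem key_aux (hν0 : ν ≠ 0) (hν1 : ν < 1) {a b : K} (ha : v a = 1)
    (hb : v b = ν) (x1 x2 r1 r2 : K) (hx : x1 ≠ x2) (hle : v x2 ≤ v x1)
    (hs : r1 + r2 = (2 * ((x1 + x2) * (x1 * x2 + b)) + a * x1 * x2) / (x1 - x2) ^ 2)
    (hp : r1 * r2 = (x1 * x2 - b) ^ 2 / (x1 - x2) ^ 2) :
    (clampV v ν r1 = fold ν (clampV v ν x1 * clampV v ν x2) ∧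
      clampV v ν r2 = min (clampV v ν x1 / clampV v ν x2) (clampV v ν x2 / clampV v ν x1)) ∨
    (clampV v ν r2 = fold ν (clampV v ν x1 * clampV v ν x2) ∧
      clampV v ν r1 = min (clampV v ν x1 / clampV v ν x2) (clampV v ν x2 / clampV v ν x1)) := by
  have hν : 0 < ν := zero_lt_iff.mpr hν0
  have hν1' : ν ≤ 1 := hν1.le
  have hδ0 : v (x1 - x2) ≠ 0 := (v.ne_zero_iff).mpr (sub_ne_zero.mpr hx)
  have hδpos : 0 < v (x1 - x2) := zero_lt_iff.mpr hδ0
  have hδle : v (x1 - x2) ≤ v x1 := (v.map_sub x1 x2).trans (max_le le_rfl hle)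
  have hδeq : v x2 < v x1 → v (x1 - x2) = v x1 := fun h => v.map_sub_eq_of_lt_left h
  have hS : v (r1 + r2) =
      v (2 * ((x1 + x2) * (x1 * x2 + b)) + a * x1 * x2) / v (x1 - x2) ^ 2 := by
    rw [hs, map_div₀, map_pow]
  have hP : v (r1 * r2) = v (x1 * x2 - b) ^ 2 / v (x1 - x2) ^ 2 := by
    rw [hp, map_div₀, map_pow, map_pow]
  have hT2 : v (a * x1 * x2) = v x1 * v x2 := by
    rw [map_mul, map_mul, ha, one_mul]
  have hG : v (x1 + x2) ≤ v x1 := (v.map_add x1 x2).trans (max_le le_rfl hle)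
  have hE : v (x1 * x2 - b) ≤ max (v x1 * v x2) ν := by
    have := v.map_sub (x1 * x2) b
    rwa [map_mul, hb] at this
  have hF : v (x1 * x2 + b) ≤ max (v x1 * v x2) ν := by
    have := v.map_add (x1 * x2) b
    rwa [map_mul, hb] at this
  have h2le : v (2 : K) ≤ 1 := by
    have h := v.map_add (1 : K) 1
    rw [v.map_one, max_self, one_add_one_eq_two] at h
    exact h
  have hT1 : v (2 * ((x1 + x2) * (x1 * x2 + b))) ≤ v x1 * max (v x1 * v x2) ν := by
    rw [map_mul, map_mul]
    calc v 2 * (v (x1 + x2) * v (x1 * x2 + b))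
        ≤ 1 * (v (x1 + x2) * v (x1 * x2 + b)) := mul_le_mul_left h2le _
      _ = v (x1 + x2) * v (x1 * x2 + b) := one_mul _
      _ ≤ v x1 * max (v x1 * v x2) ν := mul_le_mul' hG hF
  generalize hV1 : v x1 = V1 at *
  generalize hV2 : v x2 = V2 at *
  generalize hδ : v (x1 - x2) = δ at *
  rcases le_or_gt 1 V2 with hA2 | hA2
  · -- (A,A)
    have hA1 : 1 ≤ V1 := hA2.trans hle
    have hV12 : ν < V1 * V2 := lt_of_lt_of_le hν1 (one_le_mul_of_one_le_of_one_le hA1 hA2)
    have hEeq : v (x1 * x2 - b) = V1 * V2 := by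
      have := v.map_sub_eq_of_lt_left (x := x1 * x2) (y := b)
        (by rw [map_mul, hb, hV1, hV2]; exact hV12)
      rw [this, map_mul, hV1, hV2]
    have hmax : max (V1 * V2) ν = V1 * V2 := max_eq_left hV12.le
    rw [hmax] at hT1
    have hN : v (2 * ((x1 + x2) * (x1 * x2 + b)) + a * x1 * x2) ≤ V1 * (V1 * V2) := by
      refine v.map_add_le hT1 ?_
      rw [hT2]
      exact le_mul_of_one_le_left' hA1
    have h1 : 1 ≤ (V1 * V2) ^ 2 / δ ^ 2 := by
      rw [le_div_iff₀ (pow_pos hδpos 2), one_mul]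
      exact sq_le_sq'' (hδle.trans (le_mul_of_one_le_right' hA2))
    have h2' : V1 * (V1 * V2) / δ ^ 2 ≤ (V1 * V2) ^ 2 / δ ^ 2 := by
      refine div_le_div_right'' ?_ _
      rw [sq, mul_assoc]
      refine mul_le_mul_right ?_ _
      rw [mul_comm V2 (V1 * V2), mul_assoc]
      refine mul_le_mul_right ?_ _
      exact le_mul_of_one_le_left' hA2
    have hS' : v (r1 + r2) ≤ V1 * (V1 * V2) / δ ^ 2 := by
      rw [hS]
      exact div_le_div_right'' hN _
    rw [hEeq] at hP
    obtain ⟨g1, g2⟩ := one_le_val_of_mul_of_add_le v hP hS' h1 h2'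
    left
    rw [clampV_eq_one (x := r1) hν1' g1, clampV_eq_one (x := r2) hν1' g2,
      clampV_eq_one (x := x1) hν1' (hV1 ▸ hA1),
      clampV_eq_one (x := x2) hν1' (hV2 ▸ hA2), mul_one, fold_of_le hν1', div_one, min_self]
    exact ⟨rfl, rfl⟩
  · have hmul_comm3 : V1 * (V1 * V2) = V2 * V1 ^ 2 := by rw [sq]; ac_rfl
    rcases le_or_gt 1 V1 with hA1 | hB1
    · -- `V2 < 1 ≤ V1`, so `δ = V1`
      have hlt12 : V2 < V1 := lt_of_lt_of_le hA2 hA1
      have hδV : δ = V1 := hδeq hlt12
      have hV1pos : 0 < V1 := lt_of_lt_of_le zero_lt_one hA1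
      rw [hδV] at hS hP
      rcases lt_or_ge ν V2 with hB2 | hC2
      · -- (A,B)
        have hV2pos : 0 < V2 := lt_trans hν hB2
        have hV12 : ν < V1 * V2 := lt_of_lt_of_le hB2 (le_mul_of_one_le_left' hA1)
        have hEeq : v (x1 * x2 - b) = V1 * V2 := by
          have := v.map_sub_eq_of_lt_left (x := x1 * x2) (y := b)
            (by rw [map_mul, hb, hV1, hV2]; exact hV12)
          rw [this, map_mul, hV1, hV2]
        have hmax : max (V1 * V2) ν = V1 * V2 := max_eq_left hV12.le
        rw [hmax] at hT1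
        have hN : v (2 * ((x1 + x2) * (x1 * x2 + b)) + a * x1 * x2) ≤ V1 * (V1 * V2) := by
          refine v.map_add_le hT1 ?_
          rw [hT2]
          exact le_mul_of_one_le_left' hA1
        have hP' : v (r1 * r2) = V2 ^ 2 := by
          rw [hP, hEeq, mul_pow, mul_comm, mul_div_assoc, div_self (pow_ne_zero 2 hV1pos.ne'),
            mul_one]
        have hS' : v (r1 + r2) ≤ V2 := by
          rw [hS, div_le_iff₀ (pow_pos hV1pos 2), ← hmul_comm3]
          exact hN
        obtain ⟨g1, g2⟩ := val_eq_of_mul_of_add_le v hP' hS'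
        left
        rw [clampV_eq_self (x := r1) (g1 ▸ hB2.le) (g1 ▸ hA2.le),
          clampV_eq_self (x := r2) (g2 ▸ hB2.le) (g2 ▸ hA2.le),
          clampV_eq_one (x := x1) hν1' (hV1 ▸ hA1),
          clampV_eq_self (x := x2) (hV2 ▸ hB2.le) (hV2 ▸ hA2.le), g1, g2,
          hV2, one_mul, fold_of_le hB2.le, div_one]
        refine ⟨rfl, (min_eq_right ?_).symm⟩
        rw [le_div_iff₀ hV2pos]
        exact mul_le_one' hA2.le hA2.le
      · -- (A,C)
        have hmaxle : max (V1 * V2) ν ≤ ν * V1 := by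
          refine max_le ?_ (le_mul_of_one_le_right' hA1)
          rw [mul_comm]
          exact mul_le_mul_left hC2 V1
        have hEle : v (x1 * x2 - b) ≤ ν * V1 := hE.trans hmaxle
        have hP' : v (r1 * r2) ≤ ν ^ 2 := by
          rw [hP, div_le_iff₀ (pow_pos hV1pos 2), ← mul_pow]
          exact sq_le_sq'' hEle
        have hN : v (2 * ((x1 + x2) * (x1 * x2 + b)) + a * x1 * x2) ≤ ν * V1 ^ 2 := by
          refine v.map_add_le (hT1.trans ?_) ?_
          · rw [sq, mul_comm ν, mul_assoc, mul_comm V1 ν]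
            exact mul_le_mul_right hmaxle V1
          · rw [hT2, sq, mul_comm ν, mul_assoc]
            refine mul_le_mul_right ?_ V1
            exact hC2.trans (le_mul_of_one_le_left' hA1)
        have hS' : v (r1 + r2) ≤ ν := by
          rw [hS, div_le_iff₀ (pow_pos hV1pos 2)]
          exact hN
        obtain ⟨g1, g2⟩ := val_le_of_mul_of_add_le v hP' hS'
        left
        rw [clampV_eq_nu (x := r1) hν1' g1, clampV_eq_nu (x := r2) hν1' g2,
          clampV_eq_one (x := x1) hν1' (hV1 ▸ hA1),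
          clampV_eq_nu (x := x2) hν1' (hV2 ▸ hC2), one_mul, fold_of_le le_rfl, div_one]
        refine ⟨rfl, (min_eq_right ?_).symm⟩
        rw [le_div_iff₀ hν]
        exact mul_le_one' hν1' hν1'
    · -- `V1 < 1`
      rcases le_or_gt V1 ν with hC1 | hB1'
      · -- (C,C)
        have hV12 : V1 * V2 < ν :=
          lt_of_le_of_lt (mul_le_mul' hC1 (hle.trans hC1)) (mul_lt_of_lt_one_left hν hν1)
        have hEeq : v (x1 * x2 - b) = ν := by
          have := v.map_sub_eq_of_lt_right (x := x1 * x2) (y := b)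
            (by rw [map_mul, hb, hV1, hV2]; exact hV12)
          rw [this, hb]
        have hmax : max (V1 * V2) ν = ν := max_eq_right hV12.le
        rw [hmax] at hT1
        have hN : v (2 * ((x1 + x2) * (x1 * x2 + b)) + a * x1 * x2) ≤ V1 * ν := by
          refine v.map_add_le hT1 ?_
          rw [hT2]
          exact mul_le_mul_right (hle.trans hC1) V1
        have h1 : 1 ≤ ν ^ 2 / δ ^ 2 := by
          rw [le_div_iff₀ (pow_pos hδpos 2), one_mul]
          exact sq_le_sq'' (hδle.trans hC1)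
        have h2' : V1 * ν / δ ^ 2 ≤ ν ^ 2 / δ ^ 2 := by
          refine div_le_div_right'' ?_ _
          rw [sq]
          exact mul_le_mul_left hC1 ν
        have hS' : v (r1 + r2) ≤ V1 * ν / δ ^ 2 := by
          rw [hS]
          exact div_le_div_right'' hN _
        rw [hEeq] at hP
        obtain ⟨g1, g2⟩ := one_le_val_of_mul_of_add_le v hP hS' h1 h2'
        left
        rw [clampV_eq_one (x := r1) hν1' g1, clampV_eq_one (x := r2) hν1' g2,
          clampV_eq_nu (x := x1) hν1' (hV1 ▸ hC1),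
          clampV_eq_nu (x := x2) hν1' (hV2 ▸ (hle.trans hC1)),
          fold_of_lt (mul_lt_of_lt_one_left hν hν1),
          sq, div_self (mul_ne_zero hν0 hν0), div_self hν0, min_self]
        exact ⟨rfl, rfl⟩
      · have hV1pos : 0 < V1 := lt_trans hν hB1'
        rcases le_or_gt V2 ν with hC2 | hB2
        · -- (B,C)
          have hlt12 : V2 < V1 := lt_of_le_of_lt hC2 hB1'
          have hδV : δ = V1 := hδeq hlt12
          rw [hδV] at hS hP
          have hV12 : V1 * V2 < ν :=
            lt_of_le_of_lt (mul_le_mul_right hC2 V1) (mul_lt_of_lt_one_left hν hB1)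
          have hEeq : v (x1 * x2 - b) = ν := by
            have := v.map_sub_eq_of_lt_right (x := x1 * x2) (y := b)
              (by rw [map_mul, hb, hV1, hV2]; exact hV12)
            rw [this, hb]
          have hmax : max (V1 * V2) ν = ν := max_eq_right hV12.le
          rw [hmax] at hT1
          have hN : v (2 * ((x1 + x2) * (x1 * x2 + b)) + a * x1 * x2) ≤ V1 * ν := by
            refine v.map_add_le hT1 ?_
            rw [hT2]
            exact mul_le_mul_right hC2 V1
          have hP' : v (r1 * r2) = (ν / V1) ^ 2 := by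
            rw [hP, hEeq, div_pow]
          have hS' : v (r1 + r2) ≤ ν / V1 := by
            rw [hS, div_le_iff₀ (pow_pos hV1pos 2)]
            refine hN.trans (le_of_eq ?_)
            field_simp
          obtain ⟨g1, g2⟩ := val_eq_of_mul_of_add_le v hP' hS'
          have hq1 : ν ≤ ν / V1 := by
            rw [le_div_iff₀ hV1pos]
            exact mul_le_of_le_one_right' hB1.le
          have hq2 : ν / V1 ≤ 1 := (div_le_one₀ hV1pos).mpr hB1'.le
          left
          rw [clampV_eq_self (x := r1) (g1 ▸ hq1) (g1 ▸ hq2),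
            clampV_eq_self (x := r2) (g2 ▸ hq1) (g2 ▸ hq2),
            clampV_eq_self (x := x1) (hV1 ▸ hB1'.le) (hV1 ▸ hB1.le),
            clampV_eq_nu (x := x2) hν1' (hV2 ▸ hC2), g1, g2,
            hV1, fold_of_lt (mul_lt_of_lt_one_left hν hB1)]
          refine ⟨?_, (min_eq_right ?_).symm⟩
          · field_simp
          · exact hq2.trans ((one_le_div₀ hν).mpr hB1'.le)
        · -- (B,B)
          have hV2pos : 0 < V2 := lt_trans hν hB2
          have hmaxlt : max (V1 * V2) ν < V2 := max_lt (mul_lt_of_lt_one_left hV2pos hB1) hB2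
          have hT1lt : v (2 * ((x1 + x2) * (x1 * x2 + b))) < v (a * x1 * x2) := by
            rw [hT2]
            exact lt_of_le_of_lt hT1 (mul_lt_mul_of_pos_left hmaxlt hV1pos)
          have hNeq : v (2 * ((x1 + x2) * (x1 * x2 + b)) + a * x1 * x2) = V1 * V2 := by
            rw [v.map_add_eq_of_lt_right hT1lt, hT2]
          rw [hNeq] at hS
          have hElt : v (x1 * x2 - b) < V2 := lt_of_le_of_lt hE hmaxlt
          have hPlt : v (x1 * x2 - b) ^ 2 / δ ^ 2 < (V1 * V2 / δ ^ 2) ^ 2 := by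
            rw [div_lt_iff₀ (pow_pos hδpos 2)]
            have e : (V1 * V2 / δ ^ 2) ^ 2 * δ ^ 2 = (V1 * V2) ^ 2 / δ ^ 2 := by
              field_simp
            rw [e, lt_div_iff₀ (pow_pos hδpos 2), ← mul_pow]
            refine sq_lt_sq'' ?_
            rw [mul_comm V1 V2]
            exact mul_lt_mul_of_lt_of_le' hElt hδle hV1pos
          have hQ : v (x1 * x2 - b) ^ 2 / δ ^ 2 / (V1 * V2 / δ ^ 2) =
              v (x1 * x2 - b) ^ 2 / (V1 * V2) := by
            field_simp
          -- the root of valuation `S`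
          have clampS : ∀ r : K, v r = V1 * V2 / δ ^ 2 → clampV v ν r = V2 / V1 := by
            intro r hr
            rcases lt_or_eq_of_le hle with hlt | heq
            · have hδV : δ = V1 := hδeq hlt
              have hr' : v r = V2 / V1 := by
                rw [hr, hδV]
                field_simp
              have hq1 : ν ≤ V2 / V1 := by
                rw [le_div_iff₀ hV1pos]
                exact (mul_le_of_le_one_right' hB1.le).trans hB2.le
              have hq2 : V2 / V1 ≤ 1 := (div_le_one₀ hV1pos).mpr hle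
              rw [clampV_eq_self (hr' ▸ hq1) (hr' ▸ hq2), hr']
            · have hr' : 1 ≤ v r := by
                rw [hr, one_le_div₀ (pow_pos hδpos 2), heq, ← sq]
                exact sq_le_sq'' hδle
              rw [clampV_eq_one hν1' hr', heq, div_self hV1pos.ne']
          -- the root of valuation `P / S`
          have clampQ : ∀ r : K, v r = v (x1 * x2 - b) ^ 2 / (V1 * V2) →
              clampV v ν r = fold ν (V1 * V2) := by
            intro r hr
            have hVV : 0 < V1 * V2 := mul_pos hV1pos hV2pos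
            rcases lt_trichotomy (V1 * V2) ν with hlt | heq | hgt
            · have hEeq : v (x1 * x2 - b) = ν := by
                have := v.map_sub_eq_of_lt_right (x := x1 * x2) (y := b)
                  (by rw [map_mul, hb, hV1, hV2]; exact hlt)
                rw [this, hb]
              rw [hEeq] at hr
              have hq1 : ν ≤ ν ^ 2 / (V1 * V2) := by
                rw [le_div_iff₀ hVV, sq]
                exact mul_le_mul_right hlt.le ν
              have hq2 : ν ^ 2 / (V1 * V2) ≤ 1 := by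
                rw [div_le_one₀ hVV, sq]
                exact mul_le_mul' hB1'.le hB2.le
              rw [clampV_eq_self (hr ▸ hq1) (hr ▸ hq2), hr, fold_of_lt hlt]
            · have hEle : v (x1 * x2 - b) ≤ ν := by
                have := hE
                rwa [heq, max_self] at this
              have hr' : v r ≤ ν := by
                rw [hr, heq, div_le_iff₀ hν, ← sq]
                exact sq_le_sq'' hEle
              rw [clampV_eq_nu hν1' hr', heq, fold_of_le le_rfl]
            · have hEeq : v (x1 * x2 - b) = V1 * V2 := by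
                have := v.map_sub_eq_of_lt_left (x := x1 * x2) (y := b)
                  (by rw [map_mul, hb, hV1, hV2]; exact hgt)
                rw [this, map_mul, hV1, hV2]
              have hr' : v r = V1 * V2 := by
                rw [hr, hEeq, sq, mul_div_assoc, div_self hVV.ne', mul_one]
              have hq2 : V1 * V2 ≤ 1 := mul_le_one' hB1.le hA2.le
              rw [clampV_eq_self (hr' ▸ hgt.le) (hr' ▸ hq2), hr', fold_of_le hgt.le]
          have hmin : min (V1 / V2) (V2 / V1) = V2 / V1 :=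
            min_eq_right (((div_le_one₀ hV1pos).mpr hle).trans ((one_le_div₀ hV2pos).mpr hle))
          rw [clampV_eq_self (x := x1) (hV1 ▸ hB1'.le) (hV1 ▸ hB1.le),
            clampV_eq_self (x := x2) (hV2 ▸ hB2.le) (hV2 ▸ hA2.le), hV1, hV2, hmin]
          rcases val_split_of_mul_of_add v hP hS hPlt with ⟨g1, g2⟩ | ⟨g2, g1⟩
          · right
            rw [hQ] at g2
            exact ⟨clampQ r2 g2, clampS r1 g1⟩
          · left
            rw [hQ] at g1
            exact ⟨clampQ r1 g1, clampS r2 g2⟩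

/-- **Unsigned component law.** Node model with `a = b₂`, `b = a₄`, `v a = 1`, `v b = ν < 1`
(no hypothesis on `v 2`): if `r1, r2` are the `X`-coordinates of `P₁ ± P₂` (expressed through
their sum and product in terms of `x1 = X(P₁)`, `x2 = X(P₂)`), then the clamped valuations of
`r1, r2` are `fold (h₁ h₂)` and `min (h₁ / h₂) (h₂ / h₁)` in some order. -/
theorem key (hν0 : ν ≠ 0) (hν1 : ν < 1) {a b : K} (ha : v a = 1)
    (hb : v b = ν) (x1 x2 r1 r2 : K) (hx : x1 ≠ x2)
    (hs : r1 + r2 = (2 * ((x1 + x2) * (x1 * x2 + b)) + a * x1 * x2) / (x1 - x2) ^ 2)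
    (hp : r1 * r2 = (x1 * x2 - b) ^ 2 / (x1 - x2) ^ 2) :
    (clampV v ν r1 = fold ν (clampV v ν x1 * clampV v ν x2) ∧
      clampV v ν r2 = min (clampV v ν x1 / clampV v ν x2) (clampV v ν x2 / clampV v ν x1)) ∨
    (clampV v ν r2 = fold ν (clampV v ν x1 * clampV v ν x2) ∧
      clampV v ν r1 = min (clampV v ν x1 / clampV v ν x2) (clampV v ν x2 / clampV v ν x1)) := by
  rcases le_total (v x2) (v x1) with hle | hle
  · exact key_aux hν0 hν1 ha hb x1 x2 r1 r2 hx hle hs hp
  · have hs' : r1 + r2 =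
        (2 * ((x2 + x1) * (x2 * x1 + b)) + a * x2 * x1) / (x2 - x1) ^ 2 := by
      rw [hs]; ring
    have hp' : r1 * r2 = (x2 * x1 - b) ^ 2 / (x2 - x1) ^ 2 := by
      rw [hp]; ring
    have := key_aux hν0 hν1 ha hb x2 x1 r1 r2 hx.symm hle hs' hp'
    rwa [mul_comm (clampV v ν x2), min_comm] at this

/-- **Doubling version of the unsigned component law** (node model, `a = b₂`, `b = a₄`,
no hypothesis on `v 2`): if `r = X(2P)` and `x = X(P)`, i.e.
`r * (x (4 x² + a x + 4 b)) = (x² - b)²`, then `h(r) = fold (h(x)²)`. -/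
theorem doubling (hν0 : ν ≠ 0) (hν1 : ν < 1) {a b : K} (ha : v a = 1) (hb : v b = ν)
    (x r : K) (hg : x * (4 * x ^ 2 + a * x + 4 * b) ≠ 0)
    (hr : r * (x * (4 * x ^ 2 + a * x + 4 * b)) = (x ^ 2 - b) ^ 2) :
    clampV v ν r = fold ν (clampV v ν x * clampV v ν x) := by
  have hν : 0 < ν := zero_lt_iff.mpr hν0
  have hν1' : ν ≤ 1 := hν1.le
  have h2le : v (2 : K) ≤ 1 := by
    have h := v.map_add (1 : K) 1
    rw [v.map_one, max_self, one_add_one_eq_two] at h
    exact h
  have h4le : v (4 : K) ≤ 1 := by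
    have e : (4 : K) = 2 * 2 := by norm_num
    rw [e, map_mul]
    exact mul_le_one' h2le h2le
  have hx0 : x ≠ 0 := left_ne_zero_of_mul hg
  have hq0 : 4 * x ^ 2 + a * x + 4 * b ≠ 0 := right_ne_zero_of_mul hg
  have hVpos : 0 < v x := zero_lt_iff.mpr ((v.ne_zero_iff).mpr hx0)
  have hQpos : 0 < v (4 * x ^ 2 + a * x + 4 * b) := zero_lt_iff.mpr ((v.ne_zero_iff).mpr hq0)
  have hDpos : 0 < v x * v (4 * x ^ 2 + a * x + 4 * b) := mul_pos hVpos hQpos
  have hvr : v r = v (x ^ 2 - b) ^ 2 / (v x * v (4 * x ^ 2 + a * x + 4 * b)) := by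
    have := congrArg v hr
    rw [map_mul, map_mul, map_pow] at this
    rw [eq_div_iff hDpos.ne']
    exact this
  have h4x : v (4 * x ^ 2) ≤ v x ^ 2 := by
    rw [map_mul, map_pow]
    exact mul_le_of_le_one_left' h4le
  have h4b : v (4 * b) ≤ ν := by
    rw [map_mul, hb]
    exact mul_le_of_le_one_left' h4le
  have hax : v (a * x) = v x := by rw [map_mul, ha, one_mul]
  rcases le_or_gt 1 (v x) with hA | hA
  · -- `1 ≤ v x`
    have hsq1 : 1 ≤ v x ^ 2 := one_le_pow₀ hA
    have hnum : v (x ^ 2 - b) = v x ^ 2 := by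
      have hlt : v b < v (x ^ 2) := by
        rw [hb, map_pow]
        exact lt_of_lt_of_le hν1 hsq1
      rw [v.map_sub_eq_of_lt_left hlt, map_pow]
    have hQle : v (4 * x ^ 2 + a * x + 4 * b) ≤ v x ^ 2 := by
      refine v.map_add_le (v.map_add_le h4x ?_) (h4b.trans (hν1'.trans hsq1))
      rw [hax, sq]
      exact le_mul_of_one_le_left' hA
    have hr1 : 1 ≤ v r := by
      rw [hvr, hnum, one_le_div₀ hDpos]
      calc v x * v (4 * x ^ 2 + a * x + 4 * b) ≤ v x * v x ^ 2 := mul_le_mul_right hQle _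
        _ ≤ v x ^ 2 * v x ^ 2 := mul_le_mul_left (by rw [sq]; exact le_mul_of_one_le_left' hA) _
        _ = (v x ^ 2) ^ 2 := (sq _).symm
    rw [clampV_eq_one hν1' hr1, clampV_eq_one hν1' hA, mul_one, fold_of_le hν1']
  · rcases le_or_gt (v x) ν with hC | hB
    · -- `v x ≤ ν`
      have hxx : v x ^ 2 < ν := by
        calc v x ^ 2 = v x * v x := sq _
          _ ≤ ν * ν := mul_le_mul' hC hC
          _ < ν := mul_lt_of_lt_one_left hν hν1
      have hnum : v (x ^ 2 - b) = ν := by
        have hlt : v (x ^ 2) < v b := by rw [hb, map_pow]; exact hxx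
        rw [v.map_sub_eq_of_lt_right hlt, hb]
      have hQle : v (4 * x ^ 2 + a * x + 4 * b) ≤ ν := by
        refine v.map_add_le (v.map_add_le (h4x.trans hxx.le) ?_) h4b
        rw [hax]
        exact hC
      have hr1 : 1 ≤ v r := by
        rw [hvr, hnum, one_le_div₀ hDpos]
        exact (mul_le_mul' hC hQle).trans (sq ν).symm.le
      rw [clampV_eq_one hν1' hr1, clampV_eq_nu hν1' hC,
        fold_of_lt (mul_lt_of_lt_one_left hν hν1), sq, div_self (mul_ne_zero hν0 hν0)]
    · -- `ν < v x < 1`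
      have hxx : v x ^ 2 < v x := by
        rw [sq]
        exact mul_lt_of_lt_one_left hVpos hA
      have hQeq : v (4 * x ^ 2 + a * x + 4 * b) = v x := by
        have h1 : v (4 * x ^ 2) < v (a * x) := by rw [hax]; exact lt_of_le_of_lt h4x hxx
        have h2 : v (4 * x ^ 2 + a * x) = v x := by
          rw [v.map_add_eq_of_lt_right h1, hax]
        have h3 : v (4 * b) < v (4 * x ^ 2 + a * x) := by
          rw [h2]; exact lt_of_le_of_lt h4b hB
        rw [v.map_add_eq_of_lt_left h3, h2]
      rw [hQeq] at hvr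
      have hVV : 0 < v x * v x := mul_pos hVpos hVpos
      rw [clampV_eq_self (x := x) hB.le hA.le]
      rcases lt_trichotomy (v x * v x) ν with hlt | heq | hgt
      · have hnum : v (x ^ 2 - b) = ν := by
          have hlt' : v (x ^ 2) < v b := by rw [hb, map_pow, sq]; exact hlt
          rw [v.map_sub_eq_of_lt_right hlt', hb]
        have hr' : v r = ν ^ 2 / (v x * v x) := by rw [hvr, hnum]
        have hq1 : ν ≤ ν ^ 2 / (v x * v x) := by
          rw [le_div_iff₀ hVV, sq]
          exact mul_le_mul_right hlt.le ν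
        have hq2 : ν ^ 2 / (v x * v x) ≤ 1 := by
          rw [div_le_one₀ hVV, sq]
          exact mul_le_mul' hB.le hB.le
        rw [clampV_eq_self (x := r) (hr' ▸ hq1) (hr' ▸ hq2), hr', fold_of_lt hlt]
      · have hnum : v (x ^ 2 - b) ≤ ν := by
          have e : v x ^ 2 = ν := by rw [sq]; exact heq
          have := v.map_sub (x ^ 2) b
          rwa [map_pow, hb, e, max_self] at this
        have hr' : v r ≤ ν := by
          rw [hvr, heq, div_le_iff₀ hν, ← sq]
          exact sq_le_sq'' hnum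
        rw [clampV_eq_nu hν1' hr', heq, fold_of_le le_rfl]
      · have hnum : v (x ^ 2 - b) = v x * v x := by
          have hlt' : v b < v (x ^ 2) := by rw [hb, map_pow, sq]; exact hgt
          rw [v.map_sub_eq_of_lt_left hlt', map_pow, sq]
        have hr' : v r = v x * v x := by
          rw [hvr, hnum, sq, mul_div_assoc, div_self hVV.ne', mul_one]
        have hq2 : v x * v x ≤ 1 := mul_le_one' hA.le hA.le
        rw [clampV_eq_self (x := r) (hr' ▸ hgt.le) (hr' ▸ hq2), hr', fold_of_le hgt.le]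

end Key

/-! ### Interface (shape of `Fermat.Agent.S05.PointSeq`) -/

section Interface

open Fermat.Agent.S05

variable {K : Type*} [Field K] {Γ₀ : Type*} [LinearOrderedCommGroupWithZero Γ₀]
  (v : Valuation K Γ₀)

/-- **Unsigned component law for the node model** `y² + a₁ x y = x³ + a₂ x² + a₄ x`
(`v b₂ = 1`, `0 < v a₄ < 1`, any residue characteristic): if `Xp`, `Xm` are the `x`-coordinates
of `P₁ + P₂`, `P₁ - P₂` (given through the classical formulas for their sum and product), then
the clamped valuations satisfy `{h(Xp), h(Xm)} = {fold (h₁ h₂), min (h₁ / h₂) (h₂ / h₁)}`. -/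
theorem add_law_node {a4 b2 X1 X2 Xp Xm : K} (hb2 : v b2 = 1) (ha4 : v a4 < 1) (ha40 : a4 ≠ 0)
    (hne : X1 ≠ X2)
    (F1 : Xp + Xm = (2 * ((X1 + X2) * (X1 * X2 + a4)) + b2 * (X1 * X2)) / (X1 - X2) ^ 2)
    (F2 : Xp * Xm = (X1 * X2 - a4) ^ 2 / (X1 - X2) ^ 2) :
    PointSeq.Rel (v a4) (max (v a4) (min 1 (v X1))) (max (v a4) (min 1 (v X2)))
      (max (v a4) (min 1 (v Xp))) (max (v a4) (min 1 (v Xm))) := by
  have hs : Xp + Xm = (2 * ((X1 + X2) * (X1 * X2 + a4)) + b2 * X1 * X2) / (X1 - X2) ^ 2 := by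
    rw [F1]; ring
  exact key ((v.ne_zero_iff).mpr ha40) ha4 hb2 rfl X1 X2 Xp Xm hne hs F2

/-- **Doubling version** for the node model: `h(x(2P)) = fold (h(x(P))²)`. -/
theorem double_law_node {a4 b2 X X' : K} (hb2 : v b2 = 1) (ha4 : v a4 < 1) (ha40 : a4 ≠ 0)
    (hg : X * (4 * X ^ 2 + b2 * X + 4 * a4) ≠ 0)
    (F3 : X' = (X ^ 2 - a4) ^ 2 / (X * (4 * X ^ 2 + b2 * X + 4 * a4))) :
    max (v a4) (min 1 (v X')) =
      (if v a4 ≤ max (v a4) (min 1 (v X)) * max (v a4) (min 1 (v X))
        then max (v a4) (min 1 (v X)) * max (v a4) (min 1 (v X))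
        else v a4 * v a4 / (max (v a4) (min 1 (v X)) * max (v a4) (min 1 (v X)))) := by
  have hr : X' * (X * (4 * X ^ 2 + b2 * X + 4 * a4)) = (X ^ 2 - a4) ^ 2 := by
    rw [F3]
    exact div_mul_cancel₀ _ hg
  exact doubling ((v.ne_zero_iff).mpr ha40) ha4 hb2 rfl X X' hg hr

end Interface

end Fermat.Agent.S13.NodeLaw
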