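import Fermat.Agent.S13.NodeLaw
import Fermat.Agent.Lib.TorsionCard.Basic

set_option autoImplicit false

/-!
# Point-level unsigned component law for node models, in any residue characteristic

Model: `W : y² + a₁ x y = x³ + a₂ x² + a₄ x` (`a₃ = a₆ = 0`) over a valued field `(K, v)` with
`v b₂ = 1`, `0 < v a₄ < 1`.  No hypothesis on `v 2`.

* `rel_point_node`: the unsigned component law for `Q ± P` on Mathlib points;
* `part3val_node`: an odd-order torsion point `P = (x, y)` with `v x < 1` has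
  `v a₄ < v x` and `v x ^ p` an even power of `v a₄`;
* `no_torsion_near_node`: consequently there is no such point when `v x` and `v a₄` are powers
  `g ^ m`, `g ^ n` of one element `g < 1` with `p ∤ n` (e.g. rational `x`, `g = v 2`);
* `hpt_nsmul_eq_one`: multiples of a point of height `1` have height `1`.
-/

namespace Fermat.Agent.S13.NodePoint

open WeierstrassCurve WeierstrassCurve.Affine
open Fermat.Agent.S05 Fermat.Agent.Lib.TorsionCard

section Model

variable {K : Type*} [Field K] {W : Affine K}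

theorem b₄_node (h₃ : W.a₃ = 0) : W.b₄ = 2 * W.a₄ := by
  simp only [WeierstrassCurve.b₄, h₃]; ring

theorem b₆_node (h₃ : W.a₃ = 0) (h₆ : W.a₆ = 0) : W.b₆ = 0 := by
  simp only [WeierstrassCurve.b₆, h₃, h₆]; ring

theorem b₈_node (h₃ : W.a₃ = 0) (h₆ : W.a₆ = 0) : W.b₈ = -W.a₄ ^ 2 := by
  simp only [WeierstrassCurve.b₈, h₃, h₆]; ring

end Model

variable {K : Type*} [Field K] [DecidableEq K] {Γ₀ : Type*} [LinearOrderedCommGroupWithZero Γ₀]
  (v : Valuation K Γ₀)

omit [DecidableEq K] in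
theorem hpt_of_hasXc {W : Affine K} (ν : Γ₀) {R : W.Point} {x : K} (h : HasXc W R x) :
    PointSeq.hpt v W ν R = max ν (min 1 (v x)) := by
  obtain ⟨y, hy, rfl⟩ := h
  rfl

omit [DecidableEq K] in
theorem hpt_neg {W : Affine K} (ν : Γ₀) (R : W.Point) :
    PointSeq.hpt v W ν (-R) = PointSeq.hpt v W ν R := by
  rcases R with _ | ⟨x, y, h⟩
  · rfl
  · rw [Point.neg_some]; rfl

omit [DecidableEq K] in
theorem hpt_mem {W : Affine K} {ν : Γ₀} (hν : ν ≤ 1) (R : W.Point) :
    ν ≤ PointSeq.hpt v W ν R ∧ PointSeq.hpt v W ν R ≤ 1 := by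
  rcases R with _ | ⟨x, y, h⟩
  · exact ⟨hν, le_rfl⟩
  · exact ⟨le_max_left _ _, max_le hν (min_le_left _ _)⟩

/-- The unsigned component law for `Q ± P` on a node model (`a₃ = a₆ = 0`, `v b₂ = 1`,
`0 < v a₄ < 1`, any residue characteristic), for an arbitrary point `Q` and an affine point `P`
which is not `2`-torsion. -/
theorem rel_point_node (W : Affine K) (h₃ : W.a₃ = 0) (h₆ : W.a₆ = 0) (hb2 : v W.b₂ = 1)
    (ha4 : v W.a₄ < 1) (ha40 : W.a₄ ≠ 0) {x y : K} (h : W.Nonsingular x y)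
    (h2P : 2 • Point.some x y h ≠ 0) (Q : W.Point) :
    PointSeq.Rel (v W.a₄) (PointSeq.hpt v W (v W.a₄) Q)
      (PointSeq.hpt v W (v W.a₄) (Point.some x y h))
      (PointSeq.hpt v W (v W.a₄) (Q + Point.some x y h))
      (PointSeq.hpt v W (v W.a₄) (Q - Point.some x y h)) := by
  set ν := v W.a₄ with hν
  have hν0 : ν ≠ 0 := (v.ne_zero_iff).mpr ha40
  have hνpos : 0 < ν := zero_lt_iff.mpr hν0
  set j := max ν (min 1 (v x)) with hj
  have hjν : ν ≤ j := le_max_left _ _
  have hj1 : j ≤ 1 := max_le ha4.le (min_le_left _ _)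
  have hjpos : 0 < j := lt_of_lt_of_le hνpos hjν
  have hj0 : j ≠ 0 := hjpos.ne'
  have hP : PointSeq.hpt v W ν (Point.some x y h) = j := rfl
  have hb4 : W.b₄ = 2 * W.a₄ := b₄_node h₃
  have hb6 : W.b₆ = 0 := b₆_node h₃ h₆
  have hb8 : W.b₈ = -W.a₄ ^ 2 := b₈_node h₃ h₆
  -- the doubling data
  have hden : 4 * x ^ 3 + W.b₂ * x ^ 2 + 2 * W.b₄ * x + W.b₆ ≠ 0 := by
    intro h0
    apply h2P
    have heq := (W.equation_iff x y).mp h.1
    have hB : 4 * x ^ 3 + W.b₂ * x ^ 2 + 2 * W.b₄ * x + W.b₆ = (y - W.negY x y) ^ 2 := by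
      simp only [WeierstrassCurve.b₂, WeierstrassCurve.b₄, WeierstrassCurve.b₆, negY]
      linear_combination (-4 : K) * heq
    rw [hB] at h0
    have hy : y = W.negY x y := sub_eq_zero.mp ((pow_eq_zero_iff two_ne_zero).mp h0)
    rw [two_nsmul]
    exact Point.add_self_of_Y_eq hy
  obtain ⟨x'', hX'', hx''⟩ := hasXc_two_nsmul (hasXc_some h) hden
  have hg : x * (4 * x ^ 2 + W.b₂ * x + 4 * W.a₄) ≠ 0 := by
    intro h0
    apply hden
    rw [hb4, hb6]
    linear_combination h0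
  have hF3 : x'' = (x ^ 2 - W.a₄) ^ 2 / (x * (4 * x ^ 2 + W.b₂ * x + 4 * W.a₄)) := by
    rw [eq_div_iff hg]
    rw [hb4, hb6, hb8] at hx''
    linear_combination hx''
  have hD := NodeLaw.double_law_node v hb2 ha4 ha40 hg hF3
  have h2Pht : PointSeq.hpt v W ν (2 • Point.some x y h) = max ν (min 1 (v x'')) :=
    hpt_of_hasXc v ν hX''
  have hmin1 : (1 : Γ₀) = min (j / j) (j / j) := by rw [div_self hj0, min_self]
  rw [hP]
  rcases Q with _ | ⟨x', y', h'⟩
  · -- `Q = 0`
    have e1 : (Point.zero : W.Point) + Point.some x y h = Point.some x y h := zero_add _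
    have e2 : (Point.zero : W.Point) - Point.some x y h = -Point.some x y h := zero_sub _
    rw [e1, e2, hpt_neg, hP]
    refine Or.inl ⟨?_, ?_⟩
    · show j = if ν ≤ 1 * j then 1 * j else ν * ν / (1 * j)
      rw [one_mul, if_pos hjν]
    · show j = min (1 / j) (j / 1)
      rw [div_one, min_eq_right]
      rw [le_div_iff₀ hjpos]
      exact mul_le_one₀ hj1 zero_le hj1
  · by_cases hxx : x' = x
    · subst hxx
      rcases HasXc.eq_or_eq_neg (hasXc_some h') (hasXc_some h) with e | e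
      · -- `Q = P`
        rw [e, sub_self, ← two_nsmul, h2Pht]
        exact Or.inl ⟨hD, hmin1⟩
      · -- `Q = -P`
        have e2 : -Point.some x' y h - Point.some x' y h = -(2 • Point.some x' y h) := by
          rw [two_nsmul]; abel
        rw [e, neg_add_cancel, e2, hpt_neg v ν (2 • Point.some x' y h), h2Pht,
          hpt_neg v ν (Point.some x' y h), hP]
        exact Or.inr ⟨hD, hmin1⟩
    · obtain ⟨x₃, x₄, hX₃, hX₄, hs, hp⟩ := hasXc_add_sub (hasXc_some h') (hasXc_some h) hxx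
      rw [hpt_of_hasXc v ν hX₃, hpt_of_hasXc v ν hX₄]
      have hd2 : (x' - x) ^ 2 ≠ 0 := pow_ne_zero 2 (sub_ne_zero.mpr hxx)
      refine NodeLaw.add_law_node v hb2 ha4 ha40 hxx ?_ ?_
      · rw [eq_div_iff hd2, hs, hb4, hb6]; ring
      · rw [eq_div_iff hd2, hp, hb4, hb6, hb8]; ring

/-- An affine point of odd order is not killed by `2`. -/
theorem two_nsmul_ne_zero_of_odd {G : Type*} [AddGroup G] {P : G} {p : ℕ} (hp : Odd p)
    (hP0 : P ≠ 0) (hP : p • P = 0) : 2 • P ≠ 0 := by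
  intro h2P
  obtain ⟨m, rfl⟩ := hp
  have h3 : (2 * m + 1) • P = P := by
    rw [add_nsmul, one_nsmul, mul_nsmul, h2P, nsmul_zero, zero_add]
  rw [h3] at hP
  exact hP0 hP

/-- The sequence law along the multiples of `P`: `h(nP)` is `h(P)^(± n)` times an even power
of `ν = v a₄`. -/
theorem seq_node (W : Affine K) (h₃ : W.a₃ = 0) (h₆ : W.a₆ = 0) (hb2 : v W.b₂ = 1)
    (ha4 : v W.a₄ < 1) (ha40 : W.a₄ ≠ 0) {x y : K} (h : W.Nonsingular x y)
    (h2P : 2 • Point.some x y h ≠ 0) (n : ℕ) :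
    PointSeq.T (v W.a₄) (max (v W.a₄) (min 1 (v x))) n
      (PointSeq.hpt v W (v W.a₄) (n • Point.some x y h)) := by
  set ν := v W.a₄ with hν
  have hν0 : ν ≠ 0 := (v.ne_zero_iff).mpr ha40
  have hνpos : 0 < ν := zero_lt_iff.mpr hν0
  set j := max ν (min 1 (v x)) with hj
  have hjν : ν ≤ j := le_max_left _ _
  have hj0 : j ≠ 0 := (lt_of_lt_of_le hνpos hjν).ne'
  set hs : ℕ → Γ₀ := fun n => PointSeq.hpt v W ν (n • Point.some x y h) with hhs
  have hs0 : hs 0 = 1 := by simp only [hhs, zero_nsmul]; rfl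
  have hs1 : hs 1 = j := by simp only [hhs, one_nsmul]; rfl
  have hR : ∀ n, 1 ≤ n → PointSeq.Rel ν (hs n) j (hs (n + 1)) (hs (n - 1)) := by
    intro n hn
    have e1 : (n + 1) • Point.some x y h = n • Point.some x y h + Point.some x y h :=
      succ_nsmul _ _
    have e2 : (n - 1) • Point.some x y h = n • Point.some x y h - Point.some x y h := by
      rw [eq_sub_iff_add_eq, ← succ_nsmul, Nat.sub_add_cancel hn]
    have := rel_point_node v W h₃ h₆ hb2 ha4 ha40 h h2P (n • Point.some x y h)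
    simp only [hhs, e1, e2]
    exact this
  exact PointSeq.seq_mem hj0 hν0 hs hs0 hs1 hR n

/-- **Node case of Part 3, any residue characteristic.**  On a node model (`a₃ = a₆ = 0`,
`v b₂ = 1`, `0 < v a₄ < 1`), a torsion point of odd order `p` with `v x < 1` has
`v a₄ < v x` and `v x ^ p` an even power of `v a₄`. -/
theorem part3val_node (W : Affine K) (h₃ : W.a₃ = 0) (h₆ : W.a₆ = 0) (hb2 : v W.b₂ = 1)
    (ha4 : v W.a₄ < 1) (ha40 : W.a₄ ≠ 0) {p : ℕ} (hp : Odd p)
    {x y : K} (h : W.Nonsingular x y) (hP : p • Point.some x y h = 0) (hx : v x < 1) :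
    v W.a₄ < v x ∧ ∃ k : ℤ, v x ^ p = v W.a₄ ^ (2 * k) := by
  set ν := v W.a₄ with hν
  have hν0 : ν ≠ 0 := (v.ne_zero_iff).mpr ha40
  have hνpos : 0 < ν := zero_lt_iff.mpr hν0
  set j := max ν (min 1 (v x)) with hj
  have hjν : ν ≤ j := le_max_left _ _
  have hj0 : j ≠ 0 := (lt_of_lt_of_le hνpos hjν).ne'
  have h2P : 2 • Point.some x y h ≠ 0 :=
    two_nsmul_ne_zero_of_odd hp (Point.some_ne_zero h) hP
  have hT := seq_node v W h₃ h₆ hb2 ha4 ha40 h h2P p
  rw [hP] at hT
  have hT' : PointSeq.T ν j p 1 := hT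
  obtain ⟨k, hk⟩ := PointSeq.exists_pow_eq_of_T_one hj0 hT'
  have hjne : j ≠ ν := by
    intro e
    rw [e] at hk
    exact PointSeq.not_pow_eq_zpow_two_mul hν0 ha4 hp k hk
  have hxν : ν < v x := by
    by_contra hle
    rw [not_lt] at hle
    apply hjne
    rw [hj, min_eq_right hx.le, max_eq_left hle]
  have hjx : j = v x := by
    rw [hj, min_eq_right hx.le, max_eq_right hxν.le]
  exact ⟨hxν, k, by rw [← hjx]; exact hk⟩

/-- **No torsion near the node over a discretely valued subfield.**  If `v x = g ^ m` and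
`v a₄ = g ^ n` for some `g < 1` (e.g. `x`, `a₄` rational and `g = v ℓ`) and the odd prime `p`
does not divide `n`, then a `p`-torsion point cannot have `v x < 1`. -/
theorem no_torsion_near_node (W : Affine K) (h₃ : W.a₃ = 0) (h₆ : W.a₆ = 0) (hb2 : v W.b₂ = 1)
    (ha4 : v W.a₄ < 1) (ha40 : W.a₄ ≠ 0) {p : ℕ} (hpp : p.Prime) (hp : Odd p)
    {x y : K} (h : W.Nonsingular x y) (hP : p • Point.some x y h = 0)
    {g : Γ₀} (hg0 : g ≠ 0) (hg1 : g < 1) {m n : ℤ} (hxg : v x = g ^ m) (hag : v W.a₄ = g ^ n)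
    (hpn : ¬ (p : ℤ) ∣ n) : 1 ≤ v x := by
  by_contra hx
  rw [not_le] at hx
  obtain ⟨hlt, k, hk⟩ := part3val_node v W h₃ h₆ hb2 ha4 ha40 hp h hP hx
  have hgpos : 0 < g := zero_lt_iff.mpr hg0
  rw [hxg, hag, ← zpow_natCast, ← zpow_mul, ← zpow_mul] at hk
  have hmk : m * (p : ℤ) = n * (2 * k) := zpow_right_injective₀ hgpos hg1.ne hk
  -- `0 < m < n`
  have hm0 : 0 < m := by
    by_contra hm
    rw [not_lt] at hm
    have : (1 : Γ₀) ≤ g ^ m := by
      have := zpow_le_zpow_right_of_le_one₀ hgpos hg1.le hm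
      rwa [zpow_zero] at this
    rw [hxg] at hx
    exact absurd hx (not_lt.mpr this)
  have hmn : m < n := by
    by_contra hmn
    rw [not_lt] at hmn
    have : g ^ m ≤ g ^ n := zpow_le_zpow_right_of_le_one₀ hgpos hg1.le hmn
    rw [hxg, hag] at hlt
    exact absurd hlt (not_lt.mpr this)
  -- `p ∣ k`
  have hpZ : Prime (p : ℤ) := Nat.prime_iff_prime_int.mp hpp
  have hdvd : (p : ℤ) ∣ n * (2 * k) := ⟨m, by rw [← hmk]; ring⟩
  have hpk : (p : ℤ) ∣ k := by
    rcases hpZ.dvd_or_dvd hdvd with h1 | h1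
    · exact absurd h1 hpn
    · rcases hpZ.dvd_or_dvd h1 with h2 | h2
      · exfalso
        have h2' : p ∣ 2 := by exact_mod_cast h2
        have hle : p ≤ 2 := Nat.le_of_dvd (by norm_num) h2'
        have hge : 2 ≤ p := hpp.two_le
        have : p = 2 := le_antisymm hle hge
        rw [this] at hp
        exact absurd hp (by decide)
      · exact h2
  obtain ⟨k', rfl⟩ := hpk
  have hp0 : (p : ℤ) ≠ 0 := by exact_mod_cast hpp.ne_zero
  have hm : m = n * (2 * k') := by
    have : m * (p : ℤ) = (n * (2 * k')) * p := by rw [hmk]; ring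
    exact mul_right_cancel₀ hp0 this
  have hn0 : 0 < n := lt_trans hm0 hmn
  rcases le_or_gt k' 0 with hk' | hk'
  · have : n * (2 * k') ≤ 0 := mul_nonpos_of_nonneg_of_nonpos hn0.le (by omega)
    omega
  · have : n * 1 ≤ n * (2 * k') := mul_le_mul_of_nonneg_left (by omega) hn0.le
    omega

/-- Multiples of a point of height `1` (not `2`-torsion) have height `1`: the points with
non-singular reduction (or in the kernel of reduction) are stable under multiplication. -/
theorem hpt_nsmul_eq_one (W : Affine K) (h₃ : W.a₃ = 0) (h₆ : W.a₆ = 0) (hb2 : v W.b₂ = 1)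
    (ha4 : v W.a₄ < 1) (ha40 : W.a₄ ≠ 0) {x y : K} (h : W.Nonsingular x y)
    (h2P : 2 • Point.some x y h ≠ 0) (hx : 1 ≤ v x) (n : ℕ) :
    PointSeq.hpt v W (v W.a₄) (n • Point.some x y h) = 1 := by
  set ν := v W.a₄ with hν
  have hν0 : ν ≠ 0 := (v.ne_zero_iff).mpr ha40
  have hνpos : 0 < ν := zero_lt_iff.mpr hν0
  have hT := seq_node v W h₃ h₆ hb2 ha4 ha40 h h2P n
  rw [min_eq_left hx, max_eq_right ha4.le] at hT
  obtain ⟨hlo, hhi⟩ := hpt_mem v ha4.le (n • Point.some x y h)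
  have key : ∀ k : ℤ, PointSeq.hpt v W ν (n • Point.some x y h) = ν ^ (2 * k) →
      PointSeq.hpt v W ν (n • Point.some x y h) = 1 := by
    intro k hk
    rw [hk] at hlo hhi ⊢
    have h1 : 2 * k ≤ 1 := by
      by_contra hc
      rw [not_le] at hc
      have : ν ^ (2 * k) < ν ^ (1 : ℤ) := zpow_lt_zpow_right_of_lt_one₀ hνpos ha4 hc
      rw [zpow_one] at this
      exact absurd hlo (not_le.mpr this)
    have h0 : 0 ≤ 2 * k := by
      by_contra hc
      rw [not_le] at hc
      have : ν ^ (0 : ℤ) < ν ^ (2 * k) := zpow_lt_zpow_right_of_lt_one₀ hνpos ha4 hc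
      rw [zpow_zero] at this
      exact absurd hhi (not_le.mpr this)
    have : k = 0 := by omega
    rw [this, mul_zero, zpow_zero]
  rcases hT with ⟨k, hk⟩ | ⟨k, hk⟩
  · rw [one_zpow, one_mul] at hk
    exact key k hk
  · rw [one_zpow, one_mul] at hk
    exact key k hk

end Fermat.Agent.S13.NodePoint
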