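import Fermat.Agent.S13.Assembly
import Fermat.Agent.Lib.TorsionFinite
import Fermat.Agent.Lib.TorsionCard
import Fermat.Agent.Lib.Frobenius
import Fermat.Agent.Lib.InertiaBridge
import Fermat.Agent.S05
import Fermat.Agent.S13.LocTwoFrey
import Fermat.Agent.S13.DichotomyFrey
import Fermat.Agent.S13.Ladder
import Fermat.Agent.S13.KerRedGen
import Fermat.Agent.S13.LegP

set_option autoImplicit false

open WeierstrassCurve WeierstrassCurve.Affine WeierstrassCurve.Affine.Point
open scoped WeierstrassCurve.Affine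

/-!
# Wiring of S13 from the landed engines

`result_of_rat`: the frozen S13 conclusion from the single remaining input, the absence of a
Galois-fixed point of order `p` on the Frey curve.
-/

namespace Fermat.Agent.S13.Wire

theorem t2Shape : Fermat.Agent.S13.DichotomyFrey.T2Shape := by
  intro A W hc p hp hp5 hunits S hS
  exact Fermat.Agent.S13.Ladder.torsion_newton_bound A.valuation W hc.1 hc.2.1 hc.2.2.1
    hc.2.2.2.1 hc.2.2.2.2 p hp (by omega) hunits S hS

theorem c2Shape : Fermat.Agent.S13.DichotomyFrey.C2Shape := by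
  intro A W hc Q x hQ hx k hk
  obtain ⟨xn, h1, h2⟩ := Fermat.Agent.S13.KerRedGen.nsmul_unit
    (Fermat.Agent.S13.KerRedGen.intB_of_coeffs hc.1 hc.2.1 hc.2.2.1 hc.2.2.2.1 hc.2.2.2.2)
    hQ hx k hk
  exact ⟨xn, h1, by rw [h2]; exact hx⟩

/-- LOC-p: at a place over `p`, inertia acts trivially on the stable line `N` or on the
quotient by it. -/
theorem locP (P : FreyPackage)
    (N : Submodule (ZMod P.p) (Submodule.torsionBy ℤ (P.freyCurve⁄(AlgebraicClosure ℚ)).Point P.p))
    (hNs : IsGaloisStable ℚ N) (hN0 : N ≠ ⊥) (hN1 : N ≠ ⊤)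
    (A : ValuationSubring (AlgebraicClosure ℚ)) (hA : A.LiesOverPrime P.p) :
    (∀ σ : AlgebraicClosure ℚ ≃ₐ[ℚ] AlgebraicClosure ℚ, σ ∈ A.inertiaSubgroupIn ℚ →
      ∀ x ∈ N, σ • x = x) ∨
    (∀ σ : AlgebraicClosure ℚ ≃ₐ[ℚ] AlgebraicClosure ℚ, σ ∈ A.inertiaSubgroupIn ℚ →
      ∀ x : Submodule.torsionBy ℤ (P.freyCurve⁄(AlgebraicClosure ℚ)).Point P.p,
        σ • x - x ∈ N) := by
  have hpf : Fact P.p.Prime := ⟨P.pp⟩
  have hcard : Nat.card N = P.p :=
    Fermat.Agent.Lib.TorsionCard.card_submodule (K := AlgebraicClosure ℚ) P.freyCurve P.p N hN0 hN1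
  have hp2 : P.p ≠ 2 := by have := P.hp5; omega
  have htors : ∀ x : Submodule.torsionBy ℤ (P.freyCurve⁄(AlgebraicClosure ℚ)).Point P.p,
      (P.p : ℤ) • (x : (P.freyCurve⁄(AlgebraicClosure ℚ)).Point) = 0 :=
    fun x => (Submodule.mem_torsionBy_iff _ _).mp x.2
  rcases Fermat.Agent.S13.DichotomyFrey.frey_dichotomy_inKer_of t2Shape c2Shape P A hA N hNs hcard
    with h | h
  · left
    intro σ hσ x hx
    rcases Fermat.Agent.S13.LegP.frey_inertia_sub P P.pp hp2 A hA σ hσ x (htors x) with h1 | h1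
    · have h0 := h x hx h1
      rw [h0]
      exact smul_zero σ
    · have h2 : σ • x - x ∈ N := N.sub_mem (hNs σ x hx) hx
      exact sub_eq_zero.mp (h (σ • x - x) h2 h1)
  · right
    intro σ hσ x
    rcases Fermat.Agent.S13.LegP.frey_inertia_sub P P.pp hp2 A hA σ hσ x (htors x) with h1 | h1
    · have hxN : x ∈ N := h x h1
      exact N.sub_mem (hNs σ x hxN) hxN
    · exact h (σ • x - x) h1

/-- S13 from the absence of a Galois-fixed point of order `p` on the Frey curve. -/
theorem result_of_rat (P : FreyPackage)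
    (hrat : ∀ Q : (P.freyCurve⁄(AlgebraicClosure ℚ)).Point, Q ≠ 0 → P.p • Q = 0 →
      (∀ σ : AlgebraicClosure ℚ ≃ₐ[ℚ] AlgebraicClosure ℚ, σ • Q = Q) → False)
    (hred : ¬ GaloisRepIsIrreducible (K := AlgebraicClosure ℚ) ℚ P.freyCurve P.p) :
    HasGaloisStableCofixedLine (K := AlgebraicClosure ℚ) ℚ P.freyCurve P.p := by
  refine Fermat.Agent.S13.Assembly.result_of_parts P
    (Fermat.Agent.Lib.TorsionCard.frey_finrank P)
    (Fermat.Agent.Lib.TorsionFinite.frey_galoisFactorsThroughFiniteLevel P)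
    (fun q hq => Fermat.Agent.Lib.Frobenius.exists_liesOverPrime hq)
    ?_
    (fun q hq hq2 hqp => Fermat.Agent.S05.result P hq hq2 hqp)
    ?_
    (fun N hNs hN0 hN1 A hA => locP P N hNs hN0 hN1 A hA)
    hrat hred
  · intro H hH hL hI
    obtain ⟨L, hLfin, hL⟩ := hL
    exact Fermat.Agent.Lib.InertiaBridge.eq_top_of_inertia_le H L
      (fun σ hσ => hL σ (fun x hx => (IntermediateField.mem_fixingSubgroup_iff L σ).mp hσ x hx)) hI
  · intro A hA σ hσ Pt hPt
    exact Fermat.Agent.S13.LocTwoFrey.inertia_two_unipotent P A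
      (by
        show ((2 : ℕ) : AlgebraicClosure ℚ) ∈ A.nonunits
        simpa using hA) σ hσ Pt hPt

end Fermat.Agent.S13.Wire
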